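import Mathlib
import Fermat.Prelude.Def_ModularForm_EisensteinChiNegThree

/-!
# The weight one input of the mod three step

Weight one cusp forms of level `27 M` indexed by the products of affine lines over a set `S` of
primes, with `M = MA ∏_{q ∈ S} q`, eigenforms at the primes of `P₀`; under `Γ(27) ∩ Γ₀(MA)` they are
permuted, modulo the maximal ideal, like the differences `e_l - e_∞` of the functions on the
product of projective lines.
-/

set_option autoImplicit false

noncomputable section

open UpperHalfPlane CongruenceSubgroup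
open scoped MatrixGroups ModularForm Manifold OnePoint

namespace FermatAgent.LT.Mod3

instance factPrime (q : Nat.Primes) : Fact (q : ℕ).Prime := ⟨q.2⟩

/-- The matrix `(d, b; c, a)` modulo `q` of `γ = (a, b; c, d)`. -/
def tld (q : ℕ) (γ : SL(2, ℤ)) : SL(2, ZMod q) :=
  ⟨!![(γ 1 1 : ZMod q), (γ 0 1 : ZMod q); (γ 1 0 : ZMod q), (γ 0 0 : ZMod q)], by
    have h := congrArg (fun z : ℤ => (z : ZMod q)) γ.det_coe
    simp only [Matrix.det_fin_two, Int.cast_sub, Int.cast_mul, Int.cast_one] at h
    rw [Matrix.det_fin_two_of]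
    linear_combination h⟩

/-- The permutation of the projective line attached to `γ`. -/
def moebius (q : Nat.Primes) (γ : SL(2, ℤ)) (x : OnePoint (ZMod (q : ℕ))) :
    OnePoint (ZMod (q : ℕ)) :=
  Matrix.SpecialLinearGroup.toGL (tld (q : ℕ) γ) • x

/-- The indices of a family: the products of the affine lines over the primes of `S`. -/
abbrev Idx (S : Finset Nat.Primes) := (q : S) → ZMod ((q.1 : Nat.Primes) : ℕ)

open Classical in
/-- The action on the differences `e_l - e_∞`, as a matrix. -/
def augMat (k : Type*) [CommRing k] {S : Finset Nat.Primes} (γ : SL(2, ℤ)) (i l : Idx S) : k :=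
  ∏ q : S, ((if moebius q.1 γ (i q : OnePoint _) = (l q : OnePoint _) then 1 else 0) -
    (if moebius q.1 γ ∞ = (l q : OnePoint _) then 1 else 0))

/-- The character `χ₋₃` on integers. -/
def chi (d : ℤ) : ℂ := (EisensteinWeightOne.chiNegThree (d % 3).toNat : ℂ)

/-- The relation `T_p = t` for the coefficients of an expansion of weight one and trivial character:
`a (p n) + a (n / p) = t a n`. -/
def IsHeckeSeq {R : Type*} [Semiring R] (a : ℕ → R) (p : ℕ) (t : R) : Prop :=
  ∀ n, a (p * n) + (if p ∣ n then a (n / p) else 0) = t * a n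

/-- The levels of the inputs: squarefree, prime to `3` and divisible by a prime `q ≡ 2 (mod 3)`. -/
structure IsInputLevel (M : ℕ) : Prop where
  squarefree : Squarefree M
  not_three : ¬ 3 ∣ M
  exists_inert : ∃ q : ℕ, q.Prime ∧ q ∣ M ∧ q % 3 = 2

/-- The weight one input, with eigenvalue `t p` of the Hecke operators at the primes of `P₀`. -/
structure Input (M : ℕ) (O : ValuationSubring ℂ) (t : ℕ → ℤ) (P₀ : Set ℕ) where
  /-- the level of the principal series part -/
  MA : ℕ
  /-- the primes of cuspidal type -/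
  S : Finset Nat.Primes
  level_eq : MA * ∏ q ∈ S, (q : ℕ) = M
  /-- the forms -/
  h : Idx S → ℍ → ℂ
  mdiff : ∀ i, MDiff (h i)
  cusp : ∀ i (δ : SL(2, ℤ)), IsZeroAtImInfty (h i ∣[(1 : ℤ)] δ)
  invariant : ∀ γ ∈ Gamma (27 * M), ∀ i, h i ∣[(1 : ℤ)] γ = h i
  slash : ∀ γ ∈ Gamma 27 ⊓ Gamma0 MA, ∃ C : Idx S → Idx S → O,
    (∀ i l, IsLocalRing.residue O (C i l) = augMat (IsLocalRing.ResidueField O) γ i l) ∧
    ∀ i, h i ∣[(1 : ℤ)] γ = fun τ => ∑ l, (C i l : ℂ) * h l τ
  ne_zero : ∃ i, h i ≠ 0
  hecke : ∀ p ∈ P₀, ∀ i,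
    IsHeckeSeq (fun n => (qExpansion ((27 * M : ℕ) : ℝ) (h i)).coeff n) p (t p)

end FermatAgent.LT.Mod3
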