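import Mathlib
import Fermat.Agent.HM.H1.Parabolic
import Fermat.Agent.HM.HeckeCosets

/-!
# The Hecke correspondence at a prime congruent to one

With representatives congruent to the identity modulo `N`, the element moved to the left is
congruent to the original one, so the correspondence acts on every group containing `Γ(N)`.
-/

set_option autoImplicit false

noncomputable section

open CongruenceSubgroup ModularCurve.Period
open scoped MatrixGroups OnePoint

namespace FermatAgent.LT.Mod3

open FermatAgent.HM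

/-- Representatives of `T_p` congruent to one modulo `N`. -/
def congRep (N p : ℕ) (x : OnePoint (ZMod p)) : Mat2 :=
  x.elim !![(p : ℤ), 0; 0, 1] fun j => !![1, ((N * j.val : ℕ) : ℤ); 0, (p : ℤ)]

@[simp] lemma congRep_infty (N p : ℕ) : congRep N p ∞ = !![(p : ℤ), 0; 0, 1] := rfl

@[simp] lemma congRep_coe (N p : ℕ) (j : ZMod p) :
    congRep N p j = !![1, ((N * j.val : ℕ) : ℤ); 0, (p : ℤ)] := rfl

/-- One modulo a multiple of three is one modulo three. -/
lemma mod_three_of_cast_eq_one {n p : ℕ} (h3 : 3 ∣ n) (h : (p : ZMod n) = 1) : p % 3 = 1 := by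
  have h' := congrArg (ZMod.castHom h3 (ZMod 3)) h
  rw [map_natCast, map_one, ← Nat.cast_one, ZMod.natCast_eq_natCast_iff'] at h'
  exact h'

/-- A prime congruent to one modulo `N`. -/
structure IsCongPrime (N p : ℕ) : Prop where
  prime : p.Prime
  not_dvd : ¬ p ∣ N
  cast_eq_one : (p : ZMod N) = 1

variable {N p : ℕ}

/-- The representatives have determinant `p`. -/
lemma congRep_det (x : OnePoint (ZMod p)) : (congRep N p x).det = p := by
  induction x using OnePoint.rec <;> simp [Matrix.det_fin_two_of]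

/-- Reduction of integral matrices. -/
def redMat (N : ℕ) : Mat2 →+* Matrix (Fin 2) (Fin 2) (ZMod N) :=
  (Int.castRingHom (ZMod N)).mapMatrix

lemma congRep_red (h : IsCongPrime N p) (x : OnePoint (ZMod p)) :
    redMat N (congRep N p x) = 1 := by
  induction x using OnePoint.rec <;> ext i j <;> fin_cases i <;> fin_cases j <;>
    simp [redMat, h.cast_eq_one]

/-- Representatives are shifted standard ones. -/
lemma exists_shift (h : IsCongPrime N p) (x : OnePoint (ZMod p)) :
    ∃ (k : ℤ) (z : OnePoint (ZMod p)),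
      congRep N p x = ((ModularGroup.T ^ k : SL(2, ℤ)) : Mat2) * repMat p z := by
  have : Fact p.Prime := ⟨h.prime⟩
  induction x using OnePoint.rec with
  | infty =>
    refine ⟨0, ∞, ?_⟩
    simp
  | coe j =>
    refine ⟨((N * j.val : ℕ) / p : ℕ), (((N * j.val : ℕ) : ZMod p) : OnePoint (ZMod p)), ?_⟩
    have e : (((N * j.val : ℕ) : ℤ)) = ((N * j.val % p : ℕ) : ℤ) +
        ((N * j.val / p : ℕ) : ℤ) * (p : ℤ) := by
      exact_mod_cast (by rw [mul_comm _ p, Nat.mod_add_div] :
        N * j.val = N * j.val % p + N * j.val / p * p)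
    rw [congRep_coe, repMat_coe, ModularGroup.coe_T_zpow, ZMod.val_natCast]
    ext a b
    fin_cases a <;> fin_cases b <;> simp [Matrix.mul_apply, Fin.sum_univ_two] at e ⊢
    linarith

/-- The representatives lie in distinct classes for left multiplication by `SL(2, ℤ)`. -/
theorem congRep_unique (h : IsCongPrime N p) {γ : SL(2, ℤ)} {x y : OnePoint (ZMod p)}
    (hxy : congRep N p x = (γ : Mat2) * congRep N p y) : x = y := by
  have : Fact p.Prime := ⟨h.prime⟩
  obtain ⟨k, z, hz⟩ := exists_shift h x
  obtain ⟨k', z', hz'⟩ := exists_shift h y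
  rw [hz, hz'] at hxy
  have hzz : repMat p z =
      (((ModularGroup.T ^ k)⁻¹ * γ * ModularGroup.T ^ k' : SL(2, ℤ)) : Mat2) * repMat p z' := by
    rw [Matrix.SpecialLinearGroup.coe_mul, Matrix.SpecialLinearGroup.coe_mul, mul_assoc, mul_assoc,
      ← hxy, ← mul_assoc, ← Matrix.SpecialLinearGroup.coe_mul, inv_mul_cancel,
      Matrix.SpecialLinearGroup.coe_one, one_mul]
  have e := repMat_unique hzz
  subst e
  have hN : (N : ZMod p) ≠ 0 := fun e => h.not_dvd ((ZMod.natCast_eq_zero_iff N p).mp e)
  induction x using OnePoint.rec with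
  | infty =>
    induction y using OnePoint.rec with
    | infty => rfl
    | coe j =>
      exfalso
      have e1 := congrArg (fun A : Mat2 => (A 0 0 : ZMod p)) hz
      have e2 := congrArg (fun A : Mat2 => (A 0 0 : ZMod p)) hz'
      induction z using OnePoint.rec <;>
        simp [ModularGroup.coe_T_zpow, Matrix.mul_apply, Fin.sum_univ_two] at e1 e2
  | coe i =>
    induction y using OnePoint.rec with
    | infty =>
      exfalso
      have e1 := congrArg (fun A : Mat2 => (A 0 0 : ZMod p)) hz
      have e2 := congrArg (fun A : Mat2 => (A 0 0 : ZMod p)) hz'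
      induction z using OnePoint.rec <;>
        simp [ModularGroup.coe_T_zpow, Matrix.mul_apply, Fin.sum_univ_two] at e1 e2
    | coe j =>
      have e1 := congrArg (fun A : Mat2 => (A 0 1 : ZMod p)) hz
      have e2 := congrArg (fun A : Mat2 => (A 0 1 : ZMod p)) hz'
      induction z using OnePoint.rec with
      | infty =>
        exfalso
        have e3 := congrArg (fun A : Mat2 => (A 0 0 : ZMod p)) hz
        simp [ModularGroup.coe_T_zpow, Matrix.mul_apply, Fin.sum_univ_two] at e3
      | coe c =>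
        simp [ModularGroup.coe_T_zpow, Matrix.mul_apply, Fin.sum_univ_two,
          -ZMod.natCast_val] at e1 e2
        rw [← e2, mul_right_inj' hN] at e1
        simpa using e1

/-- Every integral matrix of determinant `p` is in the class of one of the representatives. -/
theorem exists_congRep_mul (h : IsCongPrime N p) (A : Mat2) (hA : A.det = p) :
    ∃ (y : OnePoint (ZMod p)) (g : SL(2, ℤ)), A = (g : Mat2) * congRep N p y := by
  classical
  have : Fact p.Prime := ⟨h.prime⟩
  choose k z hz using exists_shift (N := N) (p := p) h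
  have hinj : Function.Injective z := fun x y e => congRep_unique h
    (γ := ModularGroup.T ^ k x * (ModularGroup.T ^ k y)⁻¹) (by
      rw [hz x, hz y, e, Matrix.SpecialLinearGroup.coe_mul, ← mul_assoc,
        mul_assoc _ _ ((ModularGroup.T ^ k y : SL(2, ℤ)) : Mat2),
        ← Matrix.SpecialLinearGroup.coe_mul, inv_mul_cancel, Matrix.SpecialLinearGroup.coe_one,
        mul_one])
  obtain ⟨γ, w, hw⟩ := exists_eq_mul_repMat (M := 1) (fun hd => h.prime.not_dvd_one hd) A hA
    (by simp)
  obtain ⟨y, rfl⟩ := (Finite.injective_iff_surjective.mp hinj) w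
  refine ⟨y, (γ : SL(2, ℤ)) * (ModularGroup.T ^ k y)⁻¹, ?_⟩
  rw [hw, hz y, Matrix.SpecialLinearGroup.coe_mul, ← mul_assoc,
    mul_assoc _ _ ((ModularGroup.T ^ k y : SL(2, ℤ)) : Mat2), ← Matrix.SpecialLinearGroup.coe_mul,
    inv_mul_cancel, Matrix.SpecialLinearGroup.coe_one, mul_one]

lemma exists_move (h : IsCongPrime N p) (γ : SL(2, ℤ)) (x : OnePoint (ZMod p)) :
    ∃ (y : OnePoint (ZMod p)) (g : SL(2, ℤ)),
      congRep N p x * (γ : Mat2) = (g : Mat2) * congRep N p y :=
  exists_congRep_mul h _ (by rw [Matrix.det_mul, congRep_det, γ.det_coe, mul_one])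

/-- The index reached. -/
def moveIdx (h : IsCongPrime N p) (γ : SL(2, ℤ)) (x : OnePoint (ZMod p)) : OnePoint (ZMod p) :=
  (exists_move h γ x).choose

/-- The element moved to the left. -/
def moveFac (h : IsCongPrime N p) (γ : SL(2, ℤ)) (x : OnePoint (ZMod p)) : SL(2, ℤ) :=
  (exists_move h γ x).choose_spec.choose

lemma move_spec (h : IsCongPrime N p) (γ : SL(2, ℤ)) (x : OnePoint (ZMod p)) :
    congRep N p x * (γ : Mat2) = (moveFac h γ x : Mat2) * congRep N p (moveIdx h γ x) :=
  (exists_move h γ x).choose_spec.choose_spec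

/-- The permutation of the indices is determined. -/
lemma moveIdx_eq (h : IsCongPrime N p) {γ g : SL(2, ℤ)} {x y : OnePoint (ZMod p)}
    (e : congRep N p x * (γ : Mat2) = (g : Mat2) * congRep N p y) : moveIdx h γ x = y := by
  refine (congRep_unique h (γ := g⁻¹ * moveFac h γ x) ?_).symm
  rw [Matrix.SpecialLinearGroup.coe_mul, mul_assoc, ← move_spec, e, ← mul_assoc,
    ← Matrix.SpecialLinearGroup.coe_mul, inv_mul_cancel, Matrix.SpecialLinearGroup.coe_one,
    one_mul]

lemma moveIdx_mul (h : IsCongPrime N p) (γ δ : SL(2, ℤ)) (x : OnePoint (ZMod p)) :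
    moveIdx h (γ * δ) x = moveIdx h δ (moveIdx h γ x) := by
  refine moveIdx_eq h (g := moveFac h γ x * moveFac h δ (moveIdx h γ x)) ?_
  rw [Matrix.SpecialLinearGroup.coe_mul, ← mul_assoc, move_spec, mul_assoc, move_spec, ← mul_assoc,
    ← Matrix.SpecialLinearGroup.coe_mul]

lemma moveIdx_one (h : IsCongPrime N p) (x : OnePoint (ZMod p)) : moveIdx h 1 x = x :=
  moveIdx_eq h (g := 1) (by simp)

/-- The permutation of the representatives. -/
def movePerm (h : IsCongPrime N p) (γ : SL(2, ℤ)) : Equiv.Perm (OnePoint (ZMod p)) where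
  toFun := moveIdx h γ
  invFun := moveIdx h γ⁻¹
  left_inv x := by rw [← moveIdx_mul, mul_inv_cancel, moveIdx_one]
  right_inv x := by rw [← moveIdx_mul, inv_mul_cancel, moveIdx_one]

/-- Factors are congruent to the element. -/
lemma moveFac_red (h : IsCongPrime N p) (γ : SL(2, ℤ)) (x : OnePoint (ZMod p)) :
    redMat N (moveFac h γ x : Mat2) = redMat N (γ : Mat2) := by
  have e := congrArg (redMat N) (move_spec h γ x)
  rw [map_mul, map_mul, congRep_red h, congRep_red h, one_mul, mul_one] at e
  exact e.symm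

/-- Membership in `Γ(N)` through reduction. -/
lemma mem_Gamma_iff_red {g : SL(2, ℤ)} : g ∈ Gamma N ↔ redMat N (g : Mat2) = 1 := by
  rw [Gamma_mem, ← Matrix.ext_iff]
  simp [redMat, Fin.forall_fin_two, and_assoc]

lemma mem_of_red_eq {Γ : Subgroup SL(2, ℤ)} (hΓ : Gamma N ≤ Γ) {g γ : SL(2, ℤ)}
    (e : redMat N (g : Mat2) = redMat N (γ : Mat2)) (hγ : γ ∈ Γ) : g ∈ Γ := by
  have h1 : g * γ⁻¹ ∈ Gamma N := by
    rw [mem_Gamma_iff_red, Matrix.SpecialLinearGroup.coe_mul, map_mul, e, ← map_mul,
      ← Matrix.SpecialLinearGroup.coe_mul, mul_inv_cancel, Matrix.SpecialLinearGroup.coe_one,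
      map_one]
  simpa using Γ.mul_mem (hΓ h1) hγ

/-- The correspondence on a group containing `Γ(N)`. -/
def congCorr (h : IsCongPrime N p) (Γ : Subgroup SL(2, ℤ)) (hΓ : Gamma N ≤ Γ) :
    Corr (⊤ : Submonoid Mat2) Γ Γ (OnePoint (ZMod p)) where
  rep := congRep N p
  det_ne x := by rw [congRep_det]; exact_mod_cast h.prime.ne_zero
  adj_mem _ := Submonoid.mem_top _
  perm γ := movePerm h γ
  perm_mul a b := Equiv.ext fun x => moveIdx_mul h a b x
  exists_fac γ x := ⟨⟨moveFac h γ x, mem_of_red_eq hΓ (moveFac_red h γ x) γ.2⟩, move_spec h γ x⟩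

variable {Γ : Subgroup SL(2, ℤ)} {hΓ : Gamma N ≤ Γ}

/-- The factor of the correspondence. -/
lemma congCorr_fac_coe (h : IsCongPrime N p) (γ : Γ) (x : OnePoint (ZMod p)) :
    ((congCorr h Γ hΓ).fac γ x : SL(2, ℤ)) = moveFac h γ x :=
  congrArg Subtype.val ((congCorr h Γ hΓ).fac_unique
    (el := ⟨moveFac h γ x, mem_of_red_eq hΓ (moveFac_red h γ x) γ.2⟩) (move_spec h γ x))

lemma congCorr_irredundant (h : IsCongPrime N p) : (congCorr h Γ hΓ).IsIrredundant :=
  fun _ _ _ e => congRep_unique h e

instance fintypeOnePointZMod [NeZero p] : Fintype (OnePoint (ZMod p)) :=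
  inferInstanceAs (Fintype (Option (ZMod p)))

/-- `T_p - (p + 1)` maps homomorphisms to parabolic ones. -/
theorem congCorr_unitRoot [NeZero p] (h : IsCongPrime N p) (hneg : (-1 : SL(2, ℤ)) ∈ Γ) :
    IsUnitRootHecke (congCorr h Γ hΓ) N p where
  gamma_le := hΓ
  neg_mem := hneg
  prime := h.prime
  cast_eq_one := h.cast_eq_one
  card_eq := by
    change Fintype.card (Option (ZMod p)) = p + 1
    rw [Fintype.card_option, ZMod.card]
  irredundant := congCorr_irredundant h
  complete A hA hred := by
    obtain ⟨y, g, e⟩ := exists_congRep_mul h A hA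
    have hg : g ∈ Γ := by
      refine hΓ (mem_Gamma_iff_red.mpr ?_)
      have e' := congrArg (redMat N) e
      rw [map_mul, congRep_red h, mul_one, show redMat N A = 1 from hred] at e'
      exact e'.symm
    exact ⟨y, ⟨g, hg⟩, e⟩

end FermatAgent.LT.Mod3
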