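import Mathlib

/-!
# Eigensystems occurring as subquotients

A family of scalars occurs in a module with operators when some stable submodule has a vector
outside it on which every operator acts by the scalar modulo the submodule.  No commutation and no
finiteness are needed.
-/

set_option autoImplicit false

noncomputable section

namespace FermatAgent.LT.Mod3

variable {k ι : Type*} [CommRing k] {X Y Z : Type*} [AddCommGroup X] [Module k X] [AddCommGroup Y]
  [Module k Y] [AddCommGroup Z] [Module k Z]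

/-- The system `a` occurs in a subquotient. -/
def Occurs (T : ι → X →ₗ[k] X) (a : ι → k) : Prop :=
  ∃ (W : Submodule k X) (v : X), (∀ i, ∀ w ∈ W, T i w ∈ W) ∧ v ∉ W ∧
    ∀ i, T i v - a i • v ∈ W

/-- Intertwining maps. -/
def Intertwines (T : ι → X →ₗ[k] X) (T' : ι → Y →ₗ[k] Y) (f : X →ₗ[k] Y) : Prop :=
  ∀ i x, f (T i x) = T' i (f x)

namespace Occurs

variable {T : ι → X →ₗ[k] X} {T' : ι → Y →ₗ[k] Y} {T'' : ι → Z →ₗ[k] Z} {a : ι → k}
  {f : X →ₗ[k] Y} {g : Y →ₗ[k] Z}

/-- A system of the target of a surjection occurs in the source. -/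
theorem of_surjective (hf : Intertwines T T' f) (hs : Function.Surjective f) (h : Occurs T' a) :
    Occurs T a := by
  obtain ⟨W, v, hW, hv, he⟩ := h
  obtain ⟨x, rfl⟩ := hs v
  refine ⟨W.comap f, x, fun i w hw => ?_, hv, fun i => ?_⟩
  · rw [Submodule.mem_comap, hf]
    exact hW i _ hw
  · rw [Submodule.mem_comap, map_sub, hf, map_smul]
    exact he i

/-- A system of the middle term occurs in one of the outer terms. -/
theorem of_exact (hf : Intertwines T T' f) (hg : Intertwines T' T'' g)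
    (he : Function.Exact f g) (h : Occurs T' a) : Occurs T a ∨ Occurs T'' a := by
  obtain ⟨W, v, hW, hv, hev⟩ := h
  by_cases hc : v ∈ W ⊔ LinearMap.range f
  · left
    obtain ⟨w, hw, _, ⟨x, rfl⟩, hsum⟩ := Submodule.mem_sup.mp hc
    refine ⟨W.comap f, x, fun i u hu => ?_, fun hx => hv ?_, fun i => ?_⟩
    · rw [Submodule.mem_comap, hf]
      exact hW i _ hu
    · rw [← hsum]
      exact W.add_mem hw hx
    · rw [Submodule.mem_comap, map_sub, hf, map_smul, show f x = v - w from eq_sub_of_add_eq' hsum,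
        map_sub, smul_sub, sub_sub_sub_comm]
      exact W.sub_mem (hev i) (W.sub_mem (hW i w hw) (W.smul_mem _ hw))
  · right
    refine ⟨W.map g, g v, ?_, fun hgv => hc ?_, fun i => ⟨_, hev i, by
      rw [map_sub, hg, map_smul]⟩⟩
    · rintro i _ ⟨u, hu, rfl⟩
      exact ⟨_, hW i u hu, hg i u⟩
    · obtain ⟨u, hu, hgu⟩ := hgv
      obtain ⟨x, hx⟩ := (he (v - u)).mp (by rw [map_sub, hgu, sub_self])
      exact Submodule.mem_sup.mpr ⟨u, hu, f x, ⟨x, rfl⟩, by rw [hx]; abel⟩

/-- An injection preserves the systems. -/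
theorem of_injective (hf : Intertwines T T' f) (hi : Function.Injective f) (h : Occurs T a) :
    Occurs T' a := by
  obtain ⟨W, v, hW, hv, he⟩ := h
  refine ⟨W.map f, f v, ?_, fun hfv => hv ?_, fun i => ⟨_, he i, by rw [map_sub, hf, map_smul]⟩⟩
  · rintro i _ ⟨u, hu, rfl⟩
    exact ⟨_, hW i u hu, hf i u⟩
  · obtain ⟨u, hu, e⟩ := hfv
    rwa [← hi e]

/-- A map whose kernel lies in an eigenspace of another eigenvalue preserves the system. -/
theorem of_ker {K : Type*} [Field K] {X Y : Type*} [AddCommGroup X] [Module K X] [AddCommGroup Y]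
    [Module K Y] {T : ι → X →ₗ[K] X} {T' : ι → Y →ₗ[K] Y} {a : ι → K} {f : X →ₗ[K] Y}
    (hf : Intertwines T T' f) {i₀ : ι} {c : K} (hc : c ≠ a i₀)
    (hk : ∀ x, f x = 0 → T i₀ x = c • x) (h : Occurs T a) : Occurs T' a := by
  obtain ⟨W, v, hW, hv, he⟩ := h
  refine ⟨W.map f, f v, ?_, fun hfv => hv ?_, fun i => ⟨_, he i, by rw [map_sub, hf, map_smul]⟩⟩
  · rintro i _ ⟨u, hu, rfl⟩
    exact ⟨_, hW i u hu, hf i u⟩
  · obtain ⟨u, hu, e⟩ := hfv
    have hκ := hk (v - u) (by rw [map_sub, e, sub_self])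
    have h1 : (c - a i₀) • v ∈ W := by
      have e1 : (c - a i₀) • v = (T i₀ v - a i₀ • v) - T i₀ u + c • u := by
        rw [map_sub, sub_eq_iff_eq_add] at hκ
        rw [hκ, smul_sub, sub_smul]
        abel
      rw [e1]
      exact W.add_mem (W.sub_mem (he i₀) (hW i₀ u hu)) (W.smul_mem _ hu)
    exact (W.smul_mem_iff (sub_ne_zero.mpr hc)).mp h1

/-- The system lives in every stable submodule containing the image of `T i₀ - c`. -/
theorem restrict {K : Type*} [Field K] {X : Type*} [AddCommGroup X] [Module K X]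
    {T : ι → X →ₗ[K] X} {a : ι → K} (P : Submodule K X) (hP : ∀ i, ∀ x ∈ P, T i x ∈ P) {i₀ : ι}
    {c : K} (hc : c ≠ a i₀) (himg : ∀ x, T i₀ x - c • x ∈ P) (h : Occurs T a) :
    Occurs (fun i => (T i).restrict (hP i)) a := by
  obtain ⟨W, v, hW, hv, he⟩ := h
  set s := (a i₀ - c)⁻¹
  have hs : a i₀ - c ≠ 0 := sub_ne_zero.mpr (Ne.symm hc)
  refine ⟨W.comap P.subtype, ⟨s • (T i₀ v - c • v), P.smul_mem _ (himg v)⟩,
    fun i w hw => hW i _ hw, ?_, fun i => ?_⟩
  · intro hmem
    apply hv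
    have h1 : T i₀ v - c • v ∈ W := (W.smul_mem_iff (inv_ne_zero hs)).mp hmem
    have h2 : (a i₀ - c) • v ∈ W := by
      rw [show (a i₀ - c) • v = (T i₀ v - c • v) - (T i₀ v - a i₀ • v) by rw [sub_smul]; abel]
      exact W.sub_mem h1 (he i₀)
    exact (W.smul_mem_iff hs).mp h2
  · change T i (s • (T i₀ v - c • v)) - a i • (s • (T i₀ v - c • v)) ∈ W
    rw [show s • (T i₀ v - c • v) = v + s • (T i₀ v - a i₀ • v) by
      rw [show T i₀ v - c • v = (a i₀ - c) • v + (T i₀ v - a i₀ • v) by rw [sub_smul]; abel,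
        smul_add, smul_smul, inv_mul_cancel₀ hs, one_smul],
      map_add, map_smul, smul_add, add_sub_add_comm]
    exact W.add_mem (he i) (W.sub_mem (W.smul_mem _ (hW i _ (he i₀)))
      (W.smul_mem _ (W.smul_mem _ (he i₀))))

end Occurs

end FermatAgent.LT.Mod3
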