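import Mathlib
import Fermat.Agent.LT.Mod3.Corr
import Fermat.Agent.LT.Mod3.Occurs
import Fermat.Agent.HM.H1.Lift

/-!
# Cohomology with coefficients trivial on `Γ(N)`

Systems pass along coefficient maps in both directions, and from functions on an orbit to
homomorphisms on the stabiliser.
-/

set_option autoImplicit false

noncomputable section

open CongruenceSubgroup ModularCurve.Period
open scoped MatrixGroups OnePoint

namespace FermatAgent.LT.Mod3

open FermatAgent.HM

variable {N p : ℕ} {k : Type*} [CommRing k] {Γ : Subgroup SL(2, ℤ)}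
variable {X Y : Type*} [AddCommGroup X] [Module k X] [AddCommGroup Y] [Module k Y]

/-- Trivial on `Γ(N)`. -/
def IsLevel (N : ℕ) (ρ : Representation k Γ X) : Prop :=
  ∀ g : Γ, (g : SL(2, ℤ)) ∈ Gamma N → ρ g = 1

lemma IsLevel.eq_of_red {ρ : Representation k Γ X} (hρ : IsLevel N ρ) {a b : Γ}
    (e : redMat N ((a : SL(2, ℤ)) : Mat2) = redMat N ((b : SL(2, ℤ)) : Mat2)) : ρ a = ρ b := by
  have h1 : (((a * b⁻¹ : Γ)) : SL(2, ℤ)) ∈ Gamma N := by
    rw [mem_Gamma_iff_red, Subgroup.coe_mul, Matrix.SpecialLinearGroup.coe_mul, map_mul, e,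
      ← map_mul, ← Matrix.SpecialLinearGroup.coe_mul, Subgroup.coe_inv, mul_inv_cancel,
      Matrix.SpecialLinearGroup.coe_one, map_one]
  rw [← inv_mul_cancel_right a b, map_mul, hρ _ h1, one_mul]

/-- A level containing `Γ(N)` and `-1`. -/
structure CongLevel (N : ℕ) (Γ : Subgroup SL(2, ℤ)) : Prop where
  gamma_le : Gamma N ≤ Γ
  neg_mem : (-1 : SL(2, ℤ)) ∈ Γ

section Op

variable [NeZero p] (h : IsCongPrime N p) (hΓ : CongLevel N Γ)
variable {ρ : Representation k Γ X} {σ : Representation k Γ Y}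

omit [NeZero p] in
/-- Factors of the correspondence act as the original. -/
lemma IsLevel.rho_fac (hρ : IsLevel N ρ) (γ : Γ) (x : OnePoint (ZMod p)) :
    ρ ((congCorr h Γ hΓ.gamma_le).fac γ x) = ρ γ :=
  hρ.eq_of_red (by rw [congCorr_fac_coe, moveFac_red])

/-- `T_p` on cocycles. -/
def opZc (hρ : IsLevel N ρ) : Z1 ρ →ₗ[k] Z1 ρ where
  toFun c := ⟨fun γ => ∑ x, c.1 ((congCorr h Γ hΓ.gamma_le).fac γ x), fun γ δ => by
    simp only [(congCorr h Γ hΓ.gamma_le).fac_mul, Z1.map_mul, hρ.rho_fac h hΓ,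
      Finset.sum_add_distrib, map_sum]
    congr 1
    exact Equiv.sum_comp ((congCorr h Γ hΓ.gamma_le).perm γ)
      fun x => ρ γ (c.1 ((congCorr h Γ hΓ.gamma_le).fac δ x))⟩
  map_add' c c' := Subtype.ext <| funext fun γ => by simp [Finset.sum_add_distrib]
  map_smul' r c := Subtype.ext <| funext fun γ => by simp [Finset.smul_sum]

/-- The operator on cocycles. -/
lemma opZc_apply (hρ : IsLevel N ρ) (c : Z1 ρ) (γ : Γ) :
    (opZc h hΓ hρ c).1 γ = ∑ x, c.1 ((congCorr h Γ hΓ.gamma_le).fac γ x) := rfl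

lemma card_onePoint : Fintype.card (OnePoint (ZMod p)) = p + 1 := by
  change Fintype.card (Option (ZMod p)) = p + 1
  rw [Fintype.card_option, ZMod.card]

lemma opZc_d0 (hρ : IsLevel N ρ) (x : X) :
    opZc h hΓ hρ (d0 ρ x) = ((p : k) + 1) • d0 ρ x := Subtype.ext <| funext fun γ => by
  rw [opZc_apply, Submodule.coe_smul, Pi.smul_apply]
  simp only [d0_apply, hρ.rho_fac h hΓ, Finset.sum_const, Finset.card_univ, card_onePoint]
  rw [← Nat.cast_smul_eq_nsmul k, Nat.cast_add, Nat.cast_one]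

/-- `T_p` on classes. -/
def opH (hρ : IsLevel N ρ) : H1 ρ →ₗ[k] H1 ρ :=
  Submodule.mapQ _ _ (opZc h hΓ hρ) (by
    rintro c ⟨x, rfl⟩
    exact ⟨((p : k) + 1) • x, by rw [map_smul, opZc_d0 h hΓ hρ]⟩)

/-- The operator on classes. -/
@[simp] lemma opH_mk (hρ : IsLevel N ρ) (c : Z1 ρ) :
    opH h hΓ hρ (H1.mk ρ c) = H1.mk ρ (opZc h hΓ hρ c) := rfl

lemma opH_natural (hρ : IsLevel N ρ) (hσ : IsLevel N σ) (f : X →ₗ[k] Y) (hf : IsEquiv ρ σ f)
    (z : H1 ρ) : H1.map f hf (opH h hΓ hρ z) = opH h hΓ hσ (H1.map f hf z) := by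
  induction z using H1.induction with
  | _ c =>
    rw [opH_mk, H1.map_mk, H1.map_mk, opH_mk]
    exact congrArg _ (Subtype.ext <| funext fun γ => by simp [opZc_apply, map_sum])

/-- A class killed by an injective coefficient map is Eisenstein. -/
theorem opH_eq_of_map_eq_zero (hρ : IsLevel N ρ) (hσ : IsLevel N σ) (f : X →ₗ[k] Y)
    (hf : IsEquiv ρ σ f) (hi : Function.Injective f) {z : H1 ρ} (hz : H1.map f hf z = 0) :
    opH h hΓ hρ z = ((p : k) + 1) • z := by
  induction z using H1.induction with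
  | _ c =>
    rw [H1.map_mk, H1.mk_eq_zero_iff] at hz
    obtain ⟨y, hy⟩ := hz
    have e : opZc h hΓ hρ c = ((p : k) + 1) • c := by
      refine Subtype.ext <| funext fun γ => hi ?_
      have h1 : opZc h hΓ hσ (mapZ f hf c) = ((p : k) + 1) • mapZ f hf c := by
        rw [← hy, opZc_d0]
      have h2 := congrFun (congrArg Subtype.val h1) γ
      simpa [opZc_apply, map_sum] using h2
    rw [opH_mk, e, map_smul]

end Op

/-- The primes at which systems are considered. -/
structure Sys (N : ℕ) where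
  /-- the index type -/
  P : Set ℕ
  cong : ∀ p ∈ P, IsCongPrime N p

variable (S : Sys N)

instance (p : S.P) : NeZero (p : ℕ) := ⟨(S.cong p p.2).prime.ne_zero⟩

/-- The operators on cohomology. -/
def opsH (hΓ : CongLevel N Γ) {ρ : Representation k Γ X} (hρ : IsLevel N ρ) (p : S.P) :
    H1 ρ →ₗ[k] H1 ρ :=
  opH (S.cong p p.2) hΓ hρ

section Field

variable {K : Type*} [Field K] {V W : Type*} [AddCommGroup V] [Module K V] [AddCommGroup W]
  [Module K W] {ρ : Representation K Γ V} {σ : Representation K Γ W}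

/-- A non-Eisenstein system passes along an injection of coefficients. -/
theorem occurs_of_injective (hΓ : CongLevel N Γ) (hρ : IsLevel N ρ) (hσ : IsLevel N σ)
    {a : S.P → K} {p₀ : S.P} (h0 : ((p₀ : ℕ) : K) + 1 ≠ a p₀) (f : V →ₗ[K] W)
    (hf : IsEquiv ρ σ f) (hi : Function.Injective f) (h : Occurs (opsH S hΓ hρ) a) :
    Occurs (opsH S hΓ hσ) a :=
  h.of_ker (f := H1.map f hf) (fun _ z => opH_natural _ hΓ hρ hσ f hf z) h0
    fun _ hz => opH_eq_of_map_eq_zero _ hΓ hρ hσ f hf hi hz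

/-- A system passes back along a surjection of coefficients. -/
theorem occurs_of_surjective [Γ.FiniteIndex] (hΓ : CongLevel N Γ) (hρ : IsLevel N ρ)
    (hσ : IsLevel N σ) (hρneg : ∀ y, ρ ⟨-1, hΓ.neg_mem⟩ y = y)
    (hσneg : ∀ y, σ ⟨-1, hΓ.neg_mem⟩ y = y) (h2 : IsUnit (2 : K))
    (htr : ∀ γ ∈ Γ, ((γ : SL(2, ℤ)) : Matrix (Fin 2) (Fin 2) ℤ).trace ≠ 1) {a : S.P → K}
    (f : V →ₗ[K] W) (hf : IsEquiv ρ σ f) (hs : Function.Surjective f)
    (h : Occurs (opsH S hΓ hσ) a) : Occurs (opsH S hΓ hρ) a :=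
  h.of_surjective (f := H1.map f hf) (fun _ z => opH_natural _ hΓ hρ hσ f hf z)
    (H1.map_surjective_of_surjective (hneg := hΓ.neg_mem) (hρ := hρneg) hσneg h2 (Or.inr htr) hf hs)

end Field

section Hom

/-- The operators on homomorphisms. -/
def opsHom (hΓ : CongLevel N Γ) (p : S.P) :
    (Additive Γ →+ k) →ₗ[k] (Additive Γ →+ k) where
  toFun φ := (congCorr (S.cong p p.2) Γ hΓ.gamma_le).homOp φ
  map_add' _ _ := map_add _ _ _
  map_smul' r φ := AddMonoidHom.ext fun γ => by
    induction γ using Additive.rec with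
    | _ g => exact (Finset.smul_sum (r := r)).symm

variable {P : Type*} (π : Γ → P → P) (o : P) {Γ' : Subgroup SL(2, ℤ)} (hle : Γ' ≤ Γ)

/-- Evaluation at the base point. -/
def evalHom (ρ : Representation k Γ (P → k)) (hπρ : ∀ g f, ρ g f = f ∘ π g)
    (hstab : ∀ g : Γ', π (Subgroup.inclusion hle g) o = o) :
    Z1 ρ →ₗ[k] (Additive Γ' →+ k) where
  toFun c :=
    { toFun := fun g => c.1 (Subgroup.inclusion hle (Additive.toMul g)) o
      map_zero' := by simp [Z1.map_one]
      map_add' := fun g g' => by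
        rw [toMul_add, map_mul, Z1.map_mul, Pi.add_apply, hπρ, Function.comp_apply, hstab] }
  map_add' c c' := AddMonoidHom.ext fun g => rfl
  map_smul' r c := AddMonoidHom.ext fun g => rfl

include hle in
/-- A system occurring in the cohomology of the functions on an orbit occurs in the homomorphisms on
the stabiliser (Shapiro). -/
theorem occurs_stabiliser (hΓ : CongLevel N Γ) (hΓ' : CongLevel N Γ')
    (ρ : Representation k Γ (P → k)) (hπρ : ∀ g f, ρ g f = f ∘ π g) (hρ : IsLevel N ρ)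
    (π_mul : ∀ a b q, π (a * b) q = π b (π a q))
    (trans' : ∀ q, ∃ g, π g o = q)
    (hstab : ∀ g : Γ, (g : SL(2, ℤ)) ∈ Γ' ↔ π g o = o) {a : S.P → k}
    (h : Occurs (opsH S hΓ hρ) a) : Occurs (opsHom S hΓ' (k := k)) a := by
  have hst : ∀ g : Γ', π (Subgroup.inclusion hle g) o = o := fun g =>
    (hstab (Subgroup.inclusion hle g)).mp g.2
  have hπinj : ∀ g : Γ, Function.Injective (π g) := fun g q q' e => by
    have h1 : ∀ r, π 1 r = r := fun r => by
      obtain ⟨s, rfl⟩ := trans' r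
      rw [← π_mul, mul_one]
    have e' := congrArg (π g⁻¹) e
    rwa [← π_mul, ← π_mul, mul_inv_cancel, h1, h1] at e'
  let ev : H1 ρ →ₗ[k] (Additive Γ' →+ k) :=
    Submodule.liftQ _ (evalHom π o hle ρ hπρ hst) (by
      rintro c ⟨x, rfl⟩
      rw [LinearMap.mem_ker]
      refine AddMonoidHom.ext fun g => ?_
      simp [evalHom, d0_apply, hπρ, hst])
  refine h.of_injective (f := ev) (fun p z => ?_) ?_
  · induction z using H1.induction with
    | _ c =>
      refine AddMonoidHom.ext fun g => ?_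
      induction g using Additive.rec with
      | _ g =>
        change (opZc _ hΓ hρ c).1 (Subgroup.inclusion hle g) o = _
        rw [opZc_apply, Finset.sum_apply]
        refine Finset.sum_congr rfl fun x _ => ?_
        refine congrFun (congrArg c.1 (Subtype.ext ?_)) o
        rw [congCorr_fac_coe]
        exact (congCorr_fac_coe (hΓ := hΓ'.gamma_le) _ g x).symm
  · rw [← LinearMap.ker_eq_bot]
    refine Submodule.ker_liftQ_eq_bot _ _ _ fun c hc => ?_
    choose s hs using trans'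
    rw [LinearMap.mem_ker] at hc
    refine ⟨fun q => c.1 (s q) o, Subtype.ext <| funext fun g => funext fun q => ?_⟩
    rw [d0_apply, hπρ, Pi.sub_apply, Function.comp_apply]
    have key : ∀ u v : Γ, π u o = π v o → c.1 u o = c.1 v o := by
      intro u v huv
      have hmem : ((u * v⁻¹ : Γ) : SL(2, ℤ)) ∈ Γ' := (hstab _).mpr (hπinj v (by
        rw [← π_mul, inv_mul_cancel_right]
        exact huv))
      have h1 := DFunLike.congr_fun hc (Additive.ofMul ⟨_, hmem⟩)
      have h2 : c.1 (u * v⁻¹) o = 0 := h1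
      have h3 : π (u * v⁻¹) o = o := (hstab _).mp hmem
      calc c.1 u o = c.1 ((u * v⁻¹) * v) o := by rw [inv_mul_cancel_right]
        _ = c.1 v o := by
          rw [Z1.map_mul, Pi.add_apply, h2, zero_add, hπρ, Function.comp_apply, h3]
    rw [key (s (π g q)) (s q * g) (by rw [π_mul, hs, hs]), Z1.map_mul, Pi.add_apply, hπρ,
      Function.comp_apply, hs, add_sub_cancel_left]

end Hom

end FermatAgent.LT.Mod3
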