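import Mathlib
import Fermat.Agent.LT.Mod3.Coh
import Fermat.Agent.Period.Hecke
import Fermat.Agent.HM.H1.Transfer

/-!
# Climbing along parabolic elements

In characteristic three a system of parabolic homomorphisms of `A` occurs in those of a larger
group `B`, when `B / A` is elementary abelian of exponent three, generated by parabolic elements.
-/

set_option autoImplicit false
set_option maxSynthPendingDepth 4

noncomputable section

open CongruenceSubgroup ModularCurve.Period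
open scoped MatrixGroups OnePoint

namespace FermatAgent.LT.Mod3

open FermatAgent.HM

variable {N : ℕ} (S : Sys N) {K : Type*} [Field K]

/-- The parabolic homomorphisms. -/
def parHoms (K : Type*) [Field K] (Γ : Subgroup SL(2, ℤ)) : Submodule K (Additive Γ →+ K) where
  carrier := {φ | IsParabolicHom Γ φ}
  zero_mem' γ _ := rfl
  add_mem' {a b} ha hb γ hγ := by rw [AddMonoidHom.add_apply, ha γ hγ, hb γ hγ, add_zero]
  smul_mem' r a ha γ hγ := by rw [AddMonoidHom.smul_apply, ha γ hγ, smul_zero]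

variable {Γ : Subgroup SL(2, ℤ)}

lemma opsHom_parabolic (hΓ : CongLevel N Γ) (p : S.P) {φ : Additive Γ →+ K}
    (hφ : φ ∈ parHoms K Γ) : opsHom S hΓ p φ ∈ parHoms K Γ :=
  Corr.homOp_parabolic _ hφ

/-- The operators on parabolic homomorphisms. -/
def opsPar (hΓ : CongLevel N Γ) (p : S.P) : parHoms K Γ →ₗ[K] parHoms K Γ :=
  (opsHom S hΓ p).restrict fun _ hφ => opsHom_parabolic S hΓ p hφ

/-- A non-Eisenstein system of homomorphisms lives in the parabolic ones. -/
theorem occurs_parabolic (hΓ : CongLevel N Γ) {a : S.P → K} {p₀ : S.P}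
    (h0 : ((p₀ : ℕ) : K) + 1 ≠ a p₀) (h : Occurs (opsHom S hΓ (k := K)) a) :
    Occurs (X := parHoms K Γ) (opsPar S hΓ (K := K)) a :=
  h.restrict (parHoms K Γ) (fun p _ hφ => opsHom_parabolic S hΓ p hφ) h0 fun φ => by
    have e := (congCorr_unitRoot (hΓ := hΓ.gamma_le) (S.cong p₀ p₀.2) hΓ.neg_mem).isParabolicHom φ
    rwa [← Nat.cast_smul_eq_nsmul K, Nat.cast_add, Nat.cast_one] at e

/-- A system commuting with a nilpotent endomorphism lives in its kernel. -/
theorem occurs_ker {ι X : Type*} [AddCommGroup X] [Module K X] {T : ι → X →ₗ[K] X} {a : ι → K}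
    (u : X →ₗ[K] X) (hu : ∀ i x, u (T i x) = T i (u x)) (n : ℕ) (hn : ∀ x, (u ^ n) x = 0)
    (h : Occurs T a) :
    Occurs (fun i => (T i).restrict (p := LinearMap.ker u) (q := LinearMap.ker u) fun x hx => by
      rw [LinearMap.mem_ker] at hx ⊢
      rw [hu, hx, map_zero]) a := by
  have hpow : ∀ m i x, (u ^ m) (T i x) = T i ((u ^ m) x) := fun m i x => by
    induction m with
    | zero => rfl
    | succ m ih => rw [pow_succ', Module.End.mul_apply, ih, hu, Module.End.mul_apply]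
  have hst : ∀ m i, ∀ x ∈ LinearMap.ker (u ^ m), T i x ∈ LinearMap.ker (u ^ m) := fun m i x hx => by
    rw [LinearMap.mem_ker] at hx ⊢
    rw [hpow, hx, map_zero]
  suffices ∀ m, Occurs (fun i => (T i).restrict (hst m i)) a →
      Occurs (fun i => (T i).restrict (p := LinearMap.ker u) (q := LinearMap.ker u) fun x hx => by
        rw [LinearMap.mem_ker] at hx ⊢
        rw [hu, hx, map_zero]) a from
    this n (h.of_surjective (f := (LinearMap.ker (u ^ n)).subtype) (fun i x => rfl)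
      fun x => ⟨⟨x, hn x⟩, rfl⟩)
  intro m
  induction m with
  | zero =>
    rintro ⟨W, v, -, hv, -⟩
    exact absurd (by rw [show v = 0 from Subtype.ext v.2]; exact W.zero_mem) hv
  | succ m ih =>
    intro hm
    let f : LinearMap.ker u →ₗ[K] LinearMap.ker (u ^ (m + 1)) :=
      Submodule.inclusion fun x hx => by
        rw [LinearMap.mem_ker] at hx ⊢
        rw [pow_succ, Module.End.mul_apply, hx, map_zero]
    let g : LinearMap.ker (u ^ (m + 1)) →ₗ[K] LinearMap.ker (u ^ m) :=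
      u.restrict fun x hx => by
        rw [LinearMap.mem_ker] at hx ⊢
        rw [← Module.End.mul_apply, ← pow_succ]
        exact hx
    rcases hm.of_exact (T := fun i => (T i).restrict (p := LinearMap.ker u) (q := LinearMap.ker u)
        fun x hx => by
          rw [LinearMap.mem_ker] at hx ⊢
          rw [hu, hx, map_zero])
        (T' := fun i => (T i).restrict (hst (m + 1) i))
        (T'' := fun i => (T i).restrict (hst m i)) (f := f) (g := g) (fun i x => rfl)
        (fun i x => Subtype.ext (hu i x)) (fun x => by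
          constructor
          · intro hx
            exact ⟨⟨x, congrArg Subtype.val hx⟩, rfl⟩
          · rintro ⟨y, rfl⟩
            exact Subtype.ext y.2) with h1 | h2
    exacts [h1, ih h2]

/-- A system lifts along a map whose image contains the module it occurs in. -/
theorem occurs_of_lift {ι X₀ X Y : Type*} [AddCommGroup X₀] [Module K X₀] [AddCommGroup X]
    [Module K X] [AddCommGroup Y] [Module K Y] {T₀ : ι → X₀ →ₗ[K] X₀} {T' : ι → X →ₗ[K] X}
    {T : ι → Y →ₗ[K] Y} {a : ι → K} {res : Y →ₗ[K] X} (j : X₀ →ₗ[K] X)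
    (hj : Function.Injective j) (hres : Intertwines T T' res) (hjT : Intertwines T₀ T' j)
    (hlift : ∀ x, ∃ y, res y = j x) (h : Occurs T₀ a) : Occurs T a := by
  obtain ⟨W, v, hW, hv, he⟩ := h
  obtain ⟨y, hy⟩ := hlift v
  refine ⟨(W.map j).comap res, y, fun i z hz => ?_, fun hy' => ?_, fun i => ?_⟩
  · obtain ⟨w, hw, hwz⟩ := hz
    exact ⟨T₀ i w, hW i w hw, by rw [hjT, hwz, hres]⟩
  · obtain ⟨w, hw, hwy⟩ := hy'
    exact hv (hj (hwy.trans hy) ▸ hw)
  · exact ⟨_, he i, by rw [map_sub, map_smul, hjT, map_sub, map_smul, hres, hy]⟩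

section Step

variable {A B : Subgroup SL(2, ℤ)} (hA : CongLevel N A) (hB : CongLevel N B) (hAB : A ≤ B)
variable (g : B) (hnorm : ∀ x ∈ A, (g : SL(2, ℤ)) * x * (g : SL(2, ℤ))⁻¹ ∈ A)
  (hpar : ((g : SL(2, ℤ)) : Matrix (Fin 2) (Fin 2) ℤ).trace ^ 2 = 4)
  (hcube : (g : SL(2, ℤ)) ^ 3 ∈ A)

/-- Conjugation by `g`. -/
def conjHom : A →* A where
  toFun x := ⟨(g : SL(2, ℤ)) * x * (g : SL(2, ℤ))⁻¹, hnorm x x.2⟩
  map_one' := Subtype.ext (by simp)
  map_mul' x y := Subtype.ext (by simp [mul_assoc])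

/-- The action of `g` on parabolic homomorphisms. -/
def conjPar : Module.End K (parHoms K A) where
  toFun φ := ⟨φ.1.comp (MonoidHom.toAdditive (conjHom g hnorm)), fun γ hγ => φ.2 _ (by
    change ((g : SL(2, ℤ)) * γ * (g : SL(2, ℤ))⁻¹ : SL(2, ℤ)).1.trace ^ 2 = 4
    rwa [Matrix.SpecialLinearGroup.coe_mul, Matrix.SpecialLinearGroup.coe_mul,
      Matrix.trace_mul_comm, ← mul_assoc, ← Matrix.SpecialLinearGroup.coe_mul, inv_mul_cancel,
      Matrix.SpecialLinearGroup.coe_one, one_mul])⟩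
  map_add' φ ψ := Subtype.ext (AddMonoidHom.ext fun x => rfl)
  map_smul' r φ := Subtype.ext (AddMonoidHom.ext fun x => rfl)

lemma conjPar_apply (φ : parHoms K A) (x : A) :
    (conjPar g hnorm φ).1 (Additive.ofMul x) = φ.1 (Additive.ofMul (conjHom g hnorm x)) := rfl

include hB hAB in
lemma conjPar_comm (p : S.P) (φ : parHoms K A) :
    conjPar g hnorm (opsPar S hA p φ) = opsPar S hA p (conjPar g hnorm φ) := by
  refine Subtype.ext (AddMonoidHom.ext fun x => ?_)
  induction x using Additive.rec with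
  | _ x =>
  set DA := congCorr (S.cong p p.2) A hA.gamma_le
  set DB := congCorr (S.cong p p.2) B hB.gamma_le
  change ∑ i, φ.1 (Additive.ofMul (DA.fac (conjHom g hnorm x) i)) =
    ∑ i, φ.1 (Additive.ofMul (conjHom g hnorm (DA.fac x i)))
  have hmem : ∀ i, (DB.fac g i : SL(2, ℤ)) * (g : SL(2, ℤ))⁻¹ ∈ A := fun i => hA.gamma_le (by
    rw [mem_Gamma_iff_red, Matrix.SpecialLinearGroup.coe_mul, map_mul, congCorr_fac_coe,
      moveFac_red, ← map_mul, ← Matrix.SpecialLinearGroup.coe_mul, mul_inv_cancel,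
      Matrix.SpecialLinearGroup.coe_one, map_one])
  let xB : B := ⟨x, hAB x.2⟩
  have hinv : ∀ w, DB.fac g⁻¹ (DB.perm g w) = (DB.fac g w)⁻¹ := fun w =>
    eq_inv_of_mul_eq_one_right (by rw [← DB.fac_mul, mul_inv_cancel, DB.fac_one])
  have hA' : ∀ i, (DA.fac x i : SL(2, ℤ)) = DB.fac xB i := fun i => by
    rw [congCorr_fac_coe, congCorr_fac_coe]
  have key : ∀ i, DA.fac (conjHom g hnorm x) i =
      ⟨_, hmem i⟩ * conjHom g hnorm (DA.fac x (DB.perm g i)) *
        (⟨_, hmem (DB.perm (g * xB * g⁻¹) i)⟩)⁻¹ := by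
    intro i
    apply Subtype.ext
    have e : DB.fac (g * xB * g⁻¹) i =
        DB.fac g i * DB.fac xB (DB.perm g i) * (DB.fac g (DB.perm (g * xB * g⁻¹) i))⁻¹ := by
      rw [DB.fac_mul, DB.fac_mul, ← hinv]
      congr 2
      rw [← Equiv.Perm.mul_apply, ← DB.perm_mul, inv_mul_cancel_right]
    have e' := congrArg (Subtype.val : B → SL(2, ℤ)) e
    rw [congCorr_fac_coe] at e'
    rw [congCorr_fac_coe]
    simp only [conjHom, MonoidHom.coe_mk, OneHom.coe_mk, Subgroup.coe_mul, Subgroup.coe_inv,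
      hA', mul_inv_rev, inv_inv] at e' ⊢
    rw [e']
    group
  simp only [key, ofMul_mul, ofMul_inv, map_add, map_neg, Finset.sum_add_distrib,
    Finset.sum_neg_distrib]
  rw [Equiv.sum_comp (DB.perm g) fun i => φ.1 (Additive.ofMul (conjHom g hnorm (DA.fac x i))),
    Equiv.sum_comp (DB.perm (g * xB * g⁻¹)) fun i => φ.1 (Additive.ofMul (⟨_, hmem i⟩ : A))]
  abel

include hnorm hpar in
/-- An invariant parabolic homomorphism extends along a parabolic element. -/
lemma exists_extend (hgen : ∀ x ∈ B, ∃ j : ℕ, x * ((g : SL(2, ℤ)) ^ j)⁻¹ ∈ A) (φ : parHoms K A)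
    (hfix : ∀ x : A, φ.1 (Additive.ofMul (conjHom g hnorm x)) = φ.1 (Additive.ofMul x)) :
    ∃ ψ : Additive B →+ K,
      ψ.comp (MonoidHom.toAdditive (Subgroup.inclusion hAB)) = φ.1 := by
  classical
  let val : SL(2, ℤ) → K := fun z => if hz : z ∈ A then φ.1 (Additive.ofMul ⟨z, hz⟩) else 0
  have hval : ∀ z (hz : z ∈ A), val z = φ.1 (Additive.ofMul ⟨z, hz⟩) := fun z hz => dif_pos hz
  have hmul : ∀ z w, z ∈ A → w ∈ A → val (z * w) = val z + val w := fun z w hz hw => by
    rw [hval z hz, hval w hw, hval _ (A.mul_mem hz hw), ← map_add, ← ofMul_mul]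
    rfl
  have hpow : ∀ m : ℕ, (g : SL(2, ℤ)) ^ m ∈ A → val ((g : SL(2, ℤ)) ^ m) = 0 := fun m hm => by
    rw [hval _ hm]
    exact φ.2 ⟨_, hm⟩ (Period.TransferData.trace_pow_sq_eq_four _ hpar m)
  have hconj : ∀ (n : ℕ) (z : SL(2, ℤ)), z ∈ A →
      (g : SL(2, ℤ)) ^ n * z * ((g : SL(2, ℤ)) ^ n)⁻¹ ∈ A ∧
        val ((g : SL(2, ℤ)) ^ n * z * ((g : SL(2, ℤ)) ^ n)⁻¹) = val z := by
    intro n
    induction n with
    | zero => intro z hz; simp [hz]
    | succ n ih =>
      intro z hz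
      obtain ⟨h1, h2⟩ := ih z hz
      have e : (g : SL(2, ℤ)) ^ (n + 1) * z * ((g : SL(2, ℤ)) ^ (n + 1))⁻¹ = (g : SL(2, ℤ)) *
          ((g : SL(2, ℤ)) ^ n * z * ((g : SL(2, ℤ)) ^ n)⁻¹) * (g : SL(2, ℤ))⁻¹ := by
        rw [pow_succ', mul_inv_rev]
        simp only [mul_assoc]
      rw [e]
      refine ⟨hnorm _ h1, ?_⟩
      rw [hval _ (hnorm _ h1), ← h2, hval _ h1]
      exact hfix ⟨_, h1⟩
  have key : ∀ (x : SL(2, ℤ)) (i l : ℕ), x * ((g : SL(2, ℤ)) ^ i)⁻¹ ∈ A →
      x * ((g : SL(2, ℤ)) ^ l)⁻¹ ∈ A →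
      val (x * ((g : SL(2, ℤ)) ^ i)⁻¹) = val (x * ((g : SL(2, ℤ)) ^ l)⁻¹) := by
    suffices ∀ (x : SL(2, ℤ)) (i m : ℕ), x * ((g : SL(2, ℤ)) ^ i)⁻¹ ∈ A →
        x * ((g : SL(2, ℤ)) ^ (i + m))⁻¹ ∈ A →
        val (x * ((g : SL(2, ℤ)) ^ i)⁻¹) = val (x * ((g : SL(2, ℤ)) ^ (i + m))⁻¹) by
      intro x i l hi hl
      rcases le_total i l with hle | hle
      · obtain ⟨m, rfl⟩ := Nat.exists_eq_add_of_le hle
        exact this x i m hi hl
      · obtain ⟨m, rfl⟩ := Nat.exists_eq_add_of_le hle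
        exact (this x l m hl hi).symm
    intro x i m hi hl
    have e : x * ((g : SL(2, ℤ)) ^ i)⁻¹ =
        x * ((g : SL(2, ℤ)) ^ (i + m))⁻¹ * (g : SL(2, ℤ)) ^ m := by
      rw [add_comm i m, pow_add, mul_inv_rev, ← mul_assoc, inv_mul_cancel_right]
    have hm : (g : SL(2, ℤ)) ^ m ∈ A := by
      rw [e] at hi
      exact (A.mul_mem_cancel_left hl).mp hi
    rw [e, hmul _ _ hl hm, hpow m hm, add_zero]
  choose j hj using hgen
  let f : Additive B → K := fun x => val ((Additive.toMul x : B) *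
    ((g : SL(2, ℤ)) ^ j (Additive.toMul x : B) (Additive.toMul x : B).2)⁻¹)
  have hf : ∀ (x : B) (i : ℕ), (x : SL(2, ℤ)) * ((g : SL(2, ℤ)) ^ i)⁻¹ ∈ A →
      f (Additive.ofMul x) = val ((x : SL(2, ℤ)) * ((g : SL(2, ℤ)) ^ i)⁻¹) :=
    fun x i hi => key _ _ _ (hj x x.2) hi
  refine ⟨AddMonoidHom.mk' f fun x y => ?_, AddMonoidHom.ext fun x => ?_⟩
  · induction x using Additive.rec with
    | _ a =>
    induction y using Additive.rec with
    | _ b =>
    have ha := hj a a.2
    have hb := hj b b.2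
    set i := j a a.2
    set l := j b b.2
    obtain ⟨h1, h2⟩ := hconj i _ hb
    have e : (a : SL(2, ℤ)) * b * ((g : SL(2, ℤ)) ^ (l + i))⁻¹ =
        (a : SL(2, ℤ)) * ((g : SL(2, ℤ)) ^ i)⁻¹ * ((g : SL(2, ℤ)) ^ i *
          ((b : SL(2, ℤ)) * ((g : SL(2, ℤ)) ^ l)⁻¹) * ((g : SL(2, ℤ)) ^ i)⁻¹) := by
      rw [pow_add, mul_inv_rev]
      group
    change f (Additive.ofMul (a * b)) = f (Additive.ofMul a) + f (Additive.ofMul b)
    rw [hf (a * b) (l + i) (by rw [Subgroup.coe_mul, e]; exact A.mul_mem ha h1),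
      hf a i ha, hf b l hb, Subgroup.coe_mul, e, hmul _ _ ha h1, h2]
  · induction x using Additive.rec with
    | _ a =>
    change f (Additive.ofMul (Subgroup.inclusion hAB a)) = φ.1 (Additive.ofMul a)
    rw [hf _ 0 (by simp), ← hval (a : SL(2, ℤ)) a.2]
    simp

include hB hAB hnorm hpar hcube in
/-- One step of the climb: in characteristic three a non-Eisenstein system passes from `A` to
`B = ⟨A, g⟩`, for a parabolic `g` normalising `A` with `g³ ∈ A`. -/
theorem occurs_climb_step [CharP K 3] (hgen : ∀ x ∈ B, ∃ j : ℕ, x * ((g : SL(2, ℤ)) ^ j)⁻¹ ∈ A)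
    {a : S.P → K} {p₀ : S.P} (h0 : ((p₀ : ℕ) : K) + 1 ≠ a p₀)
    (h : Occurs (X := parHoms K A) (opsPar S hA (K := K)) a) :
    Occurs (X := parHoms K B) (opsPar S hB (K := K)) a := by
  set u : Module.End K (parHoms K A) :=
    conjPar (K := K) g hnorm - 1 with hu
  have hucomm : ∀ p φ, u (opsPar S hA p φ) = opsPar S hA p (u φ) := fun p φ => by
    simp only [hu, LinearMap.sub_apply, Module.End.one_apply, map_sub,
      conjPar_comm S hA hB hAB g hnorm p φ]
  have hu3 : ∀ φ, (u ^ 3) φ = 0 := by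
    intro φ
    have h3 : (3 : K) = 0 := by exact_mod_cast CharP.cast_eq_zero K 3
    have hc3 : (conjPar (K := K) g hnorm ^ 3) φ = φ := by
      refine Subtype.ext (AddMonoidHom.ext fun x => ?_)
      induction x using Additive.rec with
      | _ x =>
      have e : conjHom g hnorm (conjHom g hnorm (conjHom g hnorm x)) =
          ⟨_, hcube⟩ * x * (⟨_, hcube⟩ : A)⁻¹ := Subtype.ext (by
        simp [conjHom, pow_succ, mul_assoc])
      change φ.1 (Additive.ofMul (conjHom g hnorm (conjHom g hnorm (conjHom g hnorm x)))) = _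
      rw [e, ofMul_mul, ofMul_mul, map_add, map_add, ofMul_inv, map_neg]
      abel
    have hexp : u ^ 3 = conjPar g hnorm ^ 3 - (3 : K) • conjPar g hnorm ^ 2 +
        (3 : K) • conjPar g hnorm - 1 := by
      rw [hu]
      simp only [pow_succ, pow_zero, one_mul, sub_mul, mul_sub, mul_one]
      module
    rw [hexp, h3, zero_smul, zero_smul, sub_zero, add_zero, LinearMap.sub_apply, hc3,
      Module.End.one_apply, sub_self]
  have hk := occurs_ker u hucomm 3 hu3 h
  -- restriction from the larger group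
  let res : (Additive B →+ K) →ₗ[K] (Additive A →+ K) :=
    { toFun := fun ψ => ψ.comp (MonoidHom.toAdditive (Subgroup.inclusion hAB))
      map_add' := fun _ _ => rfl
      map_smul' := fun _ _ => rfl }
  have hres : Intertwines (opsHom S hB (k := K)) (opsHom S hA) res := fun p ψ => by
    refine AddMonoidHom.ext fun x => ?_
    induction x using Additive.rec with
    | _ x =>
    change ∑ i, ψ (Additive.ofMul ((congCorr (S.cong p p.2) B hB.gamma_le).fac
      (Subgroup.inclusion hAB x) i)) = ∑ i, ψ (Additive.ofMul (Subgroup.inclusion hAB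
        ((congCorr (S.cong p p.2) A hA.gamma_le).fac x i)))
    exact Finset.sum_congr rfl fun i _ => congrArg (fun y => ψ (Additive.ofMul y))
      (Subtype.ext (by
        rw [congCorr_fac_coe]
        exact (congCorr_fac_coe (hΓ := hA.gamma_le) _ x i).symm))
  -- invariant parabolic homomorphisms extend
  have hext : ∀ φ ∈ LinearMap.ker u, ∃ ψ, res ψ = (φ : parHoms K A).1 := by
    intro φ hφ
    refine exists_extend hAB g hnorm hpar hgen φ fun x => ?_
    rw [LinearMap.mem_ker, hu, LinearMap.sub_apply, Module.End.one_apply, sub_eq_zero] at hφ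
    rw [← conjPar_apply, hφ]
  have hB' : Occurs (opsHom S hB (k := K)) a :=
    occurs_of_lift (res := res) ((parHoms K A).subtype.comp (LinearMap.ker u).subtype)
      (Subtype.val_injective.comp Subtype.val_injective) hres (fun _ _ => rfl)
      (fun φ => hext φ φ.2) hk
  exact occurs_parabolic S hB h0 hB'

end Step

/-- **The climb**: in characteristic three a non-Eisenstein system of parabolic homomorphisms of `A`
occurs in those of `B ⊇ A`, if `B / A` is elementary abelian of exponent three and generated by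
parabolic elements. -/
theorem occurs_climb [CharP K 3] {A B : Subgroup SL(2, ℤ)} (hA : CongLevel N A)
    (hB : CongLevel N B) (hAB : A ≤ B) (hcomm : ∀ x ∈ B, ∀ y ∈ B, x * y * x⁻¹ * y⁻¹ ∈ A)
    (hcube : ∀ x ∈ B, x ^ 3 ∈ A) (G : Finset SL(2, ℤ))
    (hG : ∀ g ∈ G, g ∈ B ∧ (g : Matrix (Fin 2) (Fin 2) ℤ).trace ^ 2 = 4)
    (hgen : B ≤ A ⊔ Subgroup.closure (G : Set SL(2, ℤ)))
    {a : S.P → K} {p₀ : S.P} (h0 : ((p₀ : ℕ) : K) + 1 ≠ a p₀)
    (h : Occurs (X := parHoms K A) (opsPar S hA (K := K)) a) :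
    Occurs (X := parHoms K B) (opsPar S hB (K := K)) a := by
  classical
  induction G using Finset.induction_on generalizing A with
  | empty =>
    have e : A = B := le_antisymm hAB (by simpa using hgen)
    subst e
    exact h
  | insert g G _ ih =>
    obtain ⟨hgB, hgpar⟩ := hG g (Finset.mem_insert_self _ _)
    have hn : ∀ b ∈ B, ∀ x ∈ A, b * x * b⁻¹ ∈ A := fun b hb x hx => by
      have := A.mul_mem (hcomm b hb x (hAB hx)) hx
      rwa [inv_mul_cancel_right] at this
    have hnn : ∀ j : ℕ, g ^ j ∈ B := fun j => B.pow_mem hgB j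
    let A' : Subgroup SL(2, ℤ) :=
      { carrier := {x | x ∈ B ∧ ∃ j : ℕ, x * (g ^ j)⁻¹ ∈ A}
        one_mem' := ⟨B.one_mem, 0, by simp⟩
        mul_mem' := by
          rintro x y ⟨hx, i, hi⟩ ⟨hy, l, hl⟩
          refine ⟨B.mul_mem hx hy, l + i, ?_⟩
          rw [show x * y * (g ^ (l + i))⁻¹ =
            (x * (g ^ i)⁻¹) * (g ^ i * (y * (g ^ l)⁻¹) * (g ^ i)⁻¹) by
              rw [pow_add, mul_inv_rev]; group]
          exact A.mul_mem hi (hn _ (hnn i) _ hl)
        inv_mem' := by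
          rintro x ⟨hx, i, hi⟩
          refine ⟨B.inv_mem hx, 2 * i, ?_⟩
          have h1 : x⁻¹ * g ^ i ∈ A := by
            simpa [mul_assoc] using hn _ (B.inv_mem (hnn i)) _ (A.inv_mem hi)
          have h2 : (g ^ (3 * i))⁻¹ ∈ A := A.inv_mem (by
            rw [pow_mul]; exact A.pow_mem (hcube g hgB) i)
          rw [show x⁻¹ * (g ^ (2 * i))⁻¹ = (x⁻¹ * g ^ i) * (g ^ (3 * i))⁻¹ by
            rw [show 3 * i = 2 * i + i by ring, pow_add, mul_inv_rev, mul_assoc,
              mul_inv_cancel_left]]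
          exact A.mul_mem h1 h2 }
    have hAA' : A ≤ A' := fun x hx => ⟨hAB hx, 0, by simpa using hx⟩
    have hA'B : A' ≤ B := fun x hx => hx.1
    have hA'c : CongLevel N A' := ⟨hA.gamma_le.trans hAA', hAA' hA.neg_mem⟩
    have hgA' : g ∈ A' := ⟨hgB, 1, by simp⟩
    have hstep := occurs_climb_step S hA hA'c hAA' ⟨g, hgA'⟩ (fun x hx => hn g hgB x hx) hgpar
      (hcube g hgB) (fun x hx => hx.2) h0 h
    refine ih hA'c hA'B (fun x hx y hy => hAA' (hcomm x hx y hy))
      (fun x hx => hAA' (hcube x hx)) (fun y hy => hG y (Finset.mem_insert_of_mem hy))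
      (hgen.trans (sup_le (hAA'.trans le_sup_left) ?_)) hstep
    rw [Subgroup.closure_le]
    intro y hy
    rcases Finset.mem_insert.mp hy with rfl | hy
    · exact (le_sup_left : A' ≤ A' ⊔ _) hgA'
    · exact (le_sup_right : _ ≤ A' ⊔ _) (Subgroup.subset_closure hy)

end FermatAgent.LT.Mod3
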