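import Fermat.Agent.ES.PlusMinus
import Fermat.Agent.ES.Forms.Conj
import Mathlib
import Fermat.Agent.LT.Mod3.Climb

/-!
# From level `27` to level `3` at the prime three

The layers between `±Γ(27) ∩ Γ₀(M)` and `Γ₀(3M)` are elementary abelian and generated by parabolic
elements.
-/

set_option autoImplicit false
set_option maxSynthPendingDepth 4

noncomputable section

open CongruenceSubgroup ModularCurve.Period
open scoped MatrixGroups OnePoint

namespace FermatAgent.LT.Mod3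

open FermatAgent.HM

/-- `±Γ(n)`. -/
abbrev pmGamma (n : ℕ) : Subgroup SL(2, ℤ) := ES.pmSub (Gamma n)

lemma neg_one_mem_pmGamma (n : ℕ) : (-1 : SL(2, ℤ)) ∈ pmGamma n := Or.inr (by simp)

lemma gamma_le_pmGamma {n N : ℕ} (h : n ∣ N) : Gamma N ≤ pmGamma n :=
  (ES.gamma_le_of_dvd h).trans (ES.le_pmSub _)

/-- Membership in `±Γ(n)`. -/
lemma mem_pmGamma_iff {n : ℕ} {g : SL(2, ℤ)} :
    g ∈ pmGamma n ↔ redMat n (g : Mat2) = 1 ∨ redMat n (g : Mat2) = -1 := by
  have e : -g ∈ Gamma n ↔ redMat n (g : Mat2) = -1 := by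
    rw [mem_Gamma_iff_red, Matrix.SpecialLinearGroup.coe_neg, map_neg, neg_eq_iff_eq_neg]
  exact or_congr mem_Gamma_iff_red e

/-- The level `±Γ(3 ^ e) ∩ Γ₀(M)`. -/
def lvl (M e : ℕ) : Subgroup SL(2, ℤ) := pmGamma (3 ^ e) ⊓ Gamma0 M

/-- The intermediate levels contain `Γ(27M)`. -/
lemma congLevel_lvl (M : ℕ) {e : ℕ} (he : e ≤ 3) : CongLevel (27 * M) (lvl M e) where
  gamma_le := by
    intro g hg
    refine Subgroup.mem_inf.mpr ⟨gamma_le_pmGamma (Dvd.dvd.mul_right (by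
      simpa using Nat.pow_dvd_pow 3 he) M) hg, ?_⟩
    rw [Gamma_mem] at hg
    rw [Gamma0_mem]
    simpa [map_intCast] using congrArg (ZMod.castHom (dvd_mul_left M 27) (ZMod M)) hg.2.2.1
  neg_mem := ⟨neg_one_mem_pmGamma _, by simp [Gamma0_mem]⟩

/-- `Γ₀(3M)` contains `Γ(27M)`. -/
lemma congLevel_gamma0 (M : ℕ) : CongLevel (27 * M) (Gamma0 (3 * M)) where
  gamma_le g hg := by
    rw [Gamma_mem] at hg
    rw [Gamma0_mem]
    simpa [map_intCast] using
      congrArg (ZMod.castHom (mul_dvd_mul_right (by norm_num : 3 ∣ 27) M) (ZMod (3 * M))) hg.2.2.1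
  neg_mem := by simp [Gamma0_mem]

/-- The lower unipotent. -/
def lowU (m : ℤ) : SL(2, ℤ) := ⟨!![1, 0; m, 1], by simp [Matrix.det_fin_two_of]⟩

/-- The matrix of a lower unipotent. -/
@[simp] lemma coe_lowU (m : ℤ) : ((lowU m : SL(2, ℤ)) : Mat2) = !![1, 0; m, 1] := rfl

lemma lowU_zpow (m k : ℤ) : lowU m ^ k = lowU (k * m) := by
  induction k using Int.induction_on with
  | zero => exact Subtype.ext (by simp [Matrix.one_fin_two])
  | succ i ih =>
    rw [zpow_add_one, ih]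
    exact Subtype.ext (by
      ext a b; fin_cases a <;> fin_cases b <;>
        simp [Matrix.mul_apply, Fin.sum_univ_two]
      ring)
  | pred i ih =>
    rw [zpow_sub_one, ih, mul_inv_eq_iff_eq_mul]
    exact Subtype.ext (by
      ext a b; fin_cases a <;> fin_cases b <;>
        simp [Matrix.mul_apply, Fin.sum_univ_two]
      ring)

section Layer

variable (M e : ℕ)

/-- The parabolic generators of a layer. -/
def layerGen : Finset SL(2, ℤ) :=
  {ModularGroup.T ^ (((3 ^ e : ℕ) : ℤ)), lowU ((3 ^ e : ℕ) * M : ℤ),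
    ModularGroup.T * lowU ((3 ^ e : ℕ) * M : ℤ) * ModularGroup.T⁻¹}

lemma layerGen_mem {g : SL(2, ℤ)} (hg : g ∈ layerGen M e) :
    g ∈ lvl M e ∧ (g : Mat2).trace ^ 2 = 4 := by
  have hn : ((3 ^ e : ℕ) : ZMod (3 ^ e)) = 0 := ZMod.natCast_self _
  simp only [layerGen, Finset.mem_insert, Finset.mem_singleton] at hg
  rcases hg with rfl | rfl | rfl
  · refine ⟨Subgroup.mem_inf.mpr ⟨Or.inl ?_, ?_⟩, ?_⟩
    · rw [Gamma_mem, ModularGroup.coe_T_zpow]
      simp only [Matrix.of_apply, Matrix.cons_val', Matrix.cons_val_zero, Matrix.cons_val_one,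
        Int.cast_natCast, hn]
      simp
    · rw [Gamma0_mem, ModularGroup.coe_T_zpow]
      simp
    · rw [ModularGroup.coe_T_zpow, Matrix.trace_fin_two_of]
      norm_num
  · refine ⟨Subgroup.mem_inf.mpr ⟨Or.inl ?_, ?_⟩, ?_⟩
    · rw [Gamma_mem, coe_lowU]
      simp only [Matrix.of_apply, Matrix.cons_val', Matrix.cons_val_zero, Matrix.cons_val_one,
        Int.cast_mul, Int.cast_natCast, hn]
      simp
    · rw [Gamma0_mem, coe_lowU]
      simp
    · rw [coe_lowU, Matrix.trace_fin_two_of]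
      norm_num
  · have hT : ((ModularGroup.T⁻¹ : SL(2, ℤ)) : Mat2) = !![1, -1; 0, 1] := ModularGroup.coe_T_inv
    refine ⟨Subgroup.mem_inf.mpr ⟨Or.inl ?_, ?_⟩, ?_⟩
    · rw [Gamma_mem, Matrix.SpecialLinearGroup.coe_mul, Matrix.SpecialLinearGroup.coe_mul, hT,
        ModularGroup.coe_T, coe_lowU]
      simp only [Matrix.mul_fin_two, Matrix.of_apply, Matrix.cons_val', Matrix.cons_val_zero,
        Matrix.cons_val_one, Int.cast_add, Int.cast_mul, Int.cast_natCast, Int.cast_one,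
        Int.cast_zero, Int.cast_neg, hn]
      simp
    · rw [Gamma0_mem, Matrix.SpecialLinearGroup.coe_mul, Matrix.SpecialLinearGroup.coe_mul, hT,
        ModularGroup.coe_T, coe_lowU]
      simp [Matrix.mul_apply, Fin.sum_univ_two]
    · rw [Matrix.SpecialLinearGroup.coe_mul, Matrix.SpecialLinearGroup.coe_mul, hT,
        ModularGroup.coe_T, coe_lowU, Matrix.mul_fin_two, Matrix.mul_fin_two,
        Matrix.trace_fin_two_of]
      ring

variable {M e}

local notation "ι" => ((3 ^ e : ℕ) : ZMod (3 ^ (e + 1)))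

lemma red_one_add {y : SL(2, ℤ)} (hy : y ∈ Gamma (3 ^ e)) :
    ∃ X : Matrix (Fin 2) (Fin 2) (ZMod (3 ^ (e + 1))),
      redMat (3 ^ (e + 1)) (y : Mat2) = 1 + ι • X := by
  rw [Gamma_mem] at hy
  have hd : ∀ i j, (((3 ^ e : ℕ) : ℤ)) ∣ (y : Mat2) i j - (1 : Mat2) i j := by
    intro i j
    rw [← ZMod.intCast_zmod_eq_zero_iff_dvd]
    fin_cases i <;> fin_cases j <;> simp [hy.1, hy.2.1, hy.2.2.1, hy.2.2.2]
  choose Y hY using hd
  refine ⟨Matrix.of fun i j => (Y i j : ZMod (3 ^ (e + 1))), ?_⟩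
  have e0 : (y : Mat2) = 1 + ((3 ^ e : ℕ) : ℤ) • Matrix.of Y := by
    refine Matrix.ext fun i j => ?_
    rw [Matrix.add_apply, Matrix.smul_apply, smul_eq_mul, Matrix.of_apply, ← hY]
    ring
  rw [e0, map_add, map_one]
  congr 1
  ext i j
  simp [redMat]

lemma red_layer {x : SL(2, ℤ)} (hx : x ∈ lvl M e) :
    ∃ X : Matrix (Fin 2) (Fin 2) (ZMod (3 ^ (e + 1))),
      redMat (3 ^ (e + 1)) (x : Mat2) = 1 + ι • X ∨
      redMat (3 ^ (e + 1)) (x : Mat2) = -(1 + ι • X) := by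
  rcases (Subgroup.mem_inf.mp hx).1 with h | h
  · obtain ⟨X, hX⟩ := red_one_add h
    exact ⟨X, Or.inl hX⟩
  · obtain ⟨X, hX⟩ := red_one_add h
    refine ⟨X, Or.inr ?_⟩
    rw [← hX, Matrix.SpecialLinearGroup.coe_neg, map_neg, neg_neg]

variable (he : 1 ≤ e)

include he in
lemma sq_layer : ι * ι = 0 := by
  rw [← Nat.cast_mul, ZMod.natCast_eq_zero_iff, ← pow_add]
  exact Nat.pow_dvd_pow 3 (by omega)

lemma three_layer : (3 : ZMod (3 ^ (e + 1))) * ι = 0 := by
  have : ((3 * 3 ^ e : ℕ) : ZMod (3 ^ (e + 1))) = 0 := by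
    rw [ZMod.natCast_eq_zero_iff, pow_succ']
  simpa using this

include he in
lemma layer_mul (X Y : Matrix (Fin 2) (Fin 2) (ZMod (3 ^ (e + 1)))) :
    (1 + ι • X) * (1 + ι • Y) = 1 + ι • (X + Y) := by
  rw [add_mul, mul_add, mul_add, one_mul, one_mul, mul_one, Matrix.smul_mul, Matrix.mul_smul,
    smul_smul, sq_layer he, zero_smul, add_zero, smul_add]
  abel

include he in
lemma lvl_comm {x y : SL(2, ℤ)} (hx : x ∈ lvl M e) (hy : y ∈ lvl M e) :
    x * y * x⁻¹ * y⁻¹ ∈ lvl M (e + 1) := by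
  have hx' := (Subgroup.mem_inf.mp hx).2
  have hy' := (Subgroup.mem_inf.mp hy).2
  refine Subgroup.mem_inf.mpr
    ⟨Or.inl ?_, mul_mem (mul_mem (mul_mem hx' hy') (inv_mem hx')) (inv_mem hy')⟩
  obtain ⟨X, hX⟩ := red_layer hx
  obtain ⟨Y, hY⟩ := red_layer hy
  have hc : redMat (3 ^ (e + 1)) ((x * y : SL(2, ℤ)) : Mat2) =
      redMat (3 ^ (e + 1)) ((y * x : SL(2, ℤ)) : Mat2) := by
    rw [Matrix.SpecialLinearGroup.coe_mul, Matrix.SpecialLinearGroup.coe_mul, map_mul, map_mul]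
    rcases hX with hX | hX <;> rcases hY with hY | hY <;>
      rw [hX, hY] <;> simp only [neg_mul, mul_neg, neg_neg, layer_mul he, add_comm X Y]
  rw [mem_Gamma_iff_red, show x * y * x⁻¹ * y⁻¹ = (x * y) * (y * x)⁻¹ by group,
    Matrix.SpecialLinearGroup.coe_mul, map_mul, hc, ← map_mul, ← Matrix.SpecialLinearGroup.coe_mul,
    mul_inv_cancel, Matrix.SpecialLinearGroup.coe_one, map_one]

include he in
lemma lvl_cube {x : SL(2, ℤ)} (hx : x ∈ lvl M e) : x ^ 3 ∈ lvl M (e + 1) := by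
  refine Subgroup.mem_inf.mpr ⟨mem_pmGamma_iff.mpr ?_, pow_mem (Subgroup.mem_inf.mp hx).2 3⟩
  obtain ⟨X, hX⟩ := red_layer hx
  have e1 : (1 + ι • X) * (1 + ι • X) * (1 + ι • X) = 1 := by
    rw [layer_mul he, layer_mul he, show X + X + X = (3 : ZMod (3 ^ (e + 1))) • X by module,
      smul_smul, mul_comm, three_layer, zero_smul, add_zero]
  rw [show x ^ 3 = x * x * x by rw [pow_succ, pow_two], Matrix.SpecialLinearGroup.coe_mul,
    Matrix.SpecialLinearGroup.coe_mul, map_mul, map_mul]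
  rcases hX with hX | hX <;> rw [hX]
  · exact Or.inl e1
  · exact Or.inr (by simp only [neg_mul, mul_neg, neg_neg, e1])

include he in
lemma lvl_gen (h3 : ¬ 3 ∣ M) :
    lvl M e ≤ lvl M (e + 1) ⊔ Subgroup.closure (layerGen M e : Set SL(2, ℤ)) := by
  intro x hx
  have hclo : ∀ g ∈ layerGen M e, ∀ k : ℤ,
      g ^ k ∈ Subgroup.closure (layerGen M e : Set SL(2, ℤ)) :=
    fun g hg k => zpow_mem (Subgroup.subset_closure hg) k
  suffices ∀ y ∈ lvl M e, y ∈ Gamma (3 ^ e) →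
      y ∈ lvl M (e + 1) ⊔ Subgroup.closure (layerGen M e : Set SL(2, ℤ)) by
    rcases (Subgroup.mem_inf.mp hx).1 with h | h
    · exact this x hx h
    · have hm : (-1 : SL(2, ℤ)) ∈ lvl M (e + 1) :=
        Subgroup.mem_inf.mpr ⟨neg_one_mem_pmGamma _, by simp [Gamma0_mem]⟩
      have hm' : (-1 : SL(2, ℤ)) ∈ lvl M e :=
        Subgroup.mem_inf.mpr ⟨neg_one_mem_pmGamma _, by simp [Gamma0_mem]⟩
      have := this (-x) (by simpa using mul_mem hm' hx) h
      simpa using mul_mem (le_sup_left (a := lvl M (e + 1)) hm) this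
  intro y hy hyΓ
  obtain ⟨X, hX⟩ := red_one_add hyΓ
  have hcop : Nat.Coprime M (3 ^ (e + 1)) :=
    (((Nat.Prime.coprime_iff_not_dvd Nat.prime_three).mpr h3).symm).pow_right _
  obtain ⟨Mi, hMi⟩ : ∃ Mi : ZMod (3 ^ (e + 1)), (M : ZMod (3 ^ (e + 1))) * Mi = 1 :=
    ⟨((ZMod.unitOfCoprime M hcop)⁻¹ : (ZMod (3 ^ (e + 1)))ˣ), by
      rw [← ZMod.coe_unitOfCoprime M hcop, ← Units.val_mul, mul_inv_cancel, Units.val_one]⟩
  have htr : ι * X 1 1 = -(ι * X 0 0) := by
    have hdet : (redMat (3 ^ (e + 1)) (y : Mat2)).det = 1 := by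
      rw [show redMat (3 ^ (e + 1)) (y : Mat2) =
        (Int.castRingHom _).mapMatrix (y : Mat2) from rfl, ← RingHom.map_det, y.det_coe, map_one]
    rw [hX, Matrix.det_fin_two] at hdet
    simp only [Matrix.add_apply, Matrix.smul_apply, smul_eq_mul, Matrix.one_apply_eq,
      Matrix.one_apply_ne zero_ne_one, Matrix.one_apply_ne one_ne_zero, zero_add] at hdet
    linear_combination hdet - sq_layer he * (X 0 0 * X 1 1 - X 0 1 * X 1 0)
  obtain ⟨k, hk⟩ := ZMod.intCast_surjective (Mi * X 0 0)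
  obtain ⟨j, hj⟩ := ZMod.intCast_surjective (Mi * (X 1 0 - X 0 0))
  obtain ⟨i, hi⟩ := ZMod.intCast_surjective (X 0 1 + X 0 0)
  set w : SL(2, ℤ) := (ModularGroup.T * lowU ((3 ^ e : ℕ) * M : ℤ) * ModularGroup.T⁻¹) ^ k *
    lowU ((3 ^ e : ℕ) * M : ℤ) ^ j * (ModularGroup.T ^ (((3 ^ e : ℕ) : ℤ))) ^ i with hwdef
  have hw : w ∈ Subgroup.closure (layerGen M e : Set SL(2, ℤ)) :=
    mul_mem (mul_mem (hclo _ (by simp [layerGen]) k) (hclo _ (by simp [layerGen]) j))
      (hclo _ (by simp [layerGen]) i)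
  have hwl : w ∈ lvl M e :=
    ((Subgroup.closure_le _).mpr fun g hg => (layerGen_mem M e hg).1) hw
  have hred : redMat (3 ^ (e + 1)) (w : Mat2) = 1 + ι • X := by
    have hT : ((ModularGroup.T⁻¹ : SL(2, ℤ)) : Mat2) = !![1, -1; 0, 1] := ModularGroup.coe_T_inv
    have r1 : redMat (3 ^ (e + 1))
        (((ModularGroup.T * lowU ((3 ^ e : ℕ) * M : ℤ) * ModularGroup.T⁻¹) ^ k : SL(2, ℤ)) : Mat2) =
        1 + ι • !![(M : ZMod (3 ^ (e + 1))) * k, -(M * k); M * k, -(M * k)] := by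
      rw [conj_zpow, lowU_zpow, Matrix.SpecialLinearGroup.coe_mul,
        Matrix.SpecialLinearGroup.coe_mul, hT, ModularGroup.coe_T, coe_lowU]
      ext a b
      fin_cases a <;> fin_cases b <;>
        simp [redMat] <;> ring
    have r2 : redMat (3 ^ (e + 1)) ((lowU ((3 ^ e : ℕ) * M : ℤ) ^ j : SL(2, ℤ)) : Mat2) =
        1 + ι • !![(0 : ZMod (3 ^ (e + 1))), 0; M * j, 0] := by
      rw [lowU_zpow, coe_lowU]
      ext a b
      fin_cases a <;> fin_cases b <;> simp [redMat]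
      ring
    have r3 : redMat (3 ^ (e + 1))
        (((ModularGroup.T ^ (((3 ^ e : ℕ) : ℤ))) ^ i : SL(2, ℤ)) : Mat2) =
        1 + ι • !![(0 : ZMod (3 ^ (e + 1))), i; 0, 0] := by
      rw [← _root_.zpow_mul, ModularGroup.coe_T_zpow]
      ext a b
      fin_cases a <;> fin_cases b <;> simp [redMat]
    rw [hwdef, Matrix.SpecialLinearGroup.coe_mul, Matrix.SpecialLinearGroup.coe_mul, map_mul,
      map_mul, r1, r2, r3, layer_mul he, layer_mul he, hk, hj, hi]
    congr 1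
    ext a b
    fin_cases a <;> fin_cases b <;>
      simp only [Matrix.smul_apply, Matrix.add_apply, smul_eq_mul, Matrix.of_apply,
        Matrix.cons_val', Matrix.cons_val_zero, Matrix.cons_val_one, Matrix.cons_val_fin_one,
        Fin.zero_eta, Fin.mk_one, Fin.isValue]
    · linear_combination ι * X 0 0 * hMi
    · linear_combination -(ι * X 0 0) * hMi
    · linear_combination ι * X 1 0 * hMi
    · linear_combination -(ι * X 0 0) * hMi - htr
  have hmem : y * w⁻¹ ∈ lvl M (e + 1) := by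
    refine Subgroup.mem_inf.mpr
      ⟨Or.inl ?_, mul_mem (Subgroup.mem_inf.mp hy).2 (inv_mem (Subgroup.mem_inf.mp hwl).2)⟩
    rw [mem_Gamma_iff_red, Matrix.SpecialLinearGroup.coe_mul, map_mul, hX, ← hred, ← map_mul,
      ← Matrix.SpecialLinearGroup.coe_mul, mul_inv_cancel, Matrix.SpecialLinearGroup.coe_one,
      map_one]
  simpa using mul_mem (Subgroup.mem_sup_left hmem) (Subgroup.mem_sup_right hw :
    w ∈ lvl M (e + 1) ⊔ Subgroup.closure (layerGen M e : Set SL(2, ℤ)))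

end Layer

/-- The last layer. -/
lemma gamma0_layer {M : ℕ} {x : SL(2, ℤ)} (hx : x ∈ Gamma0 (3 * M)) :
    x ∈ Gamma0 M ∧ ∃ b : ZMod 3,
      redMat 3 (x : Mat2) = !![1, b; 0, 1] ∨ redMat 3 (x : Mat2) = -!![1, b; 0, 1] := by
  rw [Gamma0_mem] at hx
  have h3' : ((x : Mat2) 1 0 : ZMod 3) = 0 := by
    simpa [map_intCast] using congrArg (ZMod.castHom (dvd_mul_right 3 M) (ZMod 3)) hx
  have hM : x ∈ Gamma0 M := by
    rw [Gamma0_mem]
    simpa [map_intCast] using congrArg (ZMod.castHom (dvd_mul_left M 3) (ZMod M)) hx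
  refine ⟨hM, ?_⟩
  have hd : ((x : Mat2) 0 0 : ZMod 3) * ((x : Mat2) 1 1 : ZMod 3) = 1 := by
    have e := congrArg (fun z : ℤ => (z : ZMod 3)) x.det_coe
    simp only [Matrix.det_fin_two, Int.cast_sub, Int.cast_mul, Int.cast_one, h3', mul_zero,
      sub_zero] at e
    exact e
  have hcase : ∀ a d : ZMod 3, a * d = 1 → a = 1 ∧ d = 1 ∨ a = -1 ∧ d = -1 := by decide
  rcases hcase _ _ hd with ⟨ha, hd'⟩ | ⟨ha, hd'⟩
  · refine ⟨((x : Mat2) 0 1 : ZMod 3), Or.inl ?_⟩
    ext a b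
    fin_cases a <;> fin_cases b <;> simp [redMat, ha, hd', h3']
  · refine ⟨-((x : Mat2) 0 1 : ZMod 3), Or.inr ?_⟩
    ext a b
    fin_cases a <;> fin_cases b <;> simp [redMat, ha, hd', h3']

lemma lvl_one_le_gamma0 {M : ℕ} (h3 : ¬ 3 ∣ M) : lvl M 1 ≤ Gamma0 (3 * M) := by
  intro x hx
  obtain ⟨hx1, hx2⟩ := Subgroup.mem_inf.mp hx
  rw [mem_pmGamma_iff, pow_one] at hx1
  rw [Gamma0_mem] at hx2 ⊢
  have h10 : ((x : Mat2) 1 0 : ZMod 3) = 0 := by
    rcases hx1 with h | h <;>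
      simpa [redMat] using congrArg (fun A : Matrix (Fin 2) (Fin 2) (ZMod 3) => A 1 0) h
  rw [ZMod.intCast_zmod_eq_zero_iff_dvd] at hx2 h10 ⊢
  have hc : IsCoprime ((3 : ℕ) : ℤ) (M : ℤ) := Int.isCoprime_iff_nat_coprime.mpr (by
    simpa using (Nat.Prime.coprime_iff_not_dvd Nat.prime_three).mpr h3)
  push_cast at hc h10 ⊢
  exact hc.mul_dvd h10 hx2

variable {K : Type*} [Field K]

/-- A non-Eisenstein system climbs from `±Γ(27) ∩ Γ₀(M)` to the parabolic homomorphisms of `Γ₀(3M)`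
in three layers, `M` prime to three. -/
theorem occurs_climb_levels [CharP K 3] {M : ℕ} (h3 : ¬ 3 ∣ M) (S : Sys (27 * M)) {a : S.P → K}
    {p₀ : S.P} (h0 : ((p₀ : ℕ) : K) + 1 ≠ a p₀)
    (h : Occurs (opsHom S (congLevel_lvl M le_rfl) (k := K)) a) :
    Occurs (X := parHoms K (Gamma0 (3 * M))) (opsPar S (congLevel_gamma0 M) (K := K)) a := by
  have step : ∀ (e : ℕ) (he : 1 ≤ e) (he' : e + 1 ≤ 3),
      Occurs (X := parHoms K (lvl M (e + 1))) (opsPar S (congLevel_lvl M he') (K := K)) a →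
      Occurs (X := parHoms K (lvl M e))
        (opsPar S (congLevel_lvl M ((Nat.le_succ e).trans he')) (K := K)) a := by
    intro e he he' hh
    refine occurs_climb S (congLevel_lvl M he') (congLevel_lvl M ((Nat.le_succ e).trans he')) ?_
      (fun x hx y hy => lvl_comm he hx hy) (fun x hx => lvl_cube he hx) (layerGen M e)
      (fun g hg => layerGen_mem M e hg) (lvl_gen he h3) h0 hh
    refine inf_le_inf_right _ fun x hx => ?_
    rcases hx with hx | hx
    · exact gamma_le_pmGamma (Nat.pow_dvd_pow 3 e.le_succ) hx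
    · simpa using mul_mem (neg_one_mem_pmGamma (3 ^ e))
        (gamma_le_pmGamma (Nat.pow_dvd_pow 3 e.le_succ) hx)
  have h1 := step 1 le_rfl (by norm_num) (step 2 (by norm_num) le_rfl (occurs_parabolic S _ h0 h))
  have hmul : ∀ b c : ZMod 3, (!![1, b; 0, 1] : Matrix (Fin 2) (Fin 2) (ZMod 3)) * !![1, c; 0, 1] =
      !![1, b + c; 0, 1] := fun b c => by simp [add_comm]
  refine occurs_climb S (congLevel_lvl M (by norm_num)) (congLevel_gamma0 M) (lvl_one_le_gamma0 h3)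
    (fun x hx y hy => ?_) (fun x hx => ?_) {ModularGroup.T} (fun g hg => ?_) (fun x hx => ?_) h0 h1
  · obtain ⟨hx', b, hb⟩ := gamma0_layer hx
    obtain ⟨hy', c, hc⟩ := gamma0_layer hy
    refine Subgroup.mem_inf.mpr
      ⟨Or.inl ?_, mul_mem (mul_mem (mul_mem hx' hy') (inv_mem hx')) (inv_mem hy')⟩
    have he : redMat 3 ((x * y : SL(2, ℤ)) : Mat2) = redMat 3 ((y * x : SL(2, ℤ)) : Mat2) := by
      rw [Matrix.SpecialLinearGroup.coe_mul, Matrix.SpecialLinearGroup.coe_mul, map_mul, map_mul]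
      rcases hb with hb | hb <;> rcases hc with hc | hc <;>
        rw [hb, hc] <;> simp only [neg_mul, mul_neg, neg_neg, hmul, add_comm b c]
    rw [pow_one, mem_Gamma_iff_red, show x * y * x⁻¹ * y⁻¹ = (x * y) * (y * x)⁻¹ by group,
      Matrix.SpecialLinearGroup.coe_mul, map_mul, he, ← map_mul,
      ← Matrix.SpecialLinearGroup.coe_mul, mul_inv_cancel, Matrix.SpecialLinearGroup.coe_one,
      map_one]
  · obtain ⟨hx', b, hb⟩ := gamma0_layer hx
    refine Subgroup.mem_inf.mpr ⟨mem_pmGamma_iff.mpr ?_, pow_mem hx' 3⟩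
    rw [pow_one, show x ^ 3 = x * x * x by rw [pow_succ, pow_two],
      Matrix.SpecialLinearGroup.coe_mul, Matrix.SpecialLinearGroup.coe_mul, map_mul, map_mul]
    have h33 : b + b + b = 0 := by
      have : ∀ z : ZMod 3, z + z + z = 0 := by decide
      exact this b
    rcases hb with hb | hb <;> rw [hb]
    · exact Or.inl (by rw [hmul, hmul, h33, ← Matrix.one_fin_two])
    · exact Or.inr (by simp only [neg_mul, mul_neg, neg_neg, hmul, h33, ← Matrix.one_fin_two])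
  · rw [Finset.mem_singleton] at hg
    subst hg
    refine ⟨by simp [Gamma0_mem, ModularGroup.coe_T], ?_⟩
    rw [ModularGroup.coe_T, Matrix.trace_fin_two_of]
    norm_num
  · obtain ⟨hx', b, hb⟩ := gamma0_layer hx
    have hT : ModularGroup.T ∈ Gamma0 M := by simp [Gamma0_mem, ModularGroup.coe_T]
    have hmem : x * (ModularGroup.T ^ (b.val : ℤ))⁻¹ ∈ lvl M 1 := by
      refine Subgroup.mem_inf.mpr
        ⟨mem_pmGamma_iff.mpr ?_, mul_mem hx' (inv_mem (zpow_mem hT _))⟩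
      rw [pow_one, ← _root_.zpow_neg, Matrix.SpecialLinearGroup.coe_mul, map_mul]
      have hTb : redMat 3 ((ModularGroup.T ^ (-(b.val : ℤ)) : SL(2, ℤ)) : Mat2) =
          !![1, -b; 0, 1] := by
        rw [ModularGroup.coe_T_zpow]
        ext u v
        fin_cases u <;> fin_cases v <;> simp [redMat]
      rcases hb with hb | hb <;> rw [hb, hTb]
      · exact Or.inl (by rw [hmul, add_neg_cancel, ← Matrix.one_fin_two])
      · exact Or.inr (by rw [neg_mul, hmul, add_neg_cancel, ← Matrix.one_fin_two])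
    have hw : ModularGroup.T ^ (b.val : ℤ) ∈
        Subgroup.closure (({ModularGroup.T} : Finset SL(2, ℤ)) : Set SL(2, ℤ)) :=
      zpow_mem (Subgroup.subset_closure (by simp)) _
    simpa using mul_mem (Subgroup.mem_sup_left hmem) (Subgroup.mem_sup_right hw :
      ModularGroup.T ^ (b.val : ℤ) ∈ lvl M 1 ⊔ Subgroup.closure _)

end FermatAgent.LT.Mod3
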