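import Mathlib
import Fermat.Agent.LT.Mod3.Defs
import Fermat.Agent.LT.Mod3.Layers

/-!
# The permutations of the products of projective lines

The representation on the functions on the product of the lines over `S`, its quotient on the
differences `e_l - e_∞`, and transitivity with stabiliser the smaller level.
-/

set_option autoImplicit false
set_option maxSynthPendingDepth 4

noncomputable section

open CongruenceSubgroup ModularCurve.Period
open scoped MatrixGroups OnePoint

namespace FermatAgent.LT.Mod3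

open FermatAgent.HM

instance nezeroPrimes (q : Nat.Primes) : NeZero (q : ℕ) := ⟨q.2.ne_zero⟩

lemma tld_mul (q : ℕ) (a b : SL(2, ℤ)) : tld q (a * b) = tld q b * tld q a := by
  refine Subtype.ext (Matrix.ext fun i j => ?_)
  change (tld q (a * b)).1 i j = ((tld q b).1 * (tld q a).1) i j
  fin_cases i <;> fin_cases j <;>
    simp [tld, Matrix.mul_apply, Fin.sum_univ_two] <;> ring

/-- The projective action is a right action. -/
lemma moebius_mul (q : Nat.Primes) (a b : SL(2, ℤ)) (x : OnePoint (ZMod (q : ℕ))) :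
    moebius q (a * b) x = moebius q b (moebius q a x) := by
  rw [moebius, moebius, moebius, ← mul_smul, ← map_mul, tld_mul]

/-- One acts trivially. -/
lemma moebius_one (q : Nat.Primes) (x : OnePoint (ZMod (q : ℕ))) : moebius q 1 x = x := by
  have e : tld (q : ℕ) 1 = 1 := Subtype.ext (Matrix.ext fun i j => by
    fin_cases i <;> fin_cases j <;> simp [tld])
  rw [moebius, e, map_one, one_smul]

/-- The stabiliser of infinity. -/
lemma moebius_eq_infty_iff (q : Nat.Primes) (γ : SL(2, ℤ)) :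
    moebius q γ ∞ = ∞ ↔ ((q : ℕ) : ℤ) ∣ γ 1 0 := by
  rw [moebius, OnePoint.smul_infty_eq_self_iff, ← ZMod.intCast_zmod_eq_zero_iff_dvd]
  change (tld (q : ℕ) γ).1 1 0 = 0 ↔ _
  simp [tld]

lemma tld_eq_of_red {q n : ℕ} (hq : q ∣ n) {a b : SL(2, ℤ)}
    (e : redMat n (a : Mat2) = redMat n (b : Mat2)) : tld q a = tld q b := by
  have h : ∀ i j, (((a : Mat2) i j : ℤ) : ZMod q) = (((b : Mat2) i j : ℤ) : ZMod q) := fun i j => by
    have h' := congrArg (ZMod.castHom hq (ZMod q)) (congrFun (congrFun e i) j)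
    simpa [redMat, map_intCast] using h'
  refine Subtype.ext (Matrix.ext fun i j => ?_)
  fin_cases i <;> fin_cases j <;> simp [tld, h]

variable (S : Finset Nat.Primes)

/-- The product of the projective lines. -/
abbrev Prj := (q : S) → OnePoint (ZMod ((q.1 : Nat.Primes) : ℕ))

instance fintypePrj : Fintype (Prj S) := by
  classical
  exact inferInstanceAs (Fintype ((q : S) → OnePoint (ZMod ((q.1 : Nat.Primes) : ℕ))))

/-- The permutation of the product. -/
def act (γ : SL(2, ℤ)) (x : Prj S) : Prj S := fun q => moebius q.1 γ (x q)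

/-- The product action is a right action. -/
lemma act_mul (a b : SL(2, ℤ)) (x : Prj S) : act S (a * b) x = act S b (act S a x) :=
  funext fun q => moebius_mul q.1 a b (x q)

lemma act_one (x : Prj S) : act S 1 x = x := funext fun q => moebius_one q.1 (x q)

/-- The permutation. -/
def actEquiv (γ : SL(2, ℤ)) : Prj S ≃ Prj S where
  toFun := act S γ
  invFun := act S γ⁻¹
  left_inv x := by rw [← act_mul, mul_inv_cancel, act_one]
  right_inv x := by rw [← act_mul, inv_mul_cancel, act_one]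

/-- `Γ(n)` acts trivially. -/
lemma act_eq_of_gamma {n : ℕ} (hS : ∀ q ∈ S, (q : ℕ) ∣ n) {γ : SL(2, ℤ)} (hγ : γ ∈ Gamma n)
    (x : Prj S) : act S γ x = x := by
  funext q
  have e : tld ((q.1 : Nat.Primes) : ℕ) γ = tld ((q.1 : Nat.Primes) : ℕ) 1 :=
    tld_eq_of_red (hS q q.2) (by
      rw [mem_Gamma_iff_red.mp hγ, Matrix.SpecialLinearGroup.coe_one, map_one])
  rw [act, moebius, e, ← moebius, moebius_one]

variable (k : Type*) [CommRing k]

/-- The functions on the product, permuted. -/
def permRep (Γ : Subgroup SL(2, ℤ)) : Representation k Γ (Prj S → k) where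
  toFun g := LinearMap.funLeft k k (act S g)
  map_one' := LinearMap.ext fun f => funext fun x => congrArg f (act_one S x)
  map_mul' a b := LinearMap.ext fun f => funext fun x => congrArg f (act_mul S a b x)

open Classical in
/-- The coefficient of a point in a difference. -/
def diffCoef (y : Prj S) (l : Idx S) : k :=
  ∏ q : S, ((if y q = ((l q : ZMod _) : OnePoint _) then 1 else 0) - (if y q = ∞ then 1 else 0))

/-- The map to the functions on the differences. -/
def diffMap : (Prj S → k) →ₗ[k] (Idx S → k) where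
  toFun f l := ∑ y, diffCoef S k y l * f y
  map_add' f g := funext fun l => by simp [mul_add, Finset.sum_add_distrib]
  map_smul' r f := funext fun l => by simp [Finset.mul_sum, mul_left_comm]

open Classical in
lemma sum_aug_diff (γ : SL(2, ℤ)) (i : Idx S) (y : Prj S) :
    ∑ l, augMat k γ i l * diffCoef S k y l = ∏ q : S,
      ((if moebius q.1 γ (i q : OnePoint _) = y q then (1 : k) else 0) -
        (if moebius q.1 γ ∞ = y q then 1 else 0)) := by
  simp only [augMat, diffCoef, ← Finset.prod_mul_distrib]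
  refine (Fintype.prod_sum (fun (q : S) (z : ZMod ((q.1 : Nat.Primes) : ℕ)) =>
    ((if moebius q.1 γ (i q : OnePoint _) = (z : OnePoint _) then (1 : k) else 0) -
      (if moebius q.1 γ ∞ = (z : OnePoint _) then 1 else 0)) *
    ((if y q = (z : OnePoint _) then 1 else 0) - (if y q = ∞ then 1 else 0)))).symm.trans ?_
  refine Finset.prod_congr rfl fun q _ => ?_
  set A := moebius q.1 γ (i q : OnePoint _)
  set B := moebius q.1 γ ∞
  have h1 : ∀ A : OnePoint (ZMod ((q.1 : Nat.Primes) : ℕ)),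
      (∑ l : ZMod ((q.1 : Nat.Primes) : ℕ), if A = (l : OnePoint _) then (1 : k) else 0) =
        1 - if A = ∞ then 1 else 0 := by
    intro A
    induction A using OnePoint.rec <;> simp
  induction y q using OnePoint.rec with
  | infty =>
    simp only [OnePoint.infty_ne_coe, if_false, if_true, zero_sub, mul_neg, mul_one]
    rw [Finset.sum_neg_distrib, Finset.sum_sub_distrib, h1, h1]
    ring
  | coe c =>
    simp only [OnePoint.coe_ne_infty, if_false, sub_zero, OnePoint.coe_eq_coe, mul_ite, mul_one,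
      mul_zero]
    rw [Finset.sum_ite_eq]
    simp

/-- The differences are permuted like the points. -/
theorem diffMap_act (γ : SL(2, ℤ)) (f : Prj S → k) (i : Idx S) :
    ∑ l, augMat k γ i l * diffMap S k f l = diffMap S k (f ∘ act S γ) i := by
  classical
  simp only [diffMap, LinearMap.coe_mk, AddHom.coe_mk, Finset.mul_sum, ← mul_assoc]
  rw [Finset.sum_comm]
  simp only [← Finset.sum_mul, sum_aug_diff]
  rw [← (actEquiv S γ).sum_comp]
  refine Finset.sum_congr rfl fun z _ => ?_
  change (∏ q : S, _) * f (act S γ z) = diffCoef S k z i * f (act S γ z)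
  congr 1
  refine Finset.prod_congr rfl fun q _ => ?_
  have hinj : Function.Injective (moebius q.1 γ) := fun a b e => by
    have e' := congrArg (moebius q.1 γ⁻¹) e
    rwa [← moebius_mul, ← moebius_mul, mul_inv_cancel, moebius_one, moebius_one] at e'
  change (if _ = moebius q.1 γ (z q) then (1 : k) else 0) -
    (if _ = moebius q.1 γ (z q) then 1 else 0) = _
  simp only [hinj.eq_iff, eq_comm]

/-- The differences `e_l - e_∞` span: the map to the functions on them is surjective. -/
theorem diffMap_surjective : Function.Surjective (diffMap S k) := by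
  classical
  intro x
  refine ⟨fun y => ∑ l : Idx S, if y = (fun q => ((l q : ZMod _) : OnePoint _)) then x l else 0,
    funext fun m => ?_⟩
  simp only [diffMap, LinearMap.coe_mk, AddHom.coe_mk, Finset.mul_sum, mul_ite, mul_zero]
  rw [Finset.sum_comm]
  simp only [Finset.sum_ite_eq', Finset.mem_univ, if_true, diffCoef, OnePoint.coe_ne_infty,
    if_false, sub_zero, OnePoint.coe_eq_coe]
  rw [Finset.sum_eq_single m]
  · simp
  · intro l _ hl
    obtain ⟨q, hq⟩ := Function.ne_iff.mp hl
    rw [Finset.prod_eq_zero (Finset.mem_univ q) (if_neg hq), zero_mul]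
  · simp

/-- The matrices form an action. -/
theorem augMat_mulVec_mul (a b : SL(2, ℤ)) (v : Idx S → k) :
    Matrix.mulVec (Matrix.of (augMat k (a * b))) v =
      Matrix.mulVec (Matrix.of (augMat k a)) (Matrix.mulVec (Matrix.of (augMat k b)) v) := by
  obtain ⟨f, rfl⟩ := diffMap_surjective S k v
  have h : ∀ (γ : SL(2, ℤ)) (f : Prj S → k),
      Matrix.mulVec (Matrix.of (augMat k γ)) (diffMap S k f) = diffMap S k (f ∘ act S γ) :=
    fun γ f => funext fun i => diffMap_act S k γ f i
  rw [h, h, h]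
  congr 1
  funext x
  simp [act_mul]

/-- The action on differences. -/
def augRep (Γ : Subgroup SL(2, ℤ)) : Representation k Γ (Idx S → k) where
  toFun g := Matrix.mulVecLin (Matrix.of (augMat k (g : SL(2, ℤ))))
  map_one' := by
    refine LinearMap.ext fun v => ?_
    obtain ⟨f, rfl⟩ := diffMap_surjective S k v
    funext i
    refine (diffMap_act S k _ f i).trans ?_
    rw [show f ∘ act S ((1 : Γ) : SL(2, ℤ)) = f from funext fun x => by simp [act_one]]
    rfl
  map_mul' a b := LinearMap.ext fun v => augMat_mulVec_mul S k a b v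

/-- Differences give an equivalence with the augmentation representation. -/
lemma diffMap_isEquiv (Γ : Subgroup SL(2, ℤ)) :
    IsEquiv (permRep S k Γ) (augRep S k Γ) (diffMap S k) := fun _ f =>
  funext fun i => (diffMap_act S k _ f i).symm

section Transitive

variable {S} {MA M : ℕ}

/-- Integers with prescribed residues. -/
lemma exists_int_prescribed (n0 : ℕ) (hn0 : ∀ q ∈ S, ¬ (q : ℕ) ∣ n0)
    (w : (q : S) → ZMod ((q.1 : Nat.Primes) : ℕ)) :
    ∃ b : ℤ, (n0 : ℤ) ∣ b ∧ ∀ q : S, (b : ZMod ((q.1 : Nat.Primes) : ℕ)) = w q := by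
  classical
  let e : S → ℕ := fun q => n0 * ∏ r ∈ S.erase q.1, (r : ℕ)
  refine ⟨∑ q : S, (e q : ℤ) * ((w q / (e q : ZMod ((q.1 : Nat.Primes) : ℕ))).val : ℕ),
    Finset.dvd_sum fun q _ => ⟨(∏ r ∈ S.erase q.1, (r : ℕ) : ℕ) * _, by
      simp only [e, Nat.cast_mul, mul_assoc]; rfl⟩, fun q => ?_⟩
  push_cast
  rw [Finset.sum_eq_single q]
  · have hne : (e q : ZMod ((q.1 : Nat.Primes) : ℕ)) ≠ 0 := by
      rw [Ne, ZMod.natCast_eq_zero_iff]
      intro hd
      rcases (Nat.Prime.dvd_mul q.1.2).mp hd with h | h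
      · exact hn0 q q.2 h
      · obtain ⟨r, hr, hrd⟩ := (Prime.dvd_finsetProd_iff (Nat.prime_iff.mp q.1.2) _).mp h
        have : (q.1 : ℕ) = r := (Nat.prime_dvd_prime_iff_eq q.1.2 r.2).mp hrd
        exact (Finset.ne_of_mem_erase hr) (Nat.Primes.coe_nat_injective this.symm)
    rw [ZMod.natCast_zmod_val, mul_div_cancel₀ _ hne]
  · intro r _ hr
    have h0 : (e r : ZMod ((q.1 : Nat.Primes) : ℕ)) = 0 := by
      rw [ZMod.natCast_eq_zero_iff]
      exact Dvd.dvd.mul_left (Finset.dvd_prod_of_mem _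
        (Finset.mem_erase.mpr ⟨fun h => hr (Subtype.ext h.symm), q.2⟩)) _
    rw [h0, zero_mul]
  · simp

lemma lowU_mem_lvl {c : ℤ} (hc : (((27 * MA : ℕ)) : ℤ) ∣ c) : lowU c ∈ lvl MA 3 := by
  refine Subgroup.mem_inf.mpr ⟨Or.inl ?_, ?_⟩
  · have h : ((c : ℤ) : ZMod (3 ^ 3)) = 0 := (ZMod.intCast_zmod_eq_zero_iff_dvd _ _).mpr
      ((Int.natCast_dvd_natCast.mpr (Dvd.intro MA (by norm_num))).trans hc)
    rw [Gamma_mem, coe_lowU]
    simp [h]
  · rw [Gamma0_mem, coe_lowU]
    simpa using (ZMod.intCast_zmod_eq_zero_iff_dvd _ _).mpr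
      ((Int.natCast_dvd_natCast.mpr (dvd_mul_left MA 27)).trans hc)

lemma T_zpow_mem_lvl {b : ℤ} (hb : (((27 * MA : ℕ)) : ℤ) ∣ b) :
    ModularGroup.T ^ b ∈ lvl MA 3 := by
  refine Subgroup.mem_inf.mpr ⟨Or.inl ?_, ?_⟩
  · have h : ((b : ℤ) : ZMod (3 ^ 3)) = 0 := (ZMod.intCast_zmod_eq_zero_iff_dvd _ _).mpr
      ((Int.natCast_dvd_natCast.mpr (Dvd.intro MA (by norm_num))).trans hb)
    rw [Gamma_mem, ModularGroup.coe_T_zpow]
    simp [h]
  · rw [Gamma0_mem, ModularGroup.coe_T_zpow]
    simp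

lemma moebius_lowU_infty (q : Nat.Primes) (c : ℤ) :
    moebius q (lowU c) ∞ =
      if (c : ZMod (q : ℕ)) = 0 then ∞
        else (((c : ZMod (q : ℕ))⁻¹ : ZMod (q : ℕ)) : OnePoint _) := by
  rw [moebius, OnePoint.smul_infty_eq_ite]
  change (if (tld (q : ℕ) (lowU c)).1 1 0 = 0 then ∞ else
    (((tld (q : ℕ) (lowU c)).1 0 0 / (tld (q : ℕ) (lowU c)).1 1 0 : ZMod (q : ℕ)) :
      OnePoint (ZMod (q : ℕ)))) = _
  simp [tld, div_eq_inv_mul]

lemma moebius_T_infty (q : Nat.Primes) (b : ℤ) : moebius q (ModularGroup.T ^ b) ∞ = ∞ := by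
  rw [moebius_eq_infty_iff, ModularGroup.coe_T_zpow]
  simp

lemma moebius_T_coe (q : Nat.Primes) (b : ℤ) (z : ZMod (q : ℕ)) :
    moebius q (ModularGroup.T ^ b) (z : OnePoint _) =
      ((z + (b : ZMod (q : ℕ)) : ZMod (q : ℕ)) : OnePoint _) := by
  rw [moebius, OnePoint.smul_some_eq_ite]
  change (if (tld (q : ℕ) (ModularGroup.T ^ b)).1 1 0 * z +
      (tld (q : ℕ) (ModularGroup.T ^ b)).1 1 1 = 0 then ∞ else
    ((((tld (q : ℕ) (ModularGroup.T ^ b)).1 0 0 * z + (tld (q : ℕ) (ModularGroup.T ^ b)).1 0 1) /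
      ((tld (q : ℕ) (ModularGroup.T ^ b)).1 1 0 * z + (tld (q : ℕ) (ModularGroup.T ^ b)).1 1 1) :
        ZMod (q : ℕ)) : OnePoint (ZMod (q : ℕ)))) = _
  simp [tld, ModularGroup.coe_T_zpow]

/-- The group `±Γ(27) ∩ Γ₀(MA)` is transitive on the product of the projective lines over `S`. -/
theorem act_transitive (hn0 : ∀ q ∈ S, ¬ (q : ℕ) ∣ 27 * MA) (x : Prj S) :
    ∃ γ : lvl MA 3, act S γ (fun _ => ∞) = x := by
  classical
  obtain ⟨c, hc0, hc⟩ := exists_int_prescribed (27 * MA) hn0
    (fun q => if x q = ∞ then 0 else 1)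
  obtain ⟨b, hb0, hb⟩ := exists_int_prescribed (27 * MA) hn0
    (fun q => (x q).elim 0 fun z => z - 1)
  refine ⟨⟨lowU c * ModularGroup.T ^ b, mul_mem (lowU_mem_lvl hc0) (T_zpow_mem_lvl hb0)⟩,
    funext fun q => ?_⟩
  have hcq := hc q
  have hbq := hb q
  change moebius q.1 (lowU c * ModularGroup.T ^ b) ∞ = x q
  rw [moebius_mul, moebius_lowU_infty]
  generalize x q = y at hcq hbq ⊢
  induction y using OnePoint.rec with
  | infty =>
    simp only [if_true] at hcq
    rw [if_pos hcq, moebius_T_infty]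
  | coe z =>
    simp only [OnePoint.coe_ne_infty, if_false, OnePoint.elim_some] at hcq hbq
    rw [hcq, if_neg one_ne_zero, moebius_T_coe, hbq]
    simp

/-- The stabiliser of the infinite point. -/
lemma act_stab_iff (hsq : Squarefree M) (hM : MA * ∏ q ∈ S, (q : ℕ) = M) (γ : lvl MA 3) :
    (γ : SL(2, ℤ)) ∈ lvl M 3 ↔ act S γ (fun _ => ∞) = fun _ => ∞ := by
  obtain ⟨hγ1, hγ2⟩ := Subgroup.mem_inf.mp γ.2
  have hMA := (ZMod.intCast_zmod_eq_zero_iff_dvd _ _).mp (Gamma0_mem.mp hγ2)
  have key : (γ : SL(2, ℤ)) ∈ Gamma0 M ↔ ∀ q ∈ S, ((q : ℕ) : ℤ) ∣ (γ : SL(2, ℤ)) 1 0 := by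
    rw [Gamma0_mem, ZMod.intCast_zmod_eq_zero_iff_dvd]
    constructor
    · intro h q hq
      refine (Int.natCast_dvd_natCast.mpr ?_).trans h
      rw [← hM]
      exact Dvd.dvd.mul_left (Finset.dvd_prod_of_mem _ hq) _
    · intro h
      have hcop : Nat.Coprime MA (∏ q ∈ S, (q : ℕ)) :=
        Nat.coprime_of_squarefree_mul (hM.symm ▸ hsq)
      rw [← hM]
      refine Int.natCast_dvd.mpr (hcop.mul_dvd_of_dvd_of_dvd (Int.natCast_dvd.mp hMA) ?_)
      refine Int.natCast_dvd.mp ?_
      push_cast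
      exact Finset.prod_dvd_of_coprime (fun a _ b _ hab => Nat.isCoprime_iff_coprime.mpr
        ((Nat.coprime_primes a.2 b.2).mpr fun e => hab (Nat.Primes.coe_nat_injective e))) h
  constructor
  · intro h
    funext q
    exact (moebius_eq_infty_iff q.1 γ).mpr (key.mp (Subgroup.mem_inf.mp h).2 q q.2)
  · intro h
    exact Subgroup.mem_inf.mpr ⟨hγ1, key.mpr fun q hq =>
      (moebius_eq_infty_iff q γ).mp (congrFun h ⟨q, hq⟩)⟩

/-- Levels of divisors contain `Γ(27M)`. -/
lemma congLevel_lvl_of_dvd {L : ℕ} (h : L ∣ M) : CongLevel (27 * M) (lvl L 3) where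
  gamma_le := by
    intro g hg
    refine (congLevel_lvl L (le_refl 3)).gamma_le ?_
    rw [Gamma_mem] at hg ⊢
    have hd : 27 * L ∣ 27 * M := mul_dvd_mul_left 27 h
    refine ⟨?_, ?_, ?_, ?_⟩
    · have e := congrArg (ZMod.castHom hd (ZMod (27 * L))) hg.1
      rwa [map_intCast, map_one] at e
    · simpa [map_intCast] using congrArg (ZMod.castHom hd (ZMod (27 * L))) hg.2.1
    · simpa [map_intCast] using congrArg (ZMod.castHom hd (ZMod (27 * L))) hg.2.2.1
    · have e := congrArg (ZMod.castHom hd (ZMod (27 * L))) hg.2.2.2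
      rwa [map_intCast, map_one] at e
  neg_mem := (congLevel_lvl L (le_refl 3)).neg_mem

/-- Elements of the level have trace different from one. -/
lemma trace_ne_one_of_mem_lvl {L : ℕ} {γ : SL(2, ℤ)} (hγ : γ ∈ lvl L 3) :
    (γ : Mat2).trace ≠ 1 := by
  intro htr
  rw [Matrix.trace_fin_two] at htr
  have h := congrArg (fun z : ℤ => (z : ZMod (3 ^ 3))) htr
  simp only [Int.cast_add, Int.cast_one] at h
  rcases mem_pmGamma_iff.mp (Subgroup.mem_inf.mp hγ).1 with e | e
  all_goals
    have e0 := congrFun (congrFun e 0) 0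
    have e1 := congrFun (congrFun e 1) 1
    simp [redMat] at e0 e1
    rw [e0, e1] at h
    revert h
    decide

end Transitive

end FermatAgent.LT.Mod3
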