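import Mathlib
import Fermat.Agent.LT.Mod3.Occurs

/-!
# Polynomials in a family of operators

Evaluation of noncommutative polynomials at operators, natural in the module and the coefficients,
and the criterion: a system killed by every relation between the operators occurs.
-/

set_option autoImplicit false
set_option maxSynthPendingDepth 4

noncomputable section

namespace FermatAgent.LT.Mod3

variable {R A A' ι : Type*} [CommRing R] [CommRing A] [CommRing A'] {H H' : Type*} [AddCommGroup H]
  [Module A H] [AddCommGroup H'] [Module A' H']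

/-- Evaluation of a polynomial in noncommuting variables at operators, the coefficients being
pushed along a ring map. -/
def evalEnd (f : R →+* A) (T : ι → Module.End A H) : FreeAlgebra R ι →+* Module.End A H :=
  letI : Algebra R (Module.End A H) := ((algebraMap A (Module.End A H)).comp f).toAlgebra'
    fun c x => Algebra.commutes (f c) x
  (FreeAlgebra.lift R T).toRingHom

lemma evalEnd_ι (f : R →+* A) (T : ι → Module.End A H) (i : ι) :
    evalEnd f T (FreeAlgebra.ι R i) = T i := by
  let : Algebra R (Module.End A H) := ((algebraMap A (Module.End A H)).comp f).toAlgebra'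
    fun c x => Algebra.commutes (f c) x
  exact FreeAlgebra.lift_ι_apply T i

/-- Evaluating a scalar. -/
lemma evalEnd_algebraMap (f : R →+* A) (T : ι → Module.End A H) (r : R) :
    evalEnd f T (algebraMap R (FreeAlgebra R ι) r) = algebraMap A (Module.End A H) (f r) := by
  let : Algebra R (Module.End A H) := ((algebraMap A (Module.End A H)).comp f).toAlgebra'
    fun c x => Algebra.commutes (f c) x
  exact (FreeAlgebra.lift R T).commutes r

/-- Evaluation is natural. -/
theorem evalEnd_natural {f : R →+* A} {f' : R →+* A'} {T : ι → Module.End A H}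
    {T' : ι → Module.End A' H'} (φ : H →+ H') (hφ : ∀ r x, φ (f r • x) = f' r • φ x)
    (hT : ∀ i x, φ (T i x) = T' i (φ x)) (s : FreeAlgebra R ι) (x : H) :
    φ (evalEnd f T s x) = evalEnd f' T' s (φ x) := by
  induction s using FreeAlgebra.induction generalizing x with
  | grade0 r =>
    rw [evalEnd_algebraMap, evalEnd_algebraMap, Module.algebraMap_end_apply,
      Module.algebraMap_end_apply, hφ]
  | grade1 i => rw [evalEnd_ι, evalEnd_ι, hT]
  | mul a b ha hb => rw [map_mul, map_mul, Module.End.mul_apply, Module.End.mul_apply, ha, hb]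
  | add a b ha hb => rw [map_add, map_add, LinearMap.add_apply,
    LinearMap.add_apply, map_add, ha, hb]

/-- The character with prescribed values. -/
def evalScalar (f : R →+* A) (a : ι → A) : FreeAlgebra R ι →+* A :=
  letI : Algebra R A := f.toAlgebra
  (FreeAlgebra.lift R a).toRingHom

lemma evalScalar_ι (f : R →+* A) (a : ι → A) (i : ι) :
    evalScalar f a (FreeAlgebra.ι R i) = a i := by
  let : Algebra R A := f.toAlgebra
  exact FreeAlgebra.lift_ι_apply a i

/-- Scalar evaluation of a scalar. -/
lemma evalScalar_algebraMap (f : R →+* A) (a : ι → A) (r : R) :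
    evalScalar f a (algebraMap R (FreeAlgebra R ι) r) = f r := by
  let : Algebra R A := f.toAlgebra
  exact (FreeAlgebra.lift R a).commutes r

/-- Eigenvectors evaluate to scalars. -/
lemma evalEnd_scalar (f : R →+* A) (a : ι → A) {T : ι → Module.End A H} {v : H}
    (hv : ∀ i, T i v = a i • v) (s : FreeAlgebra R ι) :
    evalEnd f T s v = evalScalar f a s • v := by
  suffices ∀ c : A, evalEnd f T s (c • v) = (c * evalScalar f a s) • v by simpa using this 1
  induction s using FreeAlgebra.induction with
  | grade0 r =>
    intro c
    rw [evalEnd_algebraMap, evalScalar_algebraMap, Module.algebraMap_end_apply, smul_smul, mul_comm]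
  | grade1 i =>
    intro c
    rw [evalEnd_ι, evalScalar_ι, map_smul, hv, smul_smul]
  | mul x y hx hy =>
    intro c
    rw [map_mul, map_mul, Module.End.mul_apply, hy, hx]
    congr 1
    ring
  | add x y hx hy =>
    intro c
    rw [map_add, map_add, LinearMap.add_apply, hx, hy, ← add_smul, mul_add]

/-- A system of scalars killed by every polynomial relation between the operators on a finite module
occurs in it. -/
theorem occurs_of_annihilator {k ι X : Type*} [Field k] [AddCommGroup X] [Module k X]
    [Module.Finite k X] {T : ι → X →ₗ[k] X} {a : ι → k} (f : R →+* k)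
    (hf : Function.Surjective f)
    (h : ∀ s : FreeAlgebra R ι, evalEnd f T s = 0 → evalScalar f a s = 0) : Occurs T a := by
  classical
  obtain ⟨n, e, he⟩ := Module.Finite.exists_fin (R := k) (M := X)
  -- the operators generated, acting on tuples
  let T' : ι → Module.End k (Fin n → X) := fun i => LinearMap.pi fun j =>
    (T i).comp (LinearMap.proj j)
  have hcoord : ∀ (s : FreeAlgebra R ι) (x : Fin n → X) j,
      evalEnd f T' s x j = evalEnd f T s (x j) := fun s x j =>
    evalEnd_natural (f := f) (f' := f) (T := T') (T' := T)
      ((LinearMap.proj j : (Fin n → X) →ₗ[k] X).toAddMonoidHom) (fun r y => rfl)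
      (fun i y => rfl) s x
  -- the orbit of the spanning tuple
  let orb : Set (Fin n → X) := Set.range fun s : FreeAlgebra R ι => evalEnd f T' s e
  have hsmul : ∀ (c : k), ∀ y ∈ orb, c • y ∈ orb := by
    rintro c _ ⟨s, rfl⟩
    obtain ⟨r, rfl⟩ := hf c
    exact ⟨algebraMap R _ r * s, by
      change evalEnd f T' (algebraMap R _ r * s) e = _
      rw [map_mul, Module.End.mul_apply, evalEnd_algebraMap, Module.algebraMap_end_apply]⟩
  let Orb : Submodule k (Fin n → X) :=
    { carrier := orb
      add_mem' := by
        rintro _ _ ⟨s, rfl⟩ ⟨s', rfl⟩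
        exact ⟨s + s', by simp⟩
      zero_mem' := ⟨0, by simp⟩
      smul_mem' := hsmul }
  let W : Submodule k (Fin n → X) :=
    { carrier := {y | ∃ s, evalEnd f T' s e = y ∧ evalScalar f a s = 0}
      add_mem' := by
        rintro _ _ ⟨s, rfl, hs⟩ ⟨s', rfl, hs'⟩
        exact ⟨s + s', by simp, by rw [map_add, hs, hs', add_zero]⟩
      zero_mem' := ⟨0, by simp, map_zero _⟩
      smul_mem' := by
        rintro c _ ⟨s, rfl, hs⟩
        obtain ⟨r, rfl⟩ := hf c
        exact ⟨algebraMap R _ r * s, by
          rw [map_mul, Module.End.mul_apply, evalEnd_algebraMap, Module.algebraMap_end_apply],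
          by rw [map_mul, hs, mul_zero]⟩ }
  have hfaith : ∀ s, evalEnd f T' s e = 0 → evalEnd f T s = 0 := fun s hs => by
    refine LinearMap.ext_on he ?_
    rintro _ ⟨j, rfl⟩
    rw [← hcoord, hs]
    rfl
  have hocc : Occurs (X := Fin n → X) T' a := by
    refine ⟨W, e, ?_, ?_, fun i => ?_⟩
    · rintro i _ ⟨s, rfl, hs⟩
      exact ⟨FreeAlgebra.ι R i * s, by rw [map_mul, Module.End.mul_apply, evalEnd_ι],
        by rw [map_mul, hs, mul_zero]⟩
    · rintro ⟨s, hse, hs⟩
      have h1 : evalEnd f T' (s - 1) e = 0 := by simp [hse]
      have h2 := h _ (hfaith _ h1)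
      rw [map_sub, hs, map_one, zero_sub, neg_eq_zero] at h2
      exact one_ne_zero h2
    · obtain ⟨r, hr⟩ := hf (a i)
      refine ⟨FreeAlgebra.ι R i - algebraMap R _ r, ?_, ?_⟩
      · rw [map_sub, LinearMap.sub_apply, evalEnd_ι, evalEnd_algebraMap,
          Module.algebraMap_end_apply, hr]
      · rw [map_sub, evalScalar_ι, evalScalar_algebraMap, hr, sub_self]
  -- one coordinate at a time
  have key : ∀ m (T'' : ι → (Fin m → X) →ₗ[k] (Fin m → X)),
      (∀ i x j, T'' i x j = T i (x j)) → Occurs T'' a → Occurs T a := by
    intro m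
    induction m with
    | zero =>
      rintro T'' - ⟨W, v, -, hv, -⟩
      exact absurd (by rw [Subsingleton.elim v 0]; exact W.zero_mem) hv
    | succ m ih =>
      intro T'' hT'' hm
      let i₁ : X →ₗ[k] (Fin (m + 1) → X) := LinearMap.single k (fun _ => X) 0
      let g₁ : (Fin (m + 1) → X) →ₗ[k] (Fin m → X) := LinearMap.funLeft k X Fin.succ
      let T₁ : ι → (Fin m → X) →ₗ[k] (Fin m → X) :=
        fun i => LinearMap.pi fun j => (T i).comp (LinearMap.proj j)
      have hf₁ : Intertwines T T'' i₁ := fun i x => by
        funext j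
        rw [hT'']
        by_cases hj : j = 0
        · subst hj; simp [i₁]
        · simp [i₁, Pi.single_eq_of_ne hj]
      have hg₁ : Intertwines T'' T₁ g₁ := fun i x => funext fun j => hT'' i x j.succ
      have hex : Function.Exact i₁ g₁ := fun x => by
        constructor
        · intro hx
          refine ⟨x 0, funext fun j => ?_⟩
          refine Fin.cases ?_ (fun j => ?_) j
          · simp [i₁]
          · have := congrFun hx j
            simpa [i₁, g₁, Fin.succ_ne_zero] using this.symm
        · rintro ⟨y, rfl⟩
          funext j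
          simp [i₁, g₁, Fin.succ_ne_zero]
      rcases hm.of_exact hf₁ hg₁ hex with h1 | h2
      · exact h1
      · exact ih _ (fun i x j => rfl) h2
  exact key n T' (fun i x j => rfl) hocc

end FermatAgent.LT.Mod3
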