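import Mathlib
import Fermat.Agent.HM.H1.Basic

/-!
# Cohomology of an integral matrix representation over a valuation subring

Integral cohomology is finite and spans the complex one; a class dying in the cohomology of the
reduction is a multiple of the maximal ideal.
-/

set_option autoImplicit false
set_option maxSynthPendingDepth 4

noncomputable section

namespace FermatAgent.LT.Mod3

open FermatAgent.HM

/-- The representation on column vectors of a matrix representation over a ring map. -/
def matRep {R A : Type*} [CommRing R] [CommRing A] {G : Type*} [Group G] {d : ℕ}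
    (M : G →* Matrix (Fin d) (Fin d) R) (f : R →+* A) : Representation A G (Fin d → A) :=
  (Matrix.toLinAlgEquiv' : Matrix (Fin d) (Fin d) A ≃ₐ[A] Module.End A (Fin d → A)).toMonoidHom.comp
    (f.mapMatrix.toMonoidHom.comp M)

variable {R A : Type*} [CommRing R] [CommRing A] {G : Type*} [Group G] {d : ℕ}

/-- The action of the matrix representation. -/
lemma matRep_apply (M : G →* Matrix (Fin d) (Fin d) R) (f : R →+* A) (g : G) (v : Fin d → A) :
    matRep M f g v = ((M g).map f).mulVec v := rfl

lemma matRep_map (M : G →* Matrix (Fin d) (Fin d) R) (f : R →+* A) (g : G) (v : Fin d → R) :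
    matRep M f g (f ∘ v) = f ∘ matRep M (RingHom.id R) g v := by
  funext i
  rw [matRep_apply, Function.comp_apply, matRep_apply]
  simp [Matrix.mulVec, dotProduct, map_sum, map_mul]

/-- Change of coefficients on cocycles. -/
def pushZ (M : G →* Matrix (Fin d) (Fin d) R) (f : R →+* A) :
    Z1 (matRep M (RingHom.id R)) →+ Z1 (matRep M f) where
  toFun c := ⟨fun g => f ∘ c.1 g, fun g h => by
    show f ∘ c.1 (g * h) = f ∘ c.1 g + matRep M f g (f ∘ c.1 h)
    rw [Z1.map_mul, matRep_map M f g (c.1 h)]
    funext i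
    simp⟩
  map_zero' := Subtype.ext (funext fun g => funext fun i => by simp)
  map_add' c c' := Subtype.ext (funext fun g => funext fun i => by simp)

/-- The pushed cocycle. -/
@[simp] lemma pushZ_apply (M : G →* Matrix (Fin d) (Fin d) R) (f : R →+* A)
    (c : Z1 (matRep M (RingHom.id R))) (g : G) : (pushZ M f c).1 g = f ∘ c.1 g := rfl

lemma pushZ_smul (M : G →* Matrix (Fin d) (Fin d) R) (f : R →+* A) (r : R)
    (c : Z1 (matRep M (RingHom.id R))) : pushZ M f (r • c) = f r • pushZ M f c :=
  Subtype.ext (funext fun g => funext fun i => by simp)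

lemma pushZ_d0 (M : G →* Matrix (Fin d) (Fin d) R) (f : R →+* A) (x : Fin d → R) :
    pushZ M f (d0 _ x) = d0 _ (f ∘ x) := Subtype.ext (funext fun g => by
  rw [pushZ_apply, d0_apply, d0_apply, matRep_map]
  funext i
  simp)

/-- Change of coefficients on classes. -/
def pushH (M : G →* Matrix (Fin d) (Fin d) R) (f : R →+* A) :
    H1 (matRep M (RingHom.id R)) →+ H1 (matRep M f) :=
  QuotientAddGroup.map (LinearMap.range (d0 (matRep M (RingHom.id R)))).toAddSubgroup
    (LinearMap.range (d0 (matRep M f))).toAddSubgroup (pushZ M f) fun c hc => by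
      obtain ⟨x, rfl⟩ := hc
      exact ⟨f ∘ x, (pushZ_d0 M f x).symm⟩

/-- The pushed class. -/
lemma pushH_mk (M : G →* Matrix (Fin d) (Fin d) R) (f : R →+* A)
    (c : Z1 (matRep M (RingHom.id R))) : pushH M f (H1.mk (matRep M (RingHom.id R)) c) =
      H1.mk (matRep M f) (pushZ M f c) := rfl

/-- Pushing is semilinear. -/
lemma pushH_smul (M : G →* Matrix (Fin d) (Fin d) R) (f : R →+* A) (r : R)
    (z : H1 (matRep M (RingHom.id R))) : pushH M f (r • z) = f r • pushH M f z := by
  induction z using H1.induction with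
  | _ c => rw [← map_smul, pushH_mk, pushH_mk, pushZ_smul, map_smul]

section Valuation

variable {O : ValuationSubring ℂ} (M : G →* Matrix (Fin d) (Fin d) O)

lemma integral_of_gen {S : Set G} (hS : Subgroup.closure S = ⊤)
    (c : Z1 (matRep M (algebraMap O ℂ))) (h : ∀ s ∈ S, ∀ i, c.1 s i ∈ O) :
    ∃ c' : Z1 (matRep M (RingHom.id O)), pushZ M (algebraMap O ℂ) c' = c := by
  have hmv : ∀ (g : G) (v : Fin d → ℂ), (∀ i, v i ∈ O) →
      ∀ i, matRep M (algebraMap O ℂ) g v i ∈ O := fun g v hv i => by
    rw [matRep_apply, Matrix.mulVec, dotProduct]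
    exact sum_mem fun j _ => mul_mem (M g i j).2 (hv j)
  have hall : ∀ g i, c.1 g i ∈ O := by
    intro g
    have hg : g ∈ Subgroup.closure S := hS ▸ Subgroup.mem_top g
    induction hg using Subgroup.closure_induction with
    | mem s hs => exact h s hs
    | one => intro i; rw [Z1.map_one]; exact zero_mem O
    | mul a b _ _ ha hb =>
      intro i
      rw [Z1.map_mul, Pi.add_apply]
      exact add_mem (ha i) (hmv a _ hb i)
    | inv a _ ha =>
      intro i
      rw [Z1.map_inv, Pi.neg_apply]
      exact neg_mem (hmv _ _ ha i)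
  have hinj : Function.Injective (algebraMap O ℂ) := Subtype.val_injective
  refine ⟨⟨fun g i => ⟨c.1 g i, hall g i⟩, fun g k => funext fun i => hinj ?_⟩, ?_⟩
  · have e := congrFun (matRep_map M (algebraMap O ℂ) g fun j => (⟨c.1 k j, hall k j⟩ : O)) i
    simp only [Function.comp_apply, Pi.add_apply, map_add] at e ⊢
    rw [← e]
    exact congrFun (c.2 g k) i
  · exact Subtype.ext (funext fun g => funext fun i => rfl)

lemma pushZ_injective : Function.Injective (pushZ M (algebraMap O ℂ)) := fun _ _ h =>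
  Subtype.ext (funext fun g => funext fun i =>
    Subtype.val_injective (congrFun (congrFun (congrArg Subtype.val h) g) i))

variable [Group.FG G]

/-- A scalar making a complex cocycle integral. -/
lemma exists_smul_integral (c : Z1 (matRep M (algebraMap O ℂ))) :
    ∃ (a : O) (c' : Z1 (matRep M (RingHom.id O))), a ≠ 0 ∧
      pushZ M (algebraMap O ℂ) c' = (a : ℂ) • c := by
  classical
  obtain ⟨S, hS⟩ := Group.fg_def.mp ‹Group.FG G›
  let T : Finset (G × Fin d) := S ×ˢ Finset.univ
  by_cases hT : ∀ x ∈ T, O.valuation (c.1 x.1 x.2) ≤ 1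
  · obtain ⟨c', hc'⟩ := integral_of_gen M hS c fun s hs i =>
      (O.valuation_le_one_iff _).mp (hT (s, i) (by simpa [T] using hs))
    exact ⟨1, c', one_ne_zero, by rw [hc', OneMemClass.coe_one, one_smul]⟩
  push Not at hT
  obtain ⟨x, hx, hx1⟩ := hT
  obtain ⟨y, hy, hmax⟩ := T.exists_max_image (fun x => O.valuation (c.1 x.1 x.2)) ⟨x, hx⟩
  have hy1 : 1 < O.valuation (c.1 y.1 y.2) := hx1.trans_le (hmax x hx)
  have hmem : (c.1 y.1 y.2)⁻¹ ∈ O := by
    rw [← O.valuation_le_one_iff, map_inv₀]
    exact inv_le_one_of_one_le₀ hy1.le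
  obtain ⟨c', hc'⟩ := integral_of_gen M hS ((c.1 y.1 y.2)⁻¹ • c) fun s hs i => by
    rw [← O.valuation_le_one_iff, Submodule.coe_smul, Pi.smul_apply, Pi.smul_apply, smul_eq_mul,
      map_mul, map_inv₀, inv_mul_le_one₀ (zero_lt_one.trans hy1)]
    exact hmax (s, i) (by simpa [T] using hs)
  refine ⟨⟨_, hmem⟩, c', fun e => ?_, hc'⟩
  have h0 : (c.1 y.1 y.2)⁻¹ = 0 := congrArg Subtype.val e
  rw [inv_eq_zero] at h0
  simp [h0] at hy1

/-- A cocycle reducing to zero is a multiple by a nonunit. -/
lemma exists_smul_eq_of_residue (c : Z1 (matRep M (RingHom.id O)))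
    (h : pushZ M (IsLocalRing.residue O) c = 0) :
    ∃ (π : O) (c' : Z1 (matRep M (RingHom.id O))),
      π ∈ IsLocalRing.maximalIdeal O ∧ c = π • c' := by
  classical
  obtain ⟨S, hS⟩ := Group.fg_def.mp ‹Group.FG G›
  have hm : ∀ g i, c.1 g i ∈ IsLocalRing.maximalIdeal O := fun g i => by
    rw [← IsLocalRing.residue_eq_zero_iff]
    exact congrFun (congrFun (congrArg Subtype.val h) g) i
  let T : Finset (G × Fin d) := S ×ˢ Finset.univ
  by_cases hT : ∀ x ∈ T, c.1 x.1 x.2 = 0
  · exact ⟨0, c, zero_mem _, by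
      rw [zero_smul]
      exact Z1.ext_of_closure hS fun s hs => funext fun i => hT (s, i) (by simpa [T] using hs)⟩
  push Not at hT
  obtain ⟨x, hx, hx0⟩ := hT
  obtain ⟨y, hy, hmax⟩ :=
    T.exists_max_image (fun x => O.valuation (c.1 x.1 x.2 : ℂ)) ⟨x, hx⟩
  set π := c.1 y.1 y.2
  have hπ : (π : ℂ) ≠ 0 := fun e => hx0 (by
    have h1 := hmax x hx
    rw [show ((c.1 y.1 y.2 : O) : ℂ) = 0 from e, map_zero, le_zero_iff, Valuation.zero_iff] at h1
    exact Subtype.ext h1)
  obtain ⟨c', hc'⟩ := integral_of_gen M hS ((π : ℂ)⁻¹ • pushZ M (algebraMap O ℂ) c) fun s hs i => by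
    rw [← O.valuation_le_one_iff, Submodule.coe_smul, Pi.smul_apply, Pi.smul_apply, smul_eq_mul,
      map_mul, map_inv₀, inv_mul_le_one₀ (zero_lt_iff.mpr ((Valuation.ne_zero_iff _).mpr hπ))]
    exact hmax (s, i) (by simpa [T] using hs)
  refine ⟨π, c', hm _ _, pushZ_injective M ?_⟩
  rw [pushZ_smul, hc']
  exact (smul_inv_smul₀ hπ _).symm

/-- Integral cohomology is finite. -/
theorem moduleFinite_H1 : Module.Finite O (H1 (matRep M (RingHom.id O))) := by
  classical
  obtain ⟨S, hS⟩ := Group.fg_def.mp ‹Group.FG G›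
  let e := Z1.evalGen (ρ := matRep M (RingHom.id O)) S
  have hinj : Function.Injective e := Z1.evalGen_injective S hS
  have hsat : ∀ (a : O) (y : S → Fin d → O), a ≠ 0 → a • y ∈ LinearMap.range e →
      y ∈ LinearMap.range e := by
    intro a y ha ⟨c, hc⟩
    have ha' : (a : ℂ) ≠ 0 := fun h => ha (Subtype.ext h)
    have hval : ∀ (s : S) i, ((a : ℂ)⁻¹ * (c.1 s i : ℂ)) = (y s i : ℂ) := fun s i => by
      have h1 : c.1 s i = a * y s i := congrFun (congrFun hc s) i
      rw [h1]
      push_cast
      rw [inv_mul_cancel_left₀ ha']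
    obtain ⟨c', hc'⟩ := integral_of_gen M hS ((a : ℂ)⁻¹ • pushZ M (algebraMap O ℂ) c)
      fun s hs i => by
        change (a : ℂ)⁻¹ * (c.1 s i : ℂ) ∈ O
        rw [hval ⟨s, hs⟩ i]
        exact (y ⟨s, hs⟩ i).2
    refine ⟨c', funext fun s => funext fun i => Subtype.val_injective ?_⟩
    rw [← hval s i]
    exact congrFun (congrFun (congrArg Subtype.val hc') (s : G)) i
  let P := (S → Fin d → O) ⧸ LinearMap.range e
  have htf : Submodule.torsion O P = ⊥ := by
    rw [eq_bot_iff]
    rintro z ⟨⟨a, ha⟩, hz⟩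
    obtain ⟨y, rfl⟩ := Submodule.mkQ_surjective _ z
    rw [Submonoid.mk_smul, ← map_smul, Submodule.mkQ_apply, Submodule.Quotient.mk_eq_zero] at hz
    exact (Submodule.Quotient.mk_eq_zero _).mpr (hsat a y (nonZeroDivisors.ne_zero ha) hz)
  have : Module.Flat O P := (Module.Flat.flat_iff_torsion_eq_bot_of_isBezout (R := O)).mpr htf
  have : Module.Free O P := Module.free_of_flat_of_isLocalRing
  obtain ⟨sec, hsec⟩ := Module.projective_lifting_property (LinearMap.range e).mkQ LinearMap.id
    (Submodule.mkQ_surjective _)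
  let pr : (S → Fin d → O) →ₗ[O] LinearMap.range e :=
    (LinearMap.id - sec.comp (LinearMap.range e).mkQ).codRestrict _ fun y => by
      rw [← Submodule.Quotient.mk_eq_zero, LinearMap.sub_apply, Submodule.Quotient.mk_sub]
      have h1 := LinearMap.congr_fun hsec ((LinearMap.range e).mkQ y)
      simp only [LinearMap.comp_apply, LinearMap.id_apply, Submodule.mkQ_apply] at h1 ⊢
      rw [h1, sub_self]
  have hpr : Function.Surjective pr := fun x => ⟨x.1, Subtype.ext (by
    have h0 : (LinearMap.range e).mkQ x.1 = 0 := (Submodule.Quotient.mk_eq_zero _).mpr x.2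
    change x.1 - sec ((LinearMap.range e).mkQ x.1) = x.1
    rw [h0, map_zero, sub_zero])⟩
  have : Module.Finite O (LinearMap.range e) := Module.Finite.of_surjective pr hpr
  have : Module.Finite O (Z1 (matRep M (RingHom.id O))) :=
    Module.Finite.equiv (LinearEquiv.ofInjective e hinj).symm
  exact Module.Finite.of_surjective (H1.mk (matRep M (RingHom.id O))) H1.mk_surjective

/-- Every complex class has a nonzero multiple in the image of integral cohomology. -/
theorem exists_smul_mem_pushH (z : H1 (matRep M (algebraMap O ℂ))) :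
    ∃ (a : O) (z' : H1 (matRep M (RingHom.id O))), a ≠ 0 ∧
      pushH M (algebraMap O ℂ) z' = (a : ℂ) • z := by
  induction z using H1.induction with
  | _ c =>
    obtain ⟨a, c', ha, hc⟩ := exists_smul_integral M c
    exact ⟨a, H1.mk (matRep M (RingHom.id O)) c', ha, by rw [pushH_mk, hc, map_smul]⟩

/-- The classes dying modulo the maximal ideal. -/
theorem mem_smul_top_of_pushH_eq_zero {z : H1 (matRep M (RingHom.id O))}
    (hz : pushH M (IsLocalRing.residue O) z = 0) :
    z ∈ IsLocalRing.maximalIdeal O • (⊤ : Submodule O (H1 (matRep M (RingHom.id O)))) := by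
  induction z using H1.induction with
  | _ c =>
    rw [pushH_mk, H1.mk_eq_zero_iff] at hz
    obtain ⟨x, hx⟩ := hz
    choose y hy using fun i => IsLocalRing.residue_surjective (x i)
    have hy' : (IsLocalRing.residue O : O → _) ∘ y = x := funext hy
    have h0 : pushZ M (IsLocalRing.residue O) (c - d0 _ y) = 0 := by
      rw [map_sub, pushZ_d0, hy', hx, sub_self]
    obtain ⟨π, c', hπ, hc'⟩ := exists_smul_eq_of_residue M _ h0
    have e : H1.mk (matRep M (RingHom.id O)) c = π • H1.mk (matRep M (RingHom.id O)) c' := by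
      rw [← map_smul, ← hc', map_sub, (H1.mk_eq_zero_iff (d0 _ y)).mpr ⟨y, rfl⟩, sub_zero]
    rw [e]
    exact Submodule.smul_mem_smul hπ Submodule.mem_top

end Valuation

end FermatAgent.LT.Mod3
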