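import Mathlib
import Fermat.Agent.LT.Mod3.Coh
import Fermat.Agent.Period.Injective
import Fermat.Agent.HM.LevelMaps

/-!
# Tuples of weight two forms and their classes

A tuple of weight two cusp forms for `Γ(N)` transforming by a representation of `Γ` has a class in
the first cohomology, compatibly with correspondences, and is determined by it.
-/

set_option autoImplicit false
set_option maxSynthPendingDepth 4

noncomputable section

open UpperHalfPlane hiding I
open CongruenceSubgroup Filter ModularCurve ModularCurve.Period Matrix.SpecialLinearGroup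
open scoped MatrixGroups ModularForm Manifold Topology OnePoint

namespace FermatAgent.LT.Mod3

open FermatAgent.HM

variable {N : ℕ} {Γ : Subgroup SL(2, ℤ)} {ι : Type} [Fintype ι]

/-- Positive determinants stay positive. -/
lemma det_intGL_pos {A : Mat2} (h : A.det ≠ 0) (hp : 0 < A.det) :
    0 < (intGL A h : Matrix (Fin 2) (Fin 2) ℝ).det := by
  rw [Matrix.det_fin_two]
  simp only [val_intGL]
  exact_mod_cast (Matrix.det_fin_two A ▸ hp : 0 < A 0 0 * A 1 1 - A 0 1 * A 1 0)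

omit [Fintype ι] in
/-- The element moved to the left, inside `GL(2, ℝ)`. -/
lemma intGL_fac (D : Corr (⊤ : Submonoid Mat2) Γ Γ ι) (γ : Γ) (i : ι) :
    intGL (D.rep i) (D.det_ne i) * mapGL ℝ (γ : SL(2, ℤ)) =
      mapGL ℝ (D.fac γ i : SL(2, ℤ)) * intGL (D.rep (D.perm γ i)) (D.det_ne _) := by
  rw [← intGL_coe, ← intGL_coe, ← intGL_mul, ← intGL_mul]
  exact intGL_congr (D.fac_spec γ i) _

/-- The sum of the slashes by the representatives. -/
def slashSum (D : Corr (⊤ : Submonoid Mat2) Γ Γ ι) (f : ℍ → ℂ) : ℍ → ℂ :=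
  ∑ i, f ∣[(2 : ℤ)] intGL (D.rep i) (D.det_ne i)

/-- The summed slash transforms under `Γ`. -/
lemma slashSum_slash (D : Corr (⊤ : Submonoid Mat2) Γ Γ ι) (f : ℍ → ℂ) (γ : Γ) :
    slashSum D f ∣[(2 : ℤ)] (γ : SL(2, ℤ)) = ∑ i, (f ∣[(2 : ℤ)] (D.fac γ i : SL(2, ℤ))) ∣[(2 : ℤ)]
      intGL (D.rep (D.perm γ i)) (D.det_ne _) := by
  rw [ModularForm.SL_slash, slashSum, SlashAction.sum_slash]
  refine Finset.sum_congr rfl fun i _ => ?_
  rw [ModularForm.SL_slash, ← SlashAction.slash_mul, ← SlashAction.slash_mul]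
  exact congrArg (f ∣[(2 : ℤ)] ·) (intGL_fac D γ i)

/-- The slash by a matrix of positive determinant. -/
lemma slash_pos_apply (f : ℍ → ℂ) {g : GL (Fin 2) ℝ} (hg : 0 < g.val.det) (τ : ℍ) :
    (f ∣[(2 : ℤ)] g) τ = f (g • τ) * ((g.val.det : ℂ) / denom g τ ^ 2) := by
  rw [ModularForm.slash_apply]
  simp only [σ, Matrix.GeneralLinearGroup.val_det_apply, if_pos hg, abs_of_pos hg,
    ContinuousAlgEquiv.refl_apply, zpow_neg]
  norm_num
  ring

/-- Sum of translates of a primitive. -/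
def primSum (D : Corr (⊤ : Submonoid Mat2) Γ Γ ι) (P : ℍ → ℂ) (τ : ℍ) : ℂ :=
  ∑ i, P (intGL (D.rep i) (D.det_ne i) • τ)

/-- The summed primitive is a primitive of the summed slash. -/
lemma hasDerivAt_primSum (D : Corr (⊤ : Submonoid Mat2) Γ Γ ι) (hD : ∀ i, 0 < (D.rep i).det)
    {f P : ℍ → ℂ} (hP : ∀ τ : ℍ, HasDerivAt (P ∘ ofComplex) (f τ) (τ : ℂ)) (τ : ℍ) :
    HasDerivAt (primSum D P ∘ ofComplex) (slashSum D f τ) (τ : ℂ) := by
  rw [slashSum, Finset.sum_apply]
  refine HasDerivAt.fun_sum fun i _ => ?_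
  set g := intGL (D.rep i) (D.det_ne i)
  have hg : 0 < g.val.det := det_intGL_pos _ (hD i)
  have h2 := (hP (g • τ)).comp_of_eq (τ : ℂ) (hasStrictDerivAt_smul hg τ).hasDerivAt (by simp)
  have h3 : HasDerivAt ((fun z : ℍ => P (g • z)) ∘ ofComplex)
      (f (g • τ) * (g.val.det / denom g τ ^ 2)) (τ : ℂ) :=
    h2.congr_of_eventuallyEq (Filter.Eventually.of_forall fun z => by simp)
  exact h3.congr_deriv (slash_pos_apply f hg τ).symm

section Level

variable (N)

/-- The congruence subgroup inside `GL(2, ℝ)`. -/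
abbrev gammaGL : Subgroup (GL (Fin 2) ℝ) := (Gamma N : Subgroup SL(2, ℤ))

end Level

variable [NeZero N]

omit [NeZero N] in
/-- Forms are invariant under `Γ(N)`. -/
lemma slash_cuspForm (f : CuspForm (gammaGL N) 2) {γ : SL(2, ℤ)} (hγ : γ ∈ Gamma N) :
    (f : ℍ → ℂ) ∣[(2 : ℤ)] γ = f := by
  rw [ModularForm.SL_slash]
  exact SlashInvariantFormClass.slash_action_eq f _ (Subgroup.mem_map_of_mem _ hγ)

/-- The operator of a correspondence preserving `Γ(N)` on cusp forms for `Γ(N)`. -/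
def opForm (D : Corr (⊤ : Submonoid Mat2) Γ Γ ι) (hD : ∀ i, 0 < (D.rep i).det)
    (hle : Gamma N ≤ Γ)
    (hfac : ∀ (γ : Γ) (i : ι), (γ : SL(2, ℤ)) ∈ Gamma N → (D.fac γ i : SL(2, ℤ)) ∈ Gamma N) :
    CuspForm (gammaGL N) 2 →ₗ[ℂ] CuspForm (gammaGL N) 2 where
  toFun f :=
    { toFun := slashSum D f
      slash_action_eq' := by
        rintro _ ⟨γ, hγ, rfl⟩
        have e := slashSum_slash D f ⟨γ, hle hγ⟩
        rw [ModularForm.SL_slash] at e
        refine e.trans ?_
        simp only [slash_cuspForm f (hfac ⟨γ, hle hγ⟩ _ hγ)]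
        exact Equiv.sum_comp (D.perm ⟨γ, hle hγ⟩)
          fun i => (f : ℍ → ℂ) ∣[(2 : ℤ)] intGL (D.rep i) (D.det_ne i)
      holo' := MDifferentiable.sum fun i _ => (CuspFormClass.holo f).slash 2 _
      zero_at_cusps' := fun {c} hc => by
        refine P2MW.S_CuspFormClass_isZeroAt_heckeU.ModularForm.S06W2.isZeroAt_sum _ fun i _ => ?_
        exact P2MW.S_CuspFormClass_isZeroAt_heckeU.ModularForm.S06W2.isZeroAt_slash_ratCast f _ hc }
  map_add' f g := DFunLike.coe_injective <| by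
    show slashSum D ⇑(f + g) = slashSum D f + slashSum D g
    simp only [slashSum, FunLike.coe_add, SlashAction.add_slash, Finset.sum_add_distrib]
  map_smul' c f := DFunLike.coe_injective <| by
    show slashSum D ⇑(c • f) = c • slashSum D f
    simp only [slashSum, FunLike.coe_smul, Finset.smul_sum]
    refine Finset.sum_congr rfl fun i _ => ?_
    rw [ModularForm.smul_slash, show σ (intGL (D.rep i) (D.det_ne i)) c = c from ?_]
    have hg := det_intGL_pos (D.det_ne i) (hD i)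
    rw [σ, Matrix.GeneralLinearGroup.val_det_apply, if_pos hg]
    rfl

/-- The operator on forms is the summed slash. -/
@[simp] lemma coe_opForm (D : Corr (⊤ : Submonoid Mat2) Γ Γ ι) (hD : ∀ i, 0 < (D.rep i).det)
    (hle : Gamma N ≤ Γ)
    (hfac : ∀ (γ : Γ) (i : ι), (γ : SL(2, ℤ)) ∈ Gamma N → (D.fac γ i : SL(2, ℤ)) ∈ Gamma N)
    (f : CuspForm (gammaGL N) 2) : ⇑(opForm D hD hle hfac f) = slashSum D f := rfl

section Tuple

variable {d : ℕ} (ρ : Representation ℂ Γ (Fin d → ℂ))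

/-- Values of a tuple. -/
def tupVal (F : Fin d → CuspForm (gammaGL N) 2) (τ : ℍ) : Fin d → ℂ := fun r => F r τ

/-- Tuples transforming by `ρ`. -/
def eqForms : Submodule ℂ (Fin d → CuspForm (gammaGL N) 2) where
  carrier := {F | ∀ (γ : Γ) (τ : ℍ),
    (fun r => ((F r : ℍ → ℂ) ∣[(2 : ℤ)] (γ : SL(2, ℤ))) τ) = ρ γ (tupVal F τ)}
  zero_mem' γ τ := by
    change (fun r => (((0 : CuspForm (gammaGL N) 2) : ℍ → ℂ) ∣[(2 : ℤ)] (γ : SL(2, ℤ))) τ) =
      ρ γ (fun _ => 0)
    rw [show (fun _ : Fin d => (0 : ℂ)) = 0 from rfl, map_zero]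
    funext r
    simp
  add_mem' {F G} hF hG γ τ := by
    rw [show tupVal (F + G) τ = tupVal F τ + tupVal G τ from rfl, map_add, ← hF, ← hG]
    funext r
    simp only [Pi.add_apply, FunLike.coe_add, SlashAction.add_slash]
  smul_mem' c F hF γ τ := by
    rw [show tupVal (c • F) τ = c • tupVal F τ from rfl, map_smul, ← hF]
    funext r
    simp only [Pi.smul_apply, FunLike.coe_smul, ModularForm.SL_smul_slash]

variable {ρ}

/-- A tuple of primitives. -/
def IsPrimTuple (F : Fin d → CuspForm (gammaGL N) 2) (P : ℍ → Fin d → ℂ) : Prop :=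
  ∀ r, ∀ τ : ℍ, HasDerivAt ((fun z => P z r) ∘ ofComplex) (F r τ) (τ : ℂ)

lemma exists_isPrimTuple (F : Fin d → CuspForm (gammaGL N) 2) : ∃ P, IsPrimTuple F P := by
  choose P hP using fun r => Period.exists_primitive (F r)
  exact ⟨fun z r => P r z, fun r => (hP r).1⟩

/-- The cocycle of a tuple of primitives. -/
def tupCoc (P : ℍ → Fin d → ℂ) (γ : Γ) : Fin d → ℂ :=
  P ((γ : SL(2, ℤ)) • UpperHalfPlane.I) - ρ γ (P UpperHalfPlane.I)

omit [NeZero N] in
lemma tupCoc_eq {F : Fin d → CuspForm (gammaGL N) 2} (hF : F ∈ eqForms ρ) {P : ℍ → Fin d → ℂ}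
    (hP : IsPrimTuple F P) (γ : Γ) (τ : ℍ) :
    P ((γ : SL(2, ℤ)) • τ) - ρ γ (P τ) = tupCoc (ρ := ρ) P γ := by
  have key : ∀ r, ∃ c : ℂ, ∀ z : ℍ, P ((γ : SL(2, ℤ)) • z) r - ρ γ (P z) r = c := by
    intro r
    refine Period.exists_sub_eq_const
      (fun z => Period.hasDerivAt_comp_smul (γ : SL(2, ℤ)) (hP r) z) fun z => ?_
    have h1 : HasDerivAt (fun w : ℂ => P (ofComplex w)) (tupVal F z) (z : ℂ) :=
      hasDerivAt_pi.mpr fun s => hP s z
    have h2 := ((ρ γ).toContinuousLinearMap.hasFDerivAt).comp_hasDerivAt (z : ℂ) h1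
    have h3 := hasDerivAt_pi.mp h2 r
    rw [LinearMap.coe_toContinuousLinearMap', ← hF γ z] at h3
    exact h3
  funext r
  obtain ⟨c, hc⟩ := key r
  simp only [tupCoc, Pi.sub_apply, hc]

/-- The cocycle. -/
def tupZ1 {F : Fin d → CuspForm (gammaGL N) 2} (hF : F ∈ eqForms ρ) {P : ℍ → Fin d → ℂ}
    (hP : IsPrimTuple F P) : Z1 ρ :=
  ⟨tupCoc (ρ := ρ) P, fun g h => by
    rw [← tupCoc_eq hF hP g ((h : SL(2, ℤ)) • UpperHalfPlane.I)]
    simp only [tupCoc, Subgroup.coe_mul, mul_smul, map_mul, Module.End.mul_apply, map_sub]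
    abel⟩

omit [NeZero N] in
lemma tupZ1_eq {F : Fin d → CuspForm (gammaGL N) 2} (hF : F ∈ eqForms ρ) {P Q : ℍ → Fin d → ℂ}
    (hP : IsPrimTuple F P) (hQ : IsPrimTuple F Q) :
    H1.mk ρ (tupZ1 hF hP) = H1.mk ρ (tupZ1 hF hQ) := by
  choose a ha using fun r => Period.exists_sub_eq_const (hP r) (hQ r)
  have e : ∀ z, P z = Q z + a := fun z => funext fun r => by
    simp only [Pi.add_apply]
    linear_combination ha r z
  rw [← sub_eq_zero, ← map_sub, H1.mk_eq_zero_iff]
  refine ⟨-a, Subtype.ext (funext fun γ => ?_)⟩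
  change ρ γ (-a) - -a = tupCoc (ρ := ρ) P γ - tupCoc (ρ := ρ) Q γ
  simp only [tupCoc, e, map_add, map_neg]
  abel

variable (ρ)

/-- The class of a tuple. -/
def classMap : eqForms (N := N) ρ →ₗ[ℂ] H1 ρ where
  toFun F := H1.mk ρ (tupZ1 F.2 (exists_isPrimTuple F.1).choose_spec)
  map_add' F G := by
    have hF := (exists_isPrimTuple F.1).choose_spec
    have hG := (exists_isPrimTuple G.1).choose_spec
    have hs : IsPrimTuple (F + G).1 fun z => (exists_isPrimTuple F.1).choose z +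
        (exists_isPrimTuple G.1).choose z := fun r τ => (hF r τ).add (hG r τ)
    rw [← map_add, tupZ1_eq (F + G).2 _ hs]
    refine congrArg _ (Subtype.ext (funext fun γ => ?_))
    simp only [Submodule.coe_add, Pi.add_apply, tupZ1, tupCoc, map_add]
    abel
  map_smul' c F := by
    have hF := (exists_isPrimTuple F.1).choose_spec
    have hs : IsPrimTuple (c • F).1 fun z => c • (exists_isPrimTuple F.1).choose z :=
      fun r τ => (hF r τ).const_mul c
    rw [RingHom.id_apply, ← map_smul, tupZ1_eq (c • F).2 _ hs]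
    refine congrArg _ (Subtype.ext (funext fun γ => ?_))
    simp only [Submodule.coe_smul, Pi.smul_apply, tupZ1, tupCoc, map_smul, smul_sub]

variable {ρ}

/-- A tuple of forms is determined by its class in `H¹`. -/
theorem classMap_injective (hle : Gamma N ≤ Γ) (hρ : IsLevel N ρ) :
    Function.Injective (classMap (N := N) ρ) := by
  rw [injective_iff_map_eq_zero]
  intro F hF0
  choose P hP using fun r => Period.exists_primitive (F.1 r)
  have hPt : IsPrimTuple F.1 fun z r => P r z := fun r => (hP r).1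
  have h : H1.mk ρ (tupZ1 F.2 hPt) = 0 := (tupZ1_eq F.2 hPt _).trans hF0
  obtain ⟨x, hx⟩ := (H1.mk_eq_zero_iff _).mp h
  refine Subtype.ext (funext fun r => ?_)
  refine Period.eq_zero_of_re_period_eq_zero (F.1 r) (hP r).1 (hP r).2.2 fun γ => ?_
  have e := congrFun (congrFun (congrArg Subtype.val hx) ⟨(γ : SL(2, ℤ)), hle γ.2⟩) r
  rw [d0_apply, hρ _ γ.2, Module.End.one_apply, sub_self] at e
  have e2 := (Period.isEquivariantPrimitive_of_hasDerivAt (F.1 r) (hP r).1).sub_eq_period γ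
    UpperHalfPlane.I
  simp only [tupZ1, tupCoc, hρ ⟨(γ : SL(2, ℤ)), hle γ.2⟩ γ.2, Module.End.one_apply] at e
  rw [← e2, show P r ((γ : SL(2, ℤ)) • UpperHalfPlane.I) - P r UpperHalfPlane.I = 0 from e.symm]
  simp

section Op

variable (D : Corr (⊤ : Submonoid Mat2) Γ Γ ι) (hD : ∀ i, 0 < (D.rep i).det) (hle : Gamma N ≤ Γ)
  (hfac : ∀ (γ : Γ) (i : ι), (γ : SL(2, ℤ)) ∈ Gamma N → (D.fac γ i : SL(2, ℤ)) ∈ Gamma N)
  (hρfac : ∀ (γ : Γ) (i : ι), ρ (D.fac γ i) = ρ γ)

/-- The operator on tuples. -/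
def opTup (F : Fin d → CuspForm (gammaGL N) 2) : Fin d → CuspForm (gammaGL N) 2 :=
  fun r => opForm D hD hle hfac (F r)

include hρfac in
/-- The operator preserves equivariant tuples. -/
lemma opTup_mem {F : Fin d → CuspForm (gammaGL N) 2} (hF : F ∈ eqForms ρ) :
    opTup D hD hle hfac F ∈ eqForms ρ := by
  intro γ τ
  set j : ι → ℂ := fun i => (((intGL (D.rep i) (D.det_ne i)).val.det : ℝ) : ℂ) /
    denom (intGL (D.rep i) (D.det_ne i)) τ ^ 2
  set z : ι → ℍ := fun i => intGL (D.rep i) (D.det_ne i) • τ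
  have h1 : tupVal (opTup D hD hle hfac F) τ = ∑ i, j i • tupVal F (z i) := by
    funext r
    simp only [tupVal, opTup, coe_opForm, slashSum, Finset.sum_apply, Pi.smul_apply, smul_eq_mul]
    refine Finset.sum_congr rfl fun i _ => ?_
    rw [slash_pos_apply _ (det_intGL_pos (D.det_ne i) (hD i)) τ, mul_comm]
  have h2 : (fun r => ((opTup D hD hle hfac F r : ℍ → ℂ) ∣[(2 : ℤ)] (γ : SL(2, ℤ))) τ) =
      ∑ i, j (D.perm γ i) • ρ γ (tupVal F (z (D.perm γ i))) := by
    funext r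
    rw [opTup, coe_opForm, slashSum_slash, Finset.sum_apply, Finset.sum_apply]
    refine Finset.sum_congr rfl fun i _ => ?_
    rw [slash_pos_apply _ (det_intGL_pos (D.det_ne _) (hD _)) τ, mul_comm, Pi.smul_apply,
      smul_eq_mul, ← hρfac γ i, ← hF]
  rw [h2, h1, map_sum]
  simp only [map_smul]
  exact Equiv.sum_comp (D.perm γ) fun i => j i • ρ γ (tupVal F (z i))

include hρfac in
/-- The class of the image is the transfer of the class. -/
theorem classMap_opTup (F : eqForms (N := N) ρ) :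
    ∃ c c' : Z1 ρ, classMap ρ F = H1.mk ρ c ∧ (∀ γ, c'.1 γ = ∑ i, c.1 (D.fac γ i)) ∧
      classMap ρ ⟨_, opTup_mem D hD hle hfac hρfac F.2⟩ = H1.mk ρ c' := by
  obtain ⟨P, hP⟩ := exists_isPrimTuple F.1
  have hQ : IsPrimTuple (opTup D hD hle hfac F.1)
      (fun z r => primSum D (fun w => P w r) z) := fun r τ => hasDerivAt_primSum D hD (hP r) τ
  refine ⟨tupZ1 F.2 hP, tupZ1 (opTup_mem D hD hle hfac hρfac F.2) hQ,
    tupZ1_eq F.2 _ hP, fun γ => ?_, tupZ1_eq _ _ hQ⟩
  set g := fun i => intGL (D.rep i) (D.det_ne i)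
  have hsum : ∀ z : ℍ, (fun r => primSum D (fun w => P w r) z) = ∑ i, P (g i • z) := fun z => by
    funext r
    simp [primSum, g]
  have hmove : ∀ i, g i • ((γ : SL(2, ℤ)) • UpperHalfPlane.I) =
      (D.fac γ i : SL(2, ℤ)) • (g (D.perm γ i) • UpperHalfPlane.I) := fun i => by
    rw [ModularGroup.sl_moeb, ModularGroup.sl_moeb, ← mul_smul, ← mul_smul]
    exact congrArg (· • UpperHalfPlane.I) (intGL_fac D γ i)
  change tupCoc (ρ := ρ) (fun z r => primSum D (fun w => P w r) z) γ =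
    ∑ i, tupCoc (ρ := ρ) P (D.fac γ i)
  rw [tupCoc]
  simp only [hsum, hmove, map_sum]
  rw [← Equiv.sum_comp (D.perm γ) fun i => ρ γ (P (g i • UpperHalfPlane.I)),
    ← Finset.sum_sub_distrib]
  refine Finset.sum_congr rfl fun i _ => ?_
  rw [← hρfac γ i, tupCoc_eq F.2 hP]

end Op

end Tuple

end FermatAgent.LT.Mod3
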