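import Mathlib
import Fermat.Agent.Curve.Periodic

/-!
# Periodic holomorphic functions bounded at infinity and their expansions
-/

set_option autoImplicit false

noncomputable section

open UpperHalfPlane Filter Function
open scoped Manifold Topology

namespace FermatAgent.LT.Mod3

/-- A holomorphic function of period `h`, bounded at infinity. -/
structure IsPer (h : ℝ) (f : ℍ → ℂ) : Prop where
  per : Periodic (f ∘ ofComplex) (h : ℂ)
  mdiff : MDiff f
  bdd : IsBoundedAtImInfty f

namespace IsPer

variable {h : ℝ} {f g : ℍ → ℂ}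

/-- The cusp function is analytic at zero. -/
lemma analyticAt (hh : 0 < h) (hf : IsPer h f) : AnalyticAt ℂ (cuspFunction h f) 0 :=
  analyticAt_cuspFunction_zero hh hf.per hf.mdiff hf.bdd

/-- The function is the sum of its expansion. -/
lemma hasSum (hh : 0 < h) (hf : IsPer h f) (τ : ℍ) :
    HasSum (fun m : ℕ => (qExpansion h f).coeff m * Periodic.qParam h τ ^ m) (f τ) :=
  UpperHalfPlane.hasSum_qExpansion hh hf.per hf.mdiff hf.bdd τ

/-- Expansions are unique. -/
lemma coeff_unique (hh : 0 < h) (hf : IsPer h f) {c : ℕ → ℂ}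
    (hc : ∀ τ : ℍ, HasSum (fun m => c m * Periodic.qParam h τ ^ m) (f τ)) (m : ℕ) :
    (qExpansion h f).coeff m = c m :=
  (UpperHalfPlane.qExpansion_coeff_unique (⟨f, hf.mdiff.continuous⟩ : C(ℍ, ℂ)) hh
    (hf.analyticAt hh) (fun τ => by simpa using hc τ) m).symm

/-- Expansions multiply. -/
lemma qExpansion_mul' (hh : 0 < h) (hf : IsPer h f) (hg : IsPer h g) :
    qExpansion h (f * g) = qExpansion h f * qExpansion h g :=
  UpperHalfPlane.qExpansion_mul (hf.analyticAt hh) (hg.analyticAt hh)

/-- Vanishing expansion means vanishing. -/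
lemma eq_zero (hh : 0 < h) (hf : IsPer h f)
    (h0 : ∀ n, (qExpansion h f).coeff n = 0) : f = 0 :=
  (UpperHalfPlane.qExpansion_eq_zero_iff hh hf.per hf.mdiff hf.bdd).mp
    (PowerSeries.ext fun n => by simpa using h0 n)

end IsPer

end FermatAgent.LT.Mod3
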