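import Mathlib
import Fermat.Agent.LT.Mod3.Corr

/-!
# Hecke correspondences of `Γ(N)`

`T_ℓ` for the primes not dividing `N`, the diamond twist entering it, and `U_q` for the primes
dividing `N`.
-/

set_option autoImplicit false

noncomputable section

open CongruenceSubgroup ModularCurve.Period
open scoped MatrixGroups OnePoint

namespace FermatAgent.LT.Mod3

open FermatAgent.HM

/-- Data for `T_ℓ` on `Γ(N)`: an element lifting `diag(ℓ⁻¹, ℓ)`. -/
structure TData (N ℓ : ℕ) where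
  prime : ℓ.Prime
  not_dvd : ¬ ℓ ∣ N
  /-- a lift of `diag(ℓ⁻¹, ℓ)` modulo `N` -/
  sig : SL(2, ℤ)
  sig_red : redMat N (sig : Mat2) * redMat N !![(ℓ : ℤ), 0; 0, 1] = redMat N !![1, 0; 0, (ℓ : ℤ)]

/-- The lift exists. -/
theorem exists_tData {N ℓ : ℕ} (hℓ : ℓ.Prime) (hN : ¬ ℓ ∣ N) : Nonempty (TData N ℓ) := by
  have hc : IsCoprime (ℓ : ℤ) (N : ℤ) :=
    Nat.isCoprime_iff_coprime.mpr ((Nat.Prime.coprime_iff_not_dvd hℓ).mpr hN)
  obtain ⟨u, v, huv⟩ := hc
  refine ⟨⟨hℓ, hN, ⟨!![u + v * u * N, (N : ℤ); -(v ^ 2) * N, (ℓ : ℤ)], ?_⟩, ?_⟩⟩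
  · rw [Matrix.det_fin_two_of]
    linear_combination (1 + v * (N : ℤ)) * huv
  · rw [← map_mul]
    have h1 : (u : ZMod N) * (ℓ : ZMod N) = 1 := by
      have e := congrArg (fun z : ℤ => (z : ZMod N)) huv
      simpa using e
    ext i j
    fin_cases i <;> fin_cases j <;> simp [redMat, h1]

namespace TData

variable {N ℓ : ℕ} (D : TData N ℓ)

/-- The representatives. -/
def rep (x : OnePoint (ZMod ℓ)) : Mat2 :=
  x.elim ((D.sig : Mat2) * !![(ℓ : ℤ), 0; 0, 1]) fun j => !![1, ((N * j.val : ℕ) : ℤ); 0, (ℓ : ℤ)]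

/-- The representative at infinity. -/
@[simp] lemma rep_infty : D.rep ∞ = (D.sig : Mat2) * !![(ℓ : ℤ), 0; 0, 1] := rfl

/-- The representatives at finite points. -/
@[simp] lemma rep_coe (j : ZMod ℓ) : D.rep j = !![1, ((N * j.val : ℕ) : ℤ); 0, (ℓ : ℤ)] := rfl

lemma rep_det (x : OnePoint (ZMod ℓ)) : (D.rep x).det = ℓ := by
  induction x using OnePoint.rec <;> simp [Matrix.det_mul, Matrix.det_fin_two_of]

lemma rep_red (x : OnePoint (ZMod ℓ)) : redMat N (D.rep x) = redMat N !![1, 0; 0, (ℓ : ℤ)] := by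
  induction x using OnePoint.rec with
  | infty => rw [rep_infty, map_mul, D.sig_red]
  | coe j => ext i k; fin_cases i <;> fin_cases k <;> simp [redMat]

/-- Representatives are translates of the standard ones. -/
lemma exists_shift (x : OnePoint (ZMod ℓ)) : ∃ s : SL(2, ℤ), D.rep x = (s : Mat2) *
    repMat ℓ
      (x.elim ∞ fun j => (((N : ZMod ℓ) * j : ZMod ℓ) : OnePoint (ZMod ℓ))) := by
  have : NeZero ℓ := ⟨D.prime.ne_zero⟩
  induction x using OnePoint.rec with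
  | infty => exact ⟨D.sig, rfl⟩
  | coe j =>
    refine ⟨ModularGroup.T ^ (((N * j.val : ℕ) / ℓ : ℕ) : ℤ), ?_⟩
    have hv : ((N : ZMod ℓ) * j).val = N * j.val % ℓ := by
      rw [← ZMod.val_natCast, Nat.cast_mul, ZMod.natCast_zmod_val]
    have e : (((N * j.val : ℕ) : ℤ)) = ((N * j.val % ℓ : ℕ) : ℤ) +
        ((N * j.val / ℓ : ℕ) : ℤ) * (ℓ : ℤ) := by
      exact_mod_cast (by rw [mul_comm _ ℓ, Nat.mod_add_div] :
        N * j.val = N * j.val % ℓ + N * j.val / ℓ * ℓ)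
    change !![1, ((N * j.val : ℕ) : ℤ); 0, (ℓ : ℤ)] = _ * repMat ℓ _
    rw [OnePoint.elim_some, repMat_coe, ModularGroup.coe_T_zpow, hv]
    ext a b
    fin_cases a <;> fin_cases b <;> simp [Matrix.mul_apply, Fin.sum_univ_two] at e ⊢
    linarith

include D in
/-- The index map is injective. -/
lemma shift_injective : Function.Injective
    (fun x : OnePoint (ZMod ℓ) =>
      x.elim ∞ fun j => (((N : ZMod ℓ) * j : ZMod ℓ) : OnePoint (ZMod ℓ))) := by
  have : Fact ℓ.Prime := ⟨D.prime⟩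
  have hN : (N : ZMod ℓ) ≠ 0 := fun e => D.not_dvd ((ZMod.natCast_eq_zero_iff N ℓ).mp e)
  intro x y e
  induction x using OnePoint.rec <;> induction y using OnePoint.rec <;>
    simp_all [OnePoint.elim_some, OnePoint.elim_infty]

/-- The representatives lie in distinct classes for left multiplication by `SL(2, ℤ)`. -/
theorem rep_unique {γ : SL(2, ℤ)} {x y : OnePoint (ZMod ℓ)}
    (h : D.rep x = (γ : Mat2) * D.rep y) : x = y := by
  have : Fact ℓ.Prime := ⟨D.prime⟩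
  obtain ⟨s, hs⟩ := D.exists_shift x
  obtain ⟨s', hs'⟩ := D.exists_shift y
  rw [hs, hs', ← mul_assoc, ← Matrix.SpecialLinearGroup.coe_mul] at h
  refine D.shift_injective (repMat_unique (γ := s⁻¹ * (γ * s')) ?_)
  rw [Matrix.SpecialLinearGroup.coe_mul, mul_assoc, ← h, ← mul_assoc,
    ← Matrix.SpecialLinearGroup.coe_mul, inv_mul_cancel, Matrix.SpecialLinearGroup.coe_one,
    one_mul]

/-- Every integral matrix of determinant `ℓ` is in the class of one of the representatives. -/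
theorem exists_rep_mul (A : Mat2) (hA : A.det = ℓ) :
    ∃ (y : OnePoint (ZMod ℓ)) (g : SL(2, ℤ)), A = (g : Mat2) * D.rep y := by
  have : Fact ℓ.Prime := ⟨D.prime⟩
  obtain ⟨γ, w, hw⟩ := exists_eq_mul_repMat (M := 1) (fun hd => D.prime.not_dvd_one hd) A hA
    (by simp)
  obtain ⟨y, hy⟩ := (Finite.injective_iff_surjective.mp D.shift_injective) w
  obtain ⟨s, hs⟩ := D.exists_shift y
  refine ⟨y, (γ : SL(2, ℤ)) * s⁻¹, ?_⟩
  rw [hw, ← hy, hs, Matrix.SpecialLinearGroup.coe_mul, mul_assoc,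
    ← mul_assoc ((s⁻¹ : SL(2, ℤ)) : Mat2), ← Matrix.SpecialLinearGroup.coe_mul, inv_mul_cancel,
    Matrix.SpecialLinearGroup.coe_one, one_mul]

lemma exists_move (γ : SL(2, ℤ)) (x : OnePoint (ZMod ℓ)) :
    ∃ (y : OnePoint (ZMod ℓ)) (g : SL(2, ℤ)), D.rep x * (γ : Mat2) = (g : Mat2) * D.rep y :=
  D.exists_rep_mul _ (by rw [Matrix.det_mul, rep_det, γ.det_coe, mul_one])

/-- The index reached. -/
def idx (γ : SL(2, ℤ)) (x : OnePoint (ZMod ℓ)) : OnePoint (ZMod ℓ) := (D.exists_move γ x).choose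

lemma idx_eq {γ g : SL(2, ℤ)} {x y : OnePoint (ZMod ℓ)}
    (e : D.rep x * (γ : Mat2) = (g : Mat2) * D.rep y) : D.idx γ x = y := by
  refine (D.rep_unique (γ := g⁻¹ * (D.exists_move γ x).choose_spec.choose) ?_).symm
  rw [idx, Matrix.SpecialLinearGroup.coe_mul, mul_assoc,
    ← (D.exists_move γ x).choose_spec.choose_spec, e, ← mul_assoc,
    ← Matrix.SpecialLinearGroup.coe_mul, inv_mul_cancel, Matrix.SpecialLinearGroup.coe_one,
    one_mul]

lemma idx_mul (γ δ : SL(2, ℤ)) (x : OnePoint (ZMod ℓ)) :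
    D.idx (γ * δ) x = D.idx δ (D.idx γ x) := by
  obtain ⟨y, g, e⟩ := D.exists_move γ x
  obtain ⟨z, g', e'⟩ := D.exists_move δ y
  rw [D.idx_eq e, D.idx_eq e']
  refine D.idx_eq (g := g * g') ?_
  rw [Matrix.SpecialLinearGroup.coe_mul, ← mul_assoc, e, mul_assoc, e', ← mul_assoc,
    ← Matrix.SpecialLinearGroup.coe_mul]

lemma idx_one (x : OnePoint (ZMod ℓ)) : D.idx 1 x = x := D.idx_eq (g := 1) (by simp)

lemma exists_fac (γ : Gamma N) (x : OnePoint (ZMod ℓ)) :
    ∃ el : Gamma N, D.rep x * ((γ : SL(2, ℤ)) : Mat2) =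
      ((el : SL(2, ℤ)) : Mat2) * D.rep (D.idx γ x) := by
  obtain ⟨y, g, e⟩ := D.exists_move γ x
  refine ⟨⟨g, ?_⟩, by rw [D.idx_eq e]; exact e⟩
  have h := congrArg (redMat N) e
  rw [map_mul, map_mul, rep_red, rep_red, mem_Gamma_iff_red.mp γ.2, mul_one] at h
  rw [mem_Gamma_iff_red]
  have hu : IsUnit ((ℓ : ℕ) : ZMod N) :=
    (ZMod.unitOfCoprime ℓ ((Nat.Prime.coprime_iff_not_dvd D.prime).mpr D.not_dvd)).isUnit
  obtain ⟨w, hw⟩ := hu.exists_right_inv
  have hi : redMat N !![1, 0; 0, (ℓ : ℤ)] * !![(1 : ZMod N), 0; 0, w] = 1 := by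
    ext i j
    fin_cases i <;> fin_cases j <;> simp [redMat, Matrix.mul_apply, Fin.sum_univ_two, hw]
  have h' := congrArg (· * !![(1 : ZMod N), 0; 0, w]) h
  simp only [mul_assoc, hi, mul_one] at h'
  exact h'.symm

/-- `T_ℓ` on `Γ(N)`. -/
def corr : Corr (⊤ : Submonoid Mat2) (Gamma N) (Gamma N) (OnePoint (ZMod ℓ)) where
  rep := D.rep
  det_ne x := by rw [rep_det]; exact_mod_cast D.prime.ne_zero
  adj_mem _ := Submonoid.mem_top _
  perm γ :=
    { toFun := D.idx γ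
      invFun := D.idx (γ⁻¹ : Gamma N)
      left_inv := fun x => by
        rw [← idx_mul, Subgroup.coe_inv, mul_inv_cancel, idx_one]
      right_inv := fun x => by
        rw [← idx_mul, Subgroup.coe_inv, inv_mul_cancel, idx_one] }
  perm_mul a b := Equiv.ext fun x => D.idx_mul a b x
  exists_fac γ x := D.exists_fac γ x

/-- The representatives have positive determinant. -/
lemma corr_rep_pos (x : OnePoint (ZMod ℓ)) : 0 < (D.corr.rep x).det := by
  change 0 < (D.rep x).det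
  rw [rep_det]
  exact_mod_cast D.prime.pos

end TData

/-- Slashing by an element of `SL(2, ℤ)`, as a correspondence of the normal subgroup `Γ(N)`. -/
def diamondCorr (N : ℕ) (s : SL(2, ℤ)) :
    Corr (⊤ : Submonoid Mat2) (Gamma N) (Gamma N) Unit where
  rep _ := (s : Mat2)
  det_ne _ := by rw [s.det_coe]; exact one_ne_zero
  adj_mem _ := Submonoid.mem_top _
  perm _ := 1
  perm_mul _ _ := by simp
  exists_fac γ _ := by
    refine ⟨⟨s * (γ : SL(2, ℤ)) * s⁻¹, (Gamma_normal N).conj_mem _ γ.2 s⟩, ?_⟩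
    simp only
    rw [← Matrix.SpecialLinearGroup.coe_mul, ← Matrix.SpecialLinearGroup.coe_mul]
    simp

section UOp

variable {N q : ℕ}

lemma exists_upper_shift (γ : Gamma N) : ∃ b : ℤ, ((γ : SL(2, ℤ)) : Mat2) 0 1 = N * b :=
  (ZMod.intCast_zmod_eq_zero_iff_dvd _ _).mp (Gamma_mem.mp γ.2).2.1

/-- The upper right entry divided by `N`. -/
def upperShift (γ : Gamma N) : ℤ := (exists_upper_shift γ).choose

lemma upperShift_spec (γ : Gamma N) : ((γ : SL(2, ℤ)) : Mat2) 0 1 = N * upperShift γ :=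
  (exists_upper_shift γ).choose_spec

lemma upperShift_mul (hN : N ≠ 0) (hq : q ∣ N) (γ δ : Gamma N) :
    (upperShift (γ * δ) : ZMod q) = upperShift γ + upperShift δ := by
  have ha : ((((γ : SL(2, ℤ)) : Mat2) 0 0 : ℤ) : ZMod q) = 1 := by
      have e0 := congrArg (ZMod.castHom hq (ZMod q)) (Gamma_mem.mp γ.2).1
      rwa [map_intCast, map_one] at e0
  have hd : ((((δ : SL(2, ℤ)) : Mat2) 1 1 : ℤ) : ZMod q) = 1 := by
      have e0 := congrArg (ZMod.castHom hq (ZMod q)) (Gamma_mem.mp δ.2).2.2.2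
      rwa [map_intCast, map_one] at e0
  have e : (N : ℤ) * upperShift (γ * δ) =
      N * (((γ : SL(2, ℤ)) : Mat2) 0 0 * upperShift δ +
        upperShift γ * ((δ : SL(2, ℤ)) : Mat2) 1 1) := by
    rw [← upperShift_spec, Subgroup.coe_mul, Matrix.SpecialLinearGroup.coe_mul, Matrix.mul_apply,
      Fin.sum_univ_two, upperShift_spec, upperShift_spec]
    ring
  rw [mul_left_cancel₀ (by exact_mod_cast hN) e]
  push_cast
  rw [ha, hd]
  ring

/-- The representatives of `U_q`. -/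
def uRep (N q : ℕ) (j : ZMod q) : Mat2 := !![1, ((N * j.val : ℕ) : ℤ); 0, (q : ℤ)]

variable [NeZero q]

lemma uRep_exists_fac (hq : q ∣ N) (γ : Gamma N) (j : ZMod q) :
    ∃ el : Gamma N, uRep N q j * ((γ : SL(2, ℤ)) : Mat2) =
      ((el : SL(2, ℤ)) : Mat2) * uRep N q (j + (upperShift γ : ZMod q)) := by
  obtain ⟨γ, hγ⟩ := γ
  set b0 := upperShift ⟨γ, hγ⟩
  have hb : (γ : Mat2) 0 1 = N * b0 := upperShift_spec ⟨γ, hγ⟩
  obtain ⟨h1, h2, h3, h4⟩ := Gamma_mem.mp hγ
  have hdet := γ.det_coe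
  rw [Matrix.det_fin_two] at hdet
  set a := (γ : Mat2) 0 0
  set b := (γ : Mat2) 0 1
  set c := (γ : Mat2) 1 0
  set d := (γ : Mat2) 1 1
  set j' := j + (b0 : ZMod q)
  have hk : (q : ℤ) ∣ b0 + j.val * d - (a + j.val * N * c) * j'.val := by
    rw [← ZMod.intCast_zmod_eq_zero_iff_dvd]
    have hqN : ((N : ℕ) : ZMod q) = 0 := (ZMod.natCast_eq_zero_iff N q).mpr hq
    have ha : (a : ZMod q) = 1 := by
      have e0 := congrArg (ZMod.castHom hq (ZMod q)) h1
      rwa [map_intCast, map_one] at e0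
    have hd : (d : ZMod q) = 1 := by
      have e0 := congrArg (ZMod.castHom hq (ZMod q)) h4
      rwa [map_intCast, map_one] at e0
    push_cast
    rw [ha, hd, hqN, ZMod.natCast_zmod_val, ZMod.natCast_zmod_val]
    ring
  obtain ⟨k, hk⟩ := hk
  let M : Mat2 := !![a + j.val * N * c, N * k; q * c, d - c * j'.val * N]
  have hM : uRep N q j * (γ : Mat2) = M * uRep N q j' := by
    ext r s
    fin_cases r <;> fin_cases s <;>
      simp [M, uRep, Matrix.mul_apply, Fin.sum_univ_two, a, c, d, -ZMod.natCast_val] <;>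
      first
        | ring1
        | linear_combination hb + (N : ℤ) * hk
        | exact Or.inl (mul_comm _ _)
  have hMd : M.det = 1 := by
    have e := congrArg Matrix.det hM
    rw [Matrix.det_mul, Matrix.det_mul, γ.det_coe, mul_one] at e
    simp only [uRep, Matrix.det_fin_two_of, one_mul, mul_zero, sub_zero] at e
    exact (mul_eq_right₀ (by exact_mod_cast NeZero.ne q)).mp e.symm
  refine ⟨⟨⟨M, hMd⟩, ?_⟩, hM⟩
  refine Gamma_mem.mpr ⟨?_, ?_, ?_, ?_⟩ <;>
    simp [M, h1, h3, h4, -ZMod.natCast_val]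

/-- `U_q` on `Γ(N)`. -/
def uCorr (hN : N ≠ 0) (hq : q ∣ N) :
    Corr (⊤ : Submonoid Mat2) (Gamma N) (Gamma N) (ZMod q) where
  rep := uRep N q
  det_ne j := by simp [uRep, Matrix.det_fin_two_of, NeZero.ne q]
  adj_mem _ := Submonoid.mem_top _
  perm γ := Equiv.addRight (upperShift γ : ZMod q)
  perm_mul a b := Equiv.ext fun x => by simp [upperShift_mul hN hq, add_assoc]
  exists_fac γ x := uRep_exists_fac hq γ x

/-- The representatives of `U` have positive determinant. -/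
lemma uCorr_rep_pos (hN : N ≠ 0) (hq : q ∣ N) (j : ZMod q) :
    0 < ((uCorr hN hq).rep j).det := by
  change 0 < (uRep N q j).det
  simp [uRep, Matrix.det_fin_two_of, Nat.pos_of_ne_zero (NeZero.ne q)]

end UOp

end FermatAgent.LT.Mod3
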