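import Mathlib
import Fermat.Agent.LT.Mod3.Forms
import Fermat.Agent.LT.Mod3.RepCorr
import Fermat.Agent.LT.Mod3.Per

/-!
# Expansions of the Hecke operators on forms for `Γ(N)`
-/

set_option autoImplicit false
set_option maxSynthPendingDepth 4

noncomputable section

open UpperHalfPlane hiding I
open CongruenceSubgroup Function ModularCurve.Period Matrix.SpecialLinearGroup Complex
open scoped MatrixGroups ModularForm Manifold OnePoint Real

namespace FermatAgent.LT.Mod3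

open FermatAgent.HM

variable {N : ℕ} [NeZero N]

/-- The width is positive. -/
lemma width_pos : (0 : ℝ) < (N : ℝ) := by exact_mod_cast Nat.pos_of_ne_zero (NeZero.ne N)

omit [NeZero N] in
/-- The translation lies in `Γ(N)`. -/
lemma T_pow_mem_Gamma : ModularGroup.T ^ (N : ℤ) ∈ CongruenceSubgroup.Gamma N := by
  rw [mem_Gamma_iff_red, ModularGroup.coe_T_zpow]
  ext i j
  fin_cases i <;> fin_cases j <;> simp [redMat]

lemma isPer_form (f : CuspForm (gammaGL N) 2) : IsPer (N : ℝ) f where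
  per := Curve.periodic_comp_ofComplex_of_vadd fun τ => by
    have e := congrFun (slash_cuspForm f (T_pow_mem_Gamma (N := N))) τ
    rw [ModularForm.SL_slash_apply, modular_T_zpow_smul, ModularGroup.denom_apply,
      ModularGroup.coe_T_zpow] at e
    simpa using e
  mdiff := CuspFormClass.holo f
  bdd := by
    have h : IsBoundedAtImInfty ((f : ℍ → ℂ) ∣[(2 : ℤ)] (1 : SL(2, ℤ))) :=
      (CuspFormClass.zero_at_infty_slash f 1).boundedAtFilter
    rwa [SlashAction.slash_one] at h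

/-- The expansion coefficient at width `N`. -/
def formCoeff (n : ℕ) : CuspForm (gammaGL N) 2 →ₗ[ℂ] ℂ where
  toFun f := (qExpansion (N : ℝ) f).coeff n
  map_add' f g := (isPer_form (f + g)).coeff_unique width_pos
    (c := fun m => (qExpansion (N : ℝ) f).coeff m + (qExpansion (N : ℝ) g).coeff m)
    (fun τ => by
      simpa [add_mul] using ((isPer_form f).hasSum width_pos τ).add
        ((isPer_form g).hasSum width_pos τ)) n
  map_smul' a f := (isPer_form (a • f)).coeff_unique width_pos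
    (c := fun m => a * (qExpansion (N : ℝ) f).coeff m)
    (fun τ => by
      simpa [mul_assoc] using ((isPer_form f).hasSum width_pos τ).mul_left a) n

lemma hasSum_form (f : CuspForm (gammaGL N) 2) (τ : ℍ) :
    HasSum (fun m : ℕ => formCoeff m f * Periodic.qParam (N : ℝ) τ ^ m) (f τ) :=
  (isPer_form f).hasSum width_pos τ

/-- Expansions are unique. -/
lemma formCoeff_unique (f : CuspForm (gammaGL N) 2) {c : ℕ → ℂ}
    (hc : ∀ τ : ℍ, HasSum (fun m => c m * Periodic.qParam (N : ℝ) τ ^ m) (f τ)) (m : ℕ) :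
    formCoeff m f = c m :=
  (isPer_form f).coeff_unique width_pos hc m

/-- A form with vanishing coefficients is zero. -/
lemma eq_zero_of_formCoeff {f : CuspForm (gammaGL N) 2} (h : ∀ n, formCoeff n f = 0) : f = 0 :=
  DFunLike.coe_injective <| by simpa using (isPer_form f).eq_zero width_pos h

/-- The constant coefficient vanishes. -/
lemma formCoeff_zero (f : CuspForm (gammaGL N) 2) : formCoeff 0 f = 0 := by
  have h : IsZeroAtImInfty ((f : ℍ → ℂ) ∣[(2 : ℤ)] (1 : SL(2, ℤ))) :=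
    CuspFormClass.zero_at_infty_slash f 1
  rw [SlashAction.slash_one] at h
  change (qExpansion (N : ℝ) f).coeff 0 = 0
  rw [UpperHalfPlane.qExpansion_coeff_zero width_pos ((isPer_form f).analyticAt width_pos)
    (isPer_form f).per, h.valueAtInfty_eq_zero]

section Sums

variable {ℓ : ℕ}

lemma qParam_split (hℓ : ℓ ≠ 0) (τ : ℂ) (j : ℕ) :
    Periodic.qParam (N : ℝ) ((τ + ((N * j : ℕ) : ℂ)) / ℓ) =
      Periodic.qParam ((N * ℓ : ℕ) : ℝ) τ * exp (2 * π * I / ℓ) ^ j := by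
  have hN := NeZero.ne N
  rw [Periodic.qParam, Periodic.qParam, ← exp_nat_mul, ← exp_add]
  congr 1
  have h1 : (ℓ : ℂ) ≠ 0 := by exact_mod_cast hℓ
  have h2 : (N : ℂ) ≠ 0 := by exact_mod_cast hN
  push_cast
  field_simp

omit [NeZero N] in
lemma qParam_pow_width (hℓ : ℓ ≠ 0) (τ : ℂ) :
    Periodic.qParam ((N * ℓ : ℕ) : ℝ) τ ^ ℓ = Periodic.qParam (N : ℝ) τ := by
  rw [Periodic.qParam, Periodic.qParam, ← exp_nat_mul]
  congr 1
  have h1 : (ℓ : ℂ) ≠ 0 := by exact_mod_cast hℓ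
  push_cast
  field_simp

lemma geom_root_sum (hℓ : ℓ ≠ 0) (m : ℕ) :
    ∑ j ∈ Finset.range ℓ, (exp (2 * π * I / ℓ) ^ j) ^ m = if ℓ ∣ m then (ℓ : ℂ) else 0 := by
  have hζ := Complex.isPrimitiveRoot_exp ℓ hℓ
  simp only [← pow_mul, mul_comm _ m]
  simp only [pow_mul]
  split_ifs with h
  · simp [(hζ.pow_eq_one_iff_dvd m).mpr h]
  · have hne : exp (2 * π * I / ℓ) ^ m ≠ 1 := fun e => h ((hζ.pow_eq_one_iff_dvd m).mp e)
    rw [geom_sum_eq hne, ← pow_mul, mul_comm m ℓ, pow_mul, hζ.pow_eq_one, one_pow, sub_self,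
      zero_div]

lemma hasSum_dvd_iff (hℓ : ℓ ≠ 0) {a : ℕ → ℂ} {s : ℂ} :
    HasSum (fun n => if ℓ ∣ n then a (n / ℓ) else 0) s ↔ HasSum a s := by
  rw [← (mul_right_injective₀ hℓ).hasSum_iff (f := fun n => if ℓ ∣ n then a (n / ℓ) else 0)]
  · simp [Function.comp_def, hℓ]
  · intro n hn
    rw [if_neg]
    rintro ⟨k, rfl⟩
    exact hn ⟨k, rfl⟩

/-- The expansion of the sum over the translated contractions. -/
lemma hasSum_contract (hℓ : ℓ ≠ 0) (f : CuspForm (gammaGL N) 2) (τ : ℍ)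
    (z : ℕ → ℍ) (hz : ∀ j, (z j : ℂ) = ((τ : ℂ) + ((N * j : ℕ) : ℂ)) / ℓ) :
    HasSum (fun n => formCoeff (ℓ * n) f * Periodic.qParam (N : ℝ) τ ^ n)
      ((ℓ : ℂ)⁻¹ * ∑ j ∈ Finset.range ℓ, f (z j)) := by
  have h := (hasSum_sum (s := Finset.range ℓ) fun j _ => hasSum_form f (z j)).mul_left ((ℓ : ℂ)⁻¹)
  rw [← hasSum_dvd_iff hℓ]
  refine h.congr_fun fun m => ?_
  simp only [hz, qParam_split hℓ, mul_pow, ← mul_assoc, ← Finset.mul_sum, geom_root_sum hℓ]
  have hℓ' : (ℓ : ℂ) ≠ 0 := by exact_mod_cast hℓ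
  split_ifs with hd
  · obtain ⟨k, rfl⟩ := hd
    rw [Nat.mul_div_cancel_left _ (Nat.pos_of_ne_zero hℓ), pow_mul, qParam_pow_width hℓ]
    field_simp
  · simp

/-- The expansion after multiplying the variable. -/
lemma hasSum_dilate (hℓ : ℓ ≠ 0) (g : CuspForm (gammaGL N) 2) (τ z : ℍ)
    (hz : (z : ℂ) = (ℓ : ℂ) * τ) :
    HasSum (fun n => (if ℓ ∣ n then formCoeff (n / ℓ) g else 0) * Periodic.qParam (N : ℝ) τ ^ n)
      (g z) := by
  have h := (hasSum_dvd_iff hℓ).mpr (hasSum_form g z)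
  refine h.congr_fun fun m => ?_
  split_ifs with hd
  · obtain ⟨k, rfl⟩ := hd
    rw [Nat.mul_div_cancel_left _ (Nat.pos_of_ne_zero hℓ), pow_mul]
    congr 2
    rw [Periodic.qParam, Periodic.qParam, hz, ← exp_nat_mul]
    congr 1
    ring
  · simp

omit [NeZero N] in
lemma smul_contract (hℓ : 0 < ℓ) (j : ℕ) (h : (!![1, ((N * j : ℕ) : ℤ); 0, (ℓ : ℤ)] : Mat2).det ≠ 0)
    (f : ℍ → ℂ) (τ : ℍ) :
    (f ∣[(2 : ℤ)] intGL _ h) τ = (ℓ : ℂ)⁻¹ * f (intGL _ h • τ) ∧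
      ((intGL _ h • τ : ℍ) : ℂ) = ((τ : ℂ) + ((N * j : ℕ) : ℂ)) / ℓ := by
  have hd : 0 < (intGL _ h).val.det := det_intGL_pos h (by
    rw [Matrix.det_fin_two_of]; simp [hℓ])
  constructor
  · rw [slash_pos_apply f hd, Matrix.det_fin_two, mul_comm]
    have : (ℓ : ℂ) ≠ 0 := by exact_mod_cast hℓ.ne'
    simp [UpperHalfPlane.denom]
    field_simp
    exact Or.inl trivial
  · rw [UpperHalfPlane.coe_smul_of_det_pos hd]
    simp [UpperHalfPlane.num, UpperHalfPlane.denom]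

lemma smul_dilate (hℓ : 0 < ℓ) (h : (!![(ℓ : ℤ), 0; 0, 1] : Mat2).det ≠ 0)
    (f : ℍ → ℂ) (τ : ℍ) :
    (f ∣[(2 : ℤ)] intGL _ h) τ = (ℓ : ℂ) * f (intGL _ h • τ) ∧
      ((intGL _ h • τ : ℍ) : ℂ) = (ℓ : ℂ) * τ := by
  have hd : 0 < (intGL _ h).val.det := det_intGL_pos h (by
    rw [Matrix.det_fin_two_of]; simp [hℓ])
  constructor
  · rw [slash_pos_apply f hd, Matrix.det_fin_two, mul_comm]
    simp [UpperHalfPlane.denom]
  · rw [UpperHalfPlane.coe_smul_of_det_pos hd]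
    simp [UpperHalfPlane.num, UpperHalfPlane.denom]

/-- The coefficient formula for a correspondence with the representatives of `T_ℓ`. -/
theorem formCoeff_hecke {Γ : Subgroup SL(2, ℤ)} [NeZero ℓ]
    (D : Corr (⊤ : Submonoid Mat2) Γ Γ (OnePoint (ZMod ℓ)))
    (hrep : ∀ j : ZMod ℓ, D.rep j = !![1, ((N * j.val : ℕ) : ℤ); 0, (ℓ : ℤ)]) (s : SL(2, ℤ))
    (hinf : D.rep ∞ = (s : Mat2) * !![(ℓ : ℤ), 0; 0, 1]) (f g h : CuspForm (gammaGL N) 2)
    (hg : (g : ℍ → ℂ) = (f : ℍ → ℂ) ∣[(2 : ℤ)] s) (hh : (h : ℍ → ℂ) = slashSum D f) (n : ℕ) :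
    formCoeff n h =
      formCoeff (ℓ * n) f + (ℓ : ℂ) * (if ℓ ∣ n then formCoeff (n / ℓ) g else 0) := by
  have hℓ : 0 < ℓ := Nat.pos_of_ne_zero (NeZero.ne ℓ)
  refine formCoeff_unique h (c := fun n => formCoeff (ℓ * n) f +
    (ℓ : ℂ) * (if ℓ ∣ n then formCoeff (n / ℓ) g else 0)) (fun τ => ?_) n
  have h0 : (!![(ℓ : ℤ), 0; 0, 1] : Mat2).det ≠ 0 := by simp [Matrix.det_fin_two_of, hℓ.ne']
  have hj : ∀ j : ℕ, (!![1, ((N * j : ℕ) : ℤ); 0, (ℓ : ℤ)] : Mat2).det ≠ 0 := fun j => by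
    simp [Matrix.det_fin_two_of, hℓ.ne']
  set z : ℕ → ℍ := fun j => intGL _ (hj j) • τ
  have hs : h τ = ((ℓ : ℂ)⁻¹ * ∑ j ∈ Finset.range ℓ, f (z j)) +
      (ℓ : ℂ) * g (intGL _ h0 • τ) := by
    rw [hh, slashSum, Finset.sum_apply]
    change ∑ i : Option (ZMod ℓ), _ = _
    rw [Fintype.sum_option, add_comm]
    congr 1
    · rw [Finset.mul_sum]
      refine Finset.sum_bij' (fun j _ => j.val) (fun j _ => (j : ZMod ℓ))
        (fun j _ => Finset.mem_range.mpr j.val_lt) (fun j _ => Finset.mem_univ _)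
        (fun j _ => ZMod.natCast_zmod_val j)
        (fun j hj' => ZMod.val_natCast_of_lt (Finset.mem_range.mp hj')) fun j _ => ?_
      rw [← (smul_contract hℓ j.val (hj _) f τ).1]
      exact congrFun (congrArg ((f : ℍ → ℂ) ∣[(2 : ℤ)] ·) (intGL_congr (hrep j) _)) τ
    · rw [← (smul_dilate hℓ h0 g τ).1, hg, ModularForm.SL_slash, ← SlashAction.slash_mul]
      refine congrFun (congrArg ((f : ℍ → ℂ) ∣[(2 : ℤ)] ·) ?_) τ
      refine (intGL_congr hinf _).trans ?_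
      rw [intGL_mul _ _ (by simp) h0, intGL_coe]
      rfl
  have e := (hasSum_contract hℓ.ne' f τ z fun j => (smul_contract hℓ j (hj j) f τ).2).add
    ((hasSum_dilate hℓ.ne' g τ _ (smul_dilate hℓ h0 g τ).2).mul_left (ℓ : ℂ))
  rw [← hs] at e
  simpa [add_mul, mul_assoc] using e

/-- The coefficient formula for `U_q`. -/
theorem formCoeff_uCorr {q : ℕ} [NeZero q] (hN : N ≠ 0) (hq : q ∣ N)
    (f h : CuspForm (gammaGL N) 2) (hh : (h : ℍ → ℂ) = slashSum (uCorr hN hq) f) (n : ℕ) :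
    formCoeff n h = formCoeff (q * n) f := by
  have hq0 : 0 < q := Nat.pos_of_ne_zero (NeZero.ne q)
  refine formCoeff_unique h (c := fun n => formCoeff (q * n) f) (fun τ => ?_) n
  have hj : ∀ j : ℕ, (!![1, ((N * j : ℕ) : ℤ); 0, (q : ℤ)] : Mat2).det ≠ 0 := fun j => by
    simp [Matrix.det_fin_two_of, hq0.ne']
  have hs : h τ = (q : ℂ)⁻¹ * ∑ j ∈ Finset.range q, f (intGL _ (hj j) • τ) := by
    rw [hh, slashSum, Finset.sum_apply, Finset.mul_sum]
    refine Finset.sum_bij' (fun j _ => j.val) (fun j _ => (j : ZMod q))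
      (fun j _ => Finset.mem_range.mpr j.val_lt) (fun j _ => Finset.mem_univ _)
      (fun j _ => ZMod.natCast_zmod_val j)
      (fun j hj' => ZMod.val_natCast_of_lt (Finset.mem_range.mp hj')) fun j _ => ?_
    rw [← (smul_contract hq0 j.val (hj _) f τ).1]
    rfl
  rw [hs]
  exact hasSum_contract hq0.ne' f τ _ fun j => (smul_contract hq0 j (hj j) f τ).2

end Sums

end FermatAgent.LT.Mod3
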