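import Mathlib
import Fermat.Agent.LT.Mod3.Expand
import Fermat.Agent.Period.Lattice

/-!
# The coefficients of a form span a finitely generated group

The periods span a finitely generated group of functionals, stable under the Hecke operators, and
the first coefficient is a combination of periods.
-/

set_option autoImplicit false
set_option maxSynthPendingDepth 4

noncomputable section

open UpperHalfPlane hiding I
open CongruenceSubgroup Function ModularCurve.Period Matrix.SpecialLinearGroup
open scoped MatrixGroups ModularForm Manifold OnePoint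

namespace FermatAgent.LT.Mod3

open FermatAgent.HM

variable {N : ℕ} [NeZero N]

/-- The chosen primitive. -/
def formPrim (f : CuspForm (gammaGL N) 2) : ℍ → ℂ := (Period.exists_primitive f).choose

/-- The primitive is a primitive. -/
lemma formPrim_spec (f : CuspForm (gammaGL N) 2) (τ : ℍ) :
    HasDerivAt (formPrim f ∘ ofComplex) (f τ) (τ : ℂ) :=
  (Period.exists_primitive f).choose_spec.1 τ

/-- The period along an element. -/
def formPeriod (γ : CongruenceSubgroup.Gamma N) : CuspForm (gammaGL N) 2 →ₗ[ℂ] ℂ where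
  toFun f := formPrim f ((γ : SL(2, ℤ)) • UpperHalfPlane.I) - formPrim f UpperHalfPlane.I
  map_add' f g := by
    obtain ⟨c, hc⟩ := Period.exists_sub_eq_const (formPrim_spec (f + g))
      (F₂ := fun z => formPrim f z + formPrim g z)
      (fun τ => (formPrim_spec f τ).add (formPrim_spec g τ))
    linear_combination hc ((γ : SL(2, ℤ)) • UpperHalfPlane.I) - hc UpperHalfPlane.I
  map_smul' a f := by
    obtain ⟨c, hc⟩ := Period.exists_sub_eq_const (formPrim_spec (a • f))
      (F₂ := fun z => a * formPrim f z) (fun τ => (formPrim_spec f τ).const_mul a)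
    simp only [RingHom.id_apply, smul_eq_mul]
    linear_combination hc ((γ : SL(2, ℤ)) • UpperHalfPlane.I) - hc UpperHalfPlane.I

/-- The period is the increment of the primitive. -/
lemma formPeriod_eq (γ : CongruenceSubgroup.Gamma N) (f : CuspForm (gammaGL N) 2) (τ : ℍ) :
    formPrim f ((γ : SL(2, ℤ)) • τ) - formPrim f τ = formPeriod γ f := by
  have h := Period.isEquivariantPrimitive_of_hasDerivAt f (formPrim_spec f)
  rw [h.sub_eq_period γ τ, ← h.sub_eq_period γ UpperHalfPlane.I]
  rfl

lemma formPeriod_mul (γ δ : CongruenceSubgroup.Gamma N) :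
    formPeriod (γ * δ) = formPeriod γ + formPeriod δ := LinearMap.ext fun f => by
  rw [LinearMap.add_apply, ← formPeriod_eq γ f ((δ : SL(2, ℤ)) • UpperHalfPlane.I),
    ← formPeriod_eq δ f UpperHalfPlane.I, ← formPeriod_eq (γ * δ) f UpperHalfPlane.I,
    Subgroup.coe_mul, mul_smul]
  ring

/-- Periods separate forms. -/
lemma formPeriod_separates (f : CuspForm (gammaGL N) 2) (h : ∀ γ, formPeriod γ f = 0) : f = 0 := by
  obtain ⟨-, -, hcusp⟩ := (Period.exists_primitive f).choose_spec
  refine Period.eq_zero_of_re_period_eq_zero f (formPrim_spec f) hcusp fun γ => ?_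
  have hp := Period.isEquivariantPrimitive_of_hasDerivAt f (formPrim_spec f)
  rw [← hp.sub_eq_period γ UpperHalfPlane.I, formPeriod_eq γ f, h γ]
  simp

/-- The periods span a finitely generated group of functionals on the forms. -/
theorem exists_period_lattice : ∃ (r : ℕ) (g : Fin r → CongruenceSubgroup.Gamma N),
    ∀ γ, formPeriod γ ∈ Submodule.span ℤ (Set.range fun i => formPeriod (g i)) := by
  have : Group.FG (CongruenceSubgroup.Gamma N) := inferInstance
  obtain ⟨S, hS⟩ := Group.fg_def.mp this
  refine ⟨S.card, fun i => (S.equivFin.symm i).1, fun γ => ?_⟩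
  have hγ : γ ∈ Subgroup.closure (S : Set (CongruenceSubgroup.Gamma N)) := hS ▸ Subgroup.mem_top γ
  induction hγ using Subgroup.closure_induction with
  | mem x hx => exact Submodule.subset_span ⟨S.equivFin ⟨x, hx⟩, by simp⟩
  | one =>
    have e := formPeriod_mul (1 : CongruenceSubgroup.Gamma N) 1
    rw [mul_one, left_eq_add] at e
    rw [e]
    exact zero_mem _
  | mul x y _ _ hx hy => rw [formPeriod_mul]; exact add_mem hx hy
  | inv x _ hx =>
    have e := formPeriod_mul x⁻¹ x
    have e1 := formPeriod_mul (1 : CongruenceSubgroup.Gamma N) 1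
    rw [mul_one, left_eq_add] at e1
    rw [inv_mul_cancel, e1] at e
    rw [eq_neg_of_add_eq_zero_left e.symm]
    exact neg_mem hx

lemma formPeriod_opForm {ι : Type} [Fintype ι]
    (D : Corr (⊤ : Submonoid Mat2) (CongruenceSubgroup.Gamma N) (CongruenceSubgroup.Gamma N) ι)
    (hD : ∀ i, 0 < (D.rep i).det) (γ : CongruenceSubgroup.Gamma N) :
    (formPeriod γ).comp (opForm D hD le_rfl fun γ i _ => (D.fac γ i).2) =
      ∑ i, formPeriod (D.fac γ i) := LinearMap.ext fun f => by
  rw [LinearMap.comp_apply, LinearMap.sum_apply]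
  set T := opForm D hD (le_refl (CongruenceSubgroup.Gamma N)) (fun γ i _ => (D.fac γ i).2) with hT
  obtain ⟨c, hc⟩ := Period.exists_sub_eq_const (formPrim_spec (T f))
    (F₂ := primSum D (formPrim f)) (hasDerivAt_primSum D hD (formPrim_spec f))
  rw [← formPeriod_eq γ (T f) UpperHalfPlane.I,
    show formPrim (T f) ((γ : SL(2, ℤ)) • UpperHalfPlane.I) - formPrim (T f) UpperHalfPlane.I =
      primSum D (formPrim f) ((γ : SL(2, ℤ)) • UpperHalfPlane.I) -
        primSum D (formPrim f) UpperHalfPlane.I by
      linear_combination hc ((γ : SL(2, ℤ)) • UpperHalfPlane.I) - hc UpperHalfPlane.I,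
    primSum, primSum, ← Equiv.sum_comp (D.perm γ) fun i =>
      formPrim f (intGL (D.rep i) (D.det_ne i) • UpperHalfPlane.I), ← Finset.sum_sub_distrib]
  refine Finset.sum_congr rfl fun i _ => ?_
  rw [← formPeriod_eq (D.fac γ i) f
    (intGL (D.rep (D.perm γ i)) (D.det_ne _) • UpperHalfPlane.I)]
  congr 2
  rw [ModularGroup.sl_moeb, ModularGroup.sl_moeb, ← mul_smul, ← mul_smul]
  exact congrArg (· • UpperHalfPlane.I) (intGL_fac D γ i)

/-- The first coefficient is a complex combination of the periods. -/
theorem exists_formCoeff_one_eq :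
    ∃ (r : ℕ) (g : Fin r → CongruenceSubgroup.Gamma N) (w : Fin r → ℂ),
    (∀ γ, formPeriod γ ∈ Submodule.span ℤ (Set.range fun i => formPeriod (g i))) ∧
      formCoeff (N := N) 1 = ∑ i, w i • formPeriod (g i) := by
  obtain ⟨r, g, hg⟩ := exists_period_lattice (N := N)
  let Φ : CuspForm (gammaGL N) 2 →ₗ[ℂ] (Fin r → ℂ) := LinearMap.pi fun i => formPeriod (g i)
  have hker : LinearMap.ker Φ = ⊥ := (Submodule.eq_bot_iff _).mpr fun f hf => by
    refine formPeriod_separates f fun γ => ?_
    have h0 : ∀ ψ ∈ Submodule.span ℤ (Set.range fun i => formPeriod (g i)), ψ f = 0 := by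
      intro ψ hψ
      induction hψ using Submodule.span_induction with
      | mem x hx =>
        obtain ⟨i, rfl⟩ := hx
        exact congrFun (LinearMap.mem_ker.mp hf) i
      | zero => rfl
      | add x y _ _ hx hy => rw [LinearMap.add_apply, hx, hy, add_zero]
      | smul n x _ hx => rw [LinearMap.smul_apply, hx, smul_zero]
    exact h0 _ (hg γ)
  obtain ⟨inv, hinv⟩ := Φ.exists_leftInverse_of_injective hker
  refine ⟨r, g, fun i => formCoeff 1 (inv (Pi.single i 1)), hg, LinearMap.ext fun f => ?_⟩
  have e : inv (Φ f) = f := LinearMap.congr_fun hinv f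
  conv_lhs => rw [← e, pi_eq_sum_univ' (Φ f)]
  simp only [map_sum, map_smul, LinearMap.sum_apply, LinearMap.smul_apply, smul_eq_mul]
  refine Finset.sum_congr rfl fun i _ => ?_
  rw [mul_comm]
  congr 2

/-- A finitely generated group of functionals containing every coefficient. -/
theorem exists_coeff_lattice : ∃ L : Submodule ℤ (CuspForm (gammaGL N) 2 →ₗ[ℂ] ℂ),
    L.FG ∧ ∀ n, formCoeff n ∈ L := by
  classical
  obtain ⟨r, g, w, hg, h1⟩ := exists_formCoeff_one_eq (N := N)
  let gen : Fin r × Fin r → CuspForm (gammaGL N) 2 →ₗ[ℂ] ℂ := fun x => w x.1 • formPeriod (g x.2)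
  set L := Submodule.span ℤ (Set.range gen)
  have hstab : ∀ {ι : Type} [Fintype ι]
      (D : Corr (⊤ : Submonoid Mat2) (CongruenceSubgroup.Gamma N) (CongruenceSubgroup.Gamma N) ι)
      (hD : ∀ i, 0 < (D.rep i).det), ∀ ψ ∈ L,
      ψ.comp (opForm D hD le_rfl fun γ i _ => (D.fac γ i).2) ∈ L := by
    intro ι _ D hD ψ hψ
    induction hψ using Submodule.span_induction with
    | mem x hx =>
      obtain ⟨⟨i, j⟩, rfl⟩ := hx
      change (w i • formPeriod (g j)).comp _ ∈ L
      rw [LinearMap.smul_comp, formPeriod_opForm D hD, Finset.smul_sum]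
      refine Submodule.sum_mem _ fun y _ => ?_
      have h0 : ∀ φ ∈ Submodule.span ℤ (Set.range fun i => formPeriod (g i)), w i • φ ∈ L := by
        intro φ hφ
        induction hφ using Submodule.span_induction with
        | mem x hx =>
          obtain ⟨k, rfl⟩ := hx
          exact Submodule.subset_span ⟨(i, k), rfl⟩
        | zero => rw [smul_zero]; exact L.zero_mem
        | add x y _ _ hx hy => rw [smul_add]; exact L.add_mem hx hy
        | smul n x _ hx => rw [smul_comm]; exact L.smul_mem n hx
      exact h0 _ (hg _)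
    | zero => rw [LinearMap.zero_comp]; exact L.zero_mem
    | add x y _ _ hx hy => rw [LinearMap.add_comp]; exact L.add_mem hx hy
    | smul n x _ hx => rw [LinearMap.smul_comp]; exact L.smul_mem n hx
  refine ⟨L, Submodule.fg_span (Set.finite_range gen), fun n => ?_⟩
  induction n using Nat.strong_induction_on with
  | _ n ih =>
  rcases Nat.lt_or_ge n 2 with hn | hn
  · interval_cases n
    · rw [show formCoeff (N := N) 0 = 0 from LinearMap.ext fun f => formCoeff_zero f]
      exact L.zero_mem
    · rw [h1]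
      exact Submodule.sum_mem _ fun i _ => Submodule.subset_span ⟨(i, i), rfl⟩
  have hp : (Nat.minFac n).Prime := Nat.minFac_prime (by omega)
  set ℓ := Nat.minFac n
  obtain ⟨m, hm⟩ := Nat.minFac_dvd n
  have : NeZero ℓ := ⟨hp.ne_zero⟩
  have hm0 : 0 < m := by
    rcases Nat.eq_zero_or_pos m with rfl | h
    · simp at hm; omega
    · exact h
  have hmn : m < n := by
    rw [hm]
    exact lt_mul_of_one_lt_left hm0 hp.one_lt
  by_cases hd : ℓ ∣ N
  · have e : formCoeff (N := N) n =
        (formCoeff m).comp (opForm (uCorr (NeZero.ne N) hd) (uCorr_rep_pos _ hd) le_rfl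
          fun γ i _ => ((uCorr (NeZero.ne N) hd).fac γ i).2) := LinearMap.ext fun f => by
      rw [LinearMap.comp_apply, formCoeff_uCorr (NeZero.ne N) hd f _ (coe_opForm _ _ _ _ f), ← hm]
    rw [e]
    exact hstab _ _ _ (ih m hmn)
  · obtain ⟨D⟩ := exists_tData (N := N) hp hd
    let S := opForm (diamondCorr N D.sig) (fun _ => by simp [diamondCorr]) le_rfl
      fun γ i _ => ((diamondCorr N D.sig).fac γ i).2
    let T := opForm D.corr D.corr_rep_pos le_rfl fun γ i _ => (D.corr.fac γ i).2
    have hS : ∀ f, (S f : ℍ → ℂ) = (f : ℍ → ℂ) ∣[(2 : ℤ)] D.sig := fun f => by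
      change slashSum (diamondCorr N D.sig) f = _
      rw [slashSum, Fintype.sum_unique, ModularForm.SL_slash]
      exact congrArg ((f : ℍ → ℂ) ∣[(2 : ℤ)] ·) (intGL_coe D.sig)
    have hT := fun f => formCoeff_hecke D.corr (fun j => rfl) D.sig rfl f (S f) (T f) (hS f)
      (coe_opForm _ _ _ _ f) m
    by_cases hdm : ℓ ∣ m
    · have e : formCoeff (N := N) n =
          (formCoeff m).comp T - (ℓ : ℤ) • (formCoeff (m / ℓ)).comp S := LinearMap.ext fun f => by
        have h := hT f
        rw [if_pos hdm, ← hm] at h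
        simp only [LinearMap.sub_apply, LinearMap.comp_apply, LinearMap.smul_apply, zsmul_eq_mul,
          Int.cast_natCast]
        linear_combination -h
      rw [e]
      exact L.sub_mem (hstab _ _ _ (ih m hmn))
        (L.smul_mem _ (hstab _ _ _ (ih _ ((Nat.div_le_self _ _).trans_lt hmn))))
    · have e : formCoeff (N := N) n = (formCoeff m).comp T := LinearMap.ext fun f => by
        have h := hT f
        rw [if_neg hdm, ← hm, mul_zero, add_zero] at h
        exact h.symm
      rw [e]
      exact hstab _ _ _ (ih m hmn)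

/-- The expansions of finitely many forms for `Γ(N)`, not all zero, have bounded denominators: some
coefficient divides all of them in a valuation subring. -/
theorem exists_max_coeff (O : ValuationSubring ℂ) {ι : Type*} [Finite ι]
    (G : ι → CuspForm (gammaGL N) 2) (h0 : ∃ i, G i ≠ 0) :
    ∃ i₀ n₀, formCoeff n₀ (G i₀) ≠ 0 ∧
      ∀ i n, formCoeff n (G i) / formCoeff n₀ (G i₀) ∈ O := by
  classical
  have := Fintype.ofFinite ι
  obtain ⟨L, hL, hmem⟩ := exists_coeff_lattice (N := N)
  have hW : ∀ i, (Submodule.span ℤ (Set.range fun n => formCoeff n (G i))).FG := fun i => by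
    let ev : (CuspForm (gammaGL N) 2 →ₗ[ℂ] ℂ) →ₗ[ℤ] ℂ :=
      { toFun := fun ψ => ψ (G i), map_add' := fun _ _ => rfl, map_smul' := fun _ _ => rfl }
    have hfg : (L.map ev).FG := hL.map ev
    refine Submodule.FG.of_le hfg (Submodule.span_le.mpr ?_)
    rintro _ ⟨n, rfl⟩
    exact ⟨formCoeff n, hmem n, rfl⟩
  choose s hs hss using fun i =>
    (Submodule.fg_span_iff_fg_span_finset_subset _).mp (hW i)
  let A : Finset (ι × ℂ) := Finset.univ.biUnion fun i => (s i).image fun x => (i, x)
  have hA : ∃ x ∈ A, x.2 ≠ 0 := by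
    by_contra hne
    push Not at hne
    obtain ⟨i, hi⟩ := h0
    refine hi (eq_zero_of_formCoeff fun n => ?_)
    have hmem' : formCoeff n (G i) ∈ Submodule.span ℤ (s i : Set ℂ) :=
      hss i ▸ Submodule.subset_span ⟨n, rfl⟩
    have hz : Submodule.span ℤ (s i : Set ℂ) ≤ ⊥ := Submodule.span_le.mpr fun x hx =>
      (Submodule.mem_bot ℤ).mpr (hne (i, x) (by simpa [A] using hx))
    exact (Submodule.mem_bot ℤ).mp (hz hmem')
  obtain ⟨x, hx, hx0⟩ := hA
  obtain ⟨⟨i₀, c⟩, hc, hmax⟩ := A.exists_max_image (fun y => O.valuation y.2) ⟨x, hx⟩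
  have hc0 : c ≠ 0 := fun e => hx0 (by
    have h := hmax x hx
    rw [e, map_zero, le_zero_iff, Valuation.zero_iff] at h
    exact h)
  have hci : c ∈ s i₀ := by simpa [A] using hc
  obtain ⟨n₀, hn₀⟩ := hs i₀ hci
  refine ⟨i₀, n₀, by rwa [show formCoeff n₀ (G i₀) = c from hn₀], fun i n => ?_⟩
  rw [show formCoeff n₀ (G i₀) = c from hn₀]
  have hmem' : formCoeff n (G i) ∈ Submodule.span ℤ (s i : Set ℂ) :=
    hss i ▸ Submodule.subset_span ⟨n, rfl⟩
  generalize formCoeff n (G i) = z at hmem'
  induction hmem' using Submodule.span_induction with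
  | mem y hy =>
    rw [← O.valuation_le_one_iff, map_div₀]
    exact div_le_one_of_le₀ (hmax (i, y) (by simpa [A] using hy)) zero_le
  | zero => rw [zero_div]; exact O.zero_mem
  | add a b _ _ ha hb => rw [add_div]; exact O.add_mem _ _ ha hb
  | smul m a _ ha =>
    rw [zsmul_eq_mul, mul_div_assoc]
    exact O.mul_mem _ _ (intCast_mem O m) ha

end FermatAgent.LT.Mod3
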