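import Mathlib
import Fermat.Agent.LT.Mod3.Per

/-!
# The theta series of the hexagonal lattice

Its transformation under `Γ₀(3)` follows from that of the theta function of Jacobi, as it is
`e e' + o o'` for the even and odd parts of the two one dimensional theta series.
-/

set_option autoImplicit false

noncomputable section

open UpperHalfPlane hiding I
open Complex Filter
open scoped MatrixGroups ModularForm Manifold Real Topology

namespace FermatAgent.LT.Mod3

/-- The combination of theta series. -/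
def hexE (z : ℂ) : ℂ :=
  jacobiTheta (z / 2) * jacobiTheta (3 * z / 2) + 2 * (jacobiTheta (2 * z) * jacobiTheta (6 * z))
    - jacobiTheta (2 * z) * jacobiTheta (3 * z / 2) - jacobiTheta (z / 2) * jacobiTheta (6 * z)

/-- The quadratic form. -/
def hexQ (x : ℤ × ℤ) : ℕ := (x.1 ^ 2 + x.1 * x.2 + x.2 ^ 2).toNat

/-- The hexagonal form. -/
lemma coe_hexQ (x : ℤ × ℤ) : (hexQ x : ℤ) = x.1 ^ 2 + x.1 * x.2 + x.2 ^ 2 :=
  Int.toNat_of_nonneg (by nlinarith [sq_nonneg (x.1 + x.2), sq_nonneg x.1, sq_nonneg x.2])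

lemma hasSum_theta {z : ℂ} (hz : 0 < z.im) :
    HasSum (fun n : ℤ => cexp (π * I * (n : ℂ) ^ 2 * z)) (jacobiTheta z) := by
  have h := hasSum_jacobiTheta₂_term 0 hz
  rw [← jacobiTheta_eq_jacobiTheta₂] at h
  refine h.congr_fun fun n => ?_
  simp [jacobiTheta₂_term]

lemma hasSum_theta_even {z : ℂ} (hz : 0 < z.im) :
    HasSum (fun n : ℤ => if Even n then cexp (π * I * (n : ℂ) ^ 2 * z) else 0)
      (jacobiTheta (4 * z)) := by
  have h := hasSum_theta (z := 4 * z) (by simpa using hz)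
  have hinj : Function.Injective fun n : ℤ => 2 * n :=
    fun a b hab => by simpa using hab
  refine (hinj.hasSum_iff fun n hn => if_neg fun ⟨m, hm⟩ => hn ⟨m, by simp [hm]; ring⟩).mp ?_
  refine h.congr_fun fun n => ?_
  simp only [Function.comp_apply, if_pos (even_two_mul n)]
  push_cast
  ring_nf

/-- The expansion over the lattice. -/
theorem hasSum_hexE {z : ℂ} (hz : 0 < z.im) :
    HasSum (fun x : ℤ × ℤ => cexp (2 * π * I * z) ^ hexQ x) (hexE z) := by
  have h1 : 0 < (z / 2).im := by simpa using div_pos hz two_pos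
  have h2 : 0 < (3 * z / 2).im := by simp; linarith
  have a := hasSum_theta h1
  have a' := hasSum_theta h2
  have e := hasSum_theta_even h1
  have e' := hasSum_theta_even h2
  rw [show 4 * (z / 2) = 2 * z by ring] at e
  rw [show 4 * (3 * z / 2) = 6 * z by ring] at e'
  have hmul : ∀ {f g : ℤ → ℂ} {s t : ℂ}, HasSum f s → HasSum g t →
      HasSum (fun x : ℤ × ℤ => f x.1 * g x.2) (s * t) := fun {f g} _ _ hf hg =>
    hf.mul hg (summable_mul_of_summable_norm hf.summable.norm hg.summable.norm)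
  have h := (((hmul a a').add ((hmul e e').mul_left 2)).sub (hmul e a')).sub (hmul a e')
  -- the bijection with the pairs of equal parity
  have hinj : Function.Injective fun x : ℤ × ℤ => (2 * x.1 + x.2, x.2) := fun x y hxy => by
    simp only [Prod.mk.injEq] at hxy
    exact Prod.ext (by omega) hxy.2
  rw [← hinj.hasSum_iff (fun x hx => ?_)] at h
  · refine h.congr_fun fun x => ?_
    have hp : Even (2 * x.1 + x.2) ↔ Even x.2 := by simp [Int.even_add]
    rw [← Complex.exp_nat_mul]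
    simp only [Function.comp_apply, hp]
    have hexp : cexp (π * I * ((2 * x.1 + x.2 : ℤ) : ℂ) ^ 2 * (z / 2)) *
        cexp (π * I * (x.2 : ℂ) ^ 2 * (3 * z / 2)) = cexp ((hexQ x : ℕ) * (2 * π * I * z)) := by
      rw [← Complex.exp_add]
      congr 1
      have := congrArg (fun n : ℤ => (n : ℂ)) (coe_hexQ x)
      push_cast at this ⊢
      rw [this]
      ring
    split <;> · rw [← hexp]; ring
  · have hodd : Even x.1 ↔ ¬Even x.2 := by
      refine ⟨fun h1 h2 => ?_, fun h2 => ?_⟩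
      · obtain ⟨m, hm⟩ := h1.sub h2
        exact hx ⟨(m, x.2), Prod.ext (by simp; omega) rfl⟩
      · by_contra h1
        obtain ⟨m, hm⟩ := (Int.not_even_iff_odd.mp h1).sub_odd (Int.not_even_iff_odd.mp h2)
        exact hx ⟨(m, x.2), Prod.ext (by simp; omega) rfl⟩
    by_cases h2 : Even x.2
    · have h1 : ¬Even x.1 := fun h => hodd.mp h h2
      simp only [if_pos h2, if_neg h1]; ring
    · simp only [if_neg h2, if_pos (hodd.mpr h2)]; ring

/-- The hexagonal series has period one. -/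
lemma hexE_add_one {z : ℂ} (hz : 0 < z.im) : hexE (z + 1) = hexE z := by
  refine ((hasSum_hexE (z := z + 1) (by simpa using hz)).congr_fun fun x => ?_).unique
    (hasSum_hexE hz)
  rw [show 2 * (π : ℂ) * I * (z + 1) = 2 * π * I * z + 2 * π * I by ring, Complex.exp_add,
    Complex.exp_two_pi_mul_I, mul_one]

lemma theta_neg_inv (τ : ℍ) {c : ℝ} (hc : 0 < c) :
    jacobiTheta (-(1 / (c * (τ : ℂ)))) =
      (Real.sqrt c : ℂ) * (-I * (τ : ℂ)) ^ (1 / 2 : ℂ) * jacobiTheta (c * (τ : ℂ)) := by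
  have him : 0 < (c * (τ : ℂ)).im := by simpa using mul_pos hc τ.im_pos
  have h := jacobiTheta_S_smul ⟨c * (τ : ℂ), him⟩
  simp only [UpperHalfPlane.modular_S_smul, UpperHalfPlane.coe_mk] at h
  rw [one_div, ← inv_neg, h]
  congr 1
  rw [show -I * (c * (τ : ℂ)) = (c : ℂ) * (-I * τ) by ring,
    Real.sqrt_eq_rpow, Complex.ofReal_cpow hc.le]
  have hx : -I * (τ : ℂ) ≠ 0 := mul_ne_zero (neg_ne_zero.mpr I_ne_zero) τ.ne_zero
  have hc' : (c : ℂ) ≠ 0 := by exact_mod_cast hc.ne'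
  rw [cpow_def_of_ne_zero (mul_ne_zero hc' hx), cpow_def_of_ne_zero hc', cpow_def_of_ne_zero hx,
    Complex.log_ofReal_mul hc hx, ← Complex.exp_add, Complex.ofReal_log hc.le]
  push_cast
  congr 1
  ring

lemma sq_sqrt_cpow (τ : ℍ) :
    (-I * (τ : ℂ)) ^ (1 / 2 : ℂ) * (-I * (τ : ℂ)) ^ (1 / 2 : ℂ) = -I * τ := by
  rw [← sq, one_div]
  exact Complex.cpow_nat_inv_pow _ two_ne_zero

/-- The transformation under the Fricke involution of level three. -/
theorem hexE_fricke (τ : ℍ) :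
    hexE (-(1 / (3 * (τ : ℂ)))) = -I * (Real.sqrt 3 : ℂ) * τ * hexE τ := by
  set w := (-I * (τ : ℂ)) ^ (1 / 2 : ℂ)
  have e1 := theta_neg_inv τ (c := 6) (by norm_num)
  have e2 := theta_neg_inv τ (c := 2) (by norm_num)
  have e3 := theta_neg_inv τ (c := 3 / 2) (by norm_num)
  have e4 := theta_neg_inv τ (c := 1 / 2) (by norm_num)
  push_cast at e1 e2 e3 e4
  have hτ := τ.ne_zero
  rw [hexE, hexE,
    show -(1 / (3 * (τ : ℂ))) / 2 = -(1 / (6 * (τ : ℂ))) by field_simp; norm_num,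
    show 3 * -(1 / (3 * (τ : ℂ))) / 2 = -(1 / (2 * (τ : ℂ))) by field_simp,
    show 2 * -(1 / (3 * (τ : ℂ))) = -(1 / (3 / 2 * (τ : ℂ))) by field_simp,
    show 6 * -(1 / (3 * (τ : ℂ))) = -(1 / (1 / 2 * (τ : ℂ))) by field_simp; norm_num,
    e1, e2, e3, e4, show (1 : ℂ) / 2 * τ = τ / 2 by ring,
    show (3 : ℂ) / 2 * τ = 3 * τ / 2 by ring]
  have s1 : Real.sqrt 6 * Real.sqrt 2 = 2 * Real.sqrt 3 := by
    rw [show (6 : ℝ) = 3 * 2 by norm_num, Real.sqrt_mul (by norm_num), mul_assoc,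
      Real.mul_self_sqrt (by norm_num)]
    ring
  have s2 : Real.sqrt (3 / 2) * Real.sqrt (1 / 2) = Real.sqrt 3 / 2 := by
    rw [← Real.sqrt_mul (by norm_num), show (3 : ℝ) / 2 * (1 / 2) = 3 / 2 ^ 2 by norm_num,
      Real.sqrt_div (by norm_num), Real.sqrt_sq (by norm_num)]
  have s3 : Real.sqrt (3 / 2) * Real.sqrt 2 = Real.sqrt 3 := by
    rw [← Real.sqrt_mul (by norm_num)]; norm_num
  have s4 : Real.sqrt 6 * Real.sqrt (1 / 2) = Real.sqrt 3 := by
    rw [← Real.sqrt_mul (by norm_num)]; norm_num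
  have c1 := congrArg (fun r : ℝ => (r : ℂ)) s1
  have c2 := congrArg (fun r : ℝ => (r : ℂ)) s2
  have c3 := congrArg (fun r : ℝ => (r : ℂ)) s3
  have c4 := congrArg (fun r : ℝ => (r : ℂ)) s4
  push_cast at c1 c2 c3 c4
  linear_combination
    (norm := (simp only [w, hexE]; ring))
    w * w * jacobiTheta (2 * (τ : ℂ)) * jacobiTheta (6 * (τ : ℂ)) * c1 +
    2 * w * w * jacobiTheta ((τ : ℂ) / 2) * jacobiTheta (3 * (τ : ℂ) / 2) * c2 -
    w * w * jacobiTheta (2 * (τ : ℂ)) * jacobiTheta (3 * (τ : ℂ) / 2) * c3 -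
    w * w * jacobiTheta ((τ : ℂ) / 2) * jacobiTheta (6 * (τ : ℂ)) * c4 +
    (Real.sqrt 3 : ℂ) * hexE τ * sq_sqrt_cpow τ

/-- The invariance under lower unipotent matrices of level three. -/
theorem hexE_lower (τ : ℍ) (k : ℤ) :
    hexE ((τ : ℂ) / (3 * k * τ + 1)) = (3 * k * τ + 1) * hexE τ := by
  have hD : 3 * (k : ℂ) * τ + 1 ≠ 0 := fun h => by
    rcases eq_or_ne k 0 with rfl | hk
    · simp at h
    · have := congrArg Complex.im h
      simp [hk, τ.im_ne_zero] at this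
  have hτ := τ.ne_zero
  have him : 0 < ((τ : ℂ) / (3 * k * τ + 1)).im := by
    have : ((τ : ℂ) / (3 * k * τ + 1)).im = τ.im / Complex.normSq (3 * k * τ + 1) := by
      simp [Complex.div_im, ← sub_div]
      ring
    rw [this]
    exact div_pos τ.im_pos (Complex.normSq_pos.mpr hD)
  set τ' : ℍ := ⟨_, him⟩
  have h1 := hexE_fricke τ'
  have h2 : -(1 / (3 * ((τ : ℂ) / (3 * k * τ + 1)))) = -(1 / (3 * (τ : ℂ))) + ((-k : ℤ) : ℂ) := by
    field_simp; push_cast; ring
  have hz : 0 < (-(1 / (3 * (τ : ℂ)))).im := by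
    rw [one_div, ← inv_neg, Complex.inv_im, neg_im, neg_neg]
    refine div_pos ?_ (Complex.normSq_pos.mpr (neg_ne_zero.mpr (mul_ne_zero three_ne_zero hτ)))
    simpa using τ.im_pos
  have hper : ∀ (m : ℤ), hexE (-(1 / (3 * (τ : ℂ))) + (m : ℂ)) = hexE (-(1 / (3 * (τ : ℂ)))) := by
    intro m
    induction m using Int.induction_on with
    | zero => simp
    | succ i ih => rw [← ih]; push_cast; rw [← add_assoc, hexE_add_one (by simpa using hz)]
    | pred i ih =>
      rw [← ih, ← hexE_add_one (z := -(1 / (3 * (τ : ℂ))) + ((-(i : ℤ) - 1 : ℤ) : ℂ))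
        (by simpa using hz)]
      push_cast; ring_nf
  simp only [τ', h2, hper, hexE_fricke τ] at h1
  have hne : -I * (Real.sqrt 3 : ℂ) * (τ : ℂ) ≠ 0 :=
    mul_ne_zero (mul_ne_zero (neg_ne_zero.mpr I_ne_zero) (by simp)) hτ
  refine mul_left_cancel₀ hne ?_
  set X := hexE ((τ : ℂ) / (3 * k * τ + 1))
  set D := 3 * (k : ℂ) * τ + 1
  have h3 : -I * (Real.sqrt 3 : ℂ) * ((τ : ℂ) / D) * X * D = -I * (Real.sqrt 3 : ℂ) * τ * X := by
    field_simp
  linear_combination (norm := ring) -h3 - D * h1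

end FermatAgent.LT.Mod3
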