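import Mathlib
import Fermat.Agent.LT.Mod3.Hexa
import Fermat.Agent.LT.Mod3.Defs

/-!
# The hexagonal theta series as a form of weight one

It has the character `χ₋₃` on `Γ₀(3)`, is bounded at every cusp, and its expansion is congruent to
one modulo three.
-/

set_option autoImplicit false

noncomputable section

open UpperHalfPlane hiding I
open Complex Filter
open scoped MatrixGroups ModularForm Manifold Real Topology

namespace FermatAgent.LT.Mod3

/-- The character depends on residues modulo three. -/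
lemma chi_congr {a b : ℤ} (h : (3 : ℤ) ∣ a - b) : chi a = chi b := by
  rw [chi, chi, show a % 3 = b % 3 from by omega]

/-- The character at one. -/
lemma chi_one : chi 1 = 1 := by simp [chi, EisensteinWeightOne.chiNegThree]

lemma chi_neg (d : ℤ) : chi (-d) = -chi d := by
  have : d % 3 = 0 ∨ d % 3 = 1 ∨ d % 3 = 2 := by omega
  rcases this with h | h | h <;>
    simp [chi, EisensteinWeightOne.chiNegThree, h, show (-d) % 3 = (3 - d % 3) % 3 from by omega]

/-- The theta series on the upper half plane. -/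
def hexF (τ : ℍ) : ℂ := hexE τ

lemma hexF_T_zpow (τ : ℍ) (m : ℤ) : hexF (ModularGroup.T ^ m • τ) = hexF τ := by
  have hper : ∀ m : ℤ, hexE ((τ : ℂ) + m) = hexE τ := by
    intro m
    induction m using Int.induction_on with
    | zero => simp
    | succ i ih => rw [← ih]; push_cast; rw [← add_assoc, hexE_add_one (by simpa using τ.im_pos)]
    | pred i ih =>
      rw [← ih, ← hexE_add_one (z := (τ : ℂ) + ((-(i : ℤ) - 1 : ℤ) : ℂ))
        (by simpa using τ.im_pos)]
      push_cast; ring_nf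
  rw [hexF, hexF, ModularGroup.coe_T_zpow_smul_eq, hper]

/-- The theta series has weight one and character `χ₋₃` on `Γ₀(3)`. -/
theorem hexF_smul (γ : SL(2, ℤ)) (hc : (3 : ℤ) ∣ γ 1 0) (τ : ℍ) :
    hexF (γ • τ) = chi (γ 1 1) * ((γ 1 0 : ℂ) * τ + (γ 1 1 : ℂ)) * hexF τ := by
  induction hn : (γ 1 0).natAbs using Nat.strong_induction_on generalizing γ with
  | _ n ih =>
  have hdet : γ 0 0 * γ 1 1 - γ 0 1 * γ 1 0 = 1 := by
    have := γ.det_coe; rwa [Matrix.det_fin_two] at this
  rcases eq_or_ne (γ 1 0) 0 with h0 | h0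
  · rw [h0, mul_zero, sub_zero] at hdet
    rcases Int.isUnit_iff.mp (IsUnit.of_mul_eq_one_right _ hdet) with hd | hd
    · obtain ⟨m, hm⟩ := ModularGroup.exists_eq_T_zpow_of_c_eq_zero h0
      rw [hm, hexF_T_zpow, h0, hd, chi_one]
      simp
    · have h0' : (-γ) 1 0 = 0 := by simp [h0]
      obtain ⟨m, hm⟩ := ModularGroup.exists_eq_T_zpow_of_c_eq_zero h0'
      rw [← ModularGroup.SL_neg_smul, hm, hexF_T_zpow, h0, hd, chi_neg, chi_one]
      simp
  set a := γ 0 0
  set b := γ 0 1
  set c := γ 1 0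
  set d := γ 1 1
  -- a centred residue of `a` modulo `c`
  set a' := Int.bmod a c.natAbs
  obtain ⟨k, hk⟩ : ∃ k, a' = a + k * c := by
    have h1 : (c.natAbs : ℤ) ∣ a - a' := Int.dvd_self_sub_bmod
    obtain ⟨k, hk⟩ := Int.natAbs_dvd.mp h1
    exact ⟨-k, by linarith⟩
  have hc3 : 3 ≤ c.natAbs := Nat.le_of_dvd (Int.natAbs_pos.mpr h0) (by
    simpa using Int.natAbs_dvd_natAbs.mpr hc)
  have ha'0 : a' ≠ 0 := by
    intro e
    have h1 : c ∣ (1 : ℤ) := ⟨-k * d - b, by
      rw [← hdet, show a = -k * c by linarith]; ring⟩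
    have := Nat.le_of_dvd one_pos (by simpa using Int.natAbs_dvd_natAbs.mpr h1)
    omega
  have ha'c : 2 * a'.natAbs ≤ c.natAbs := by
    have h1 : a' < ((c.natAbs : ℤ) + 1) / 2 := Int.bmod_lt (by omega)
    have h2 : -((c.natAbs : ℤ) / 2) ≤ a' := Int.le_bmod (by omega)
    omega
  set c' := Int.bmod c (3 * a'.natAbs)
  obtain ⟨j, hj⟩ : ∃ j, c' = c + 3 * j * a' := by
    have h1 : ((3 * a'.natAbs : ℕ) : ℤ) ∣ c - c' := Int.dvd_self_sub_bmod
    have h2 : 3 * a' ∣ c - c' := by
      refine (Int.natAbs_dvd.mp ?_)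
      simpa [Int.natAbs_mul] using h1
    obtain ⟨j, hj⟩ := h2
    exact ⟨-j, by linarith⟩
  have hlt : c'.natAbs < c.natAbs := by
    have h1 : c' < (((3 * a'.natAbs : ℕ) : ℤ) + 1) / 2 := Int.bmod_lt (by omega)
    have h2 : -(((3 * a'.natAbs : ℕ) : ℤ) / 2) ≤ c' := Int.le_bmod (by omega)
    omega
  let L : SL(2, ℤ) := ⟨!![1, 0; 3 * j, 1], by simp [Matrix.det_fin_two_of]⟩
  set γ' := L * (ModularGroup.T ^ k * γ) with hγ'
  have e10 : γ' 1 0 = c' := by
    rw [hj, hk, hγ', Matrix.SpecialLinearGroup.coe_mul, Matrix.SpecialLinearGroup.coe_mul,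
      ModularGroup.coe_T_zpow]
    simp [L, Matrix.mul_apply, Matrix.vecMul, dotProduct, Fin.sum_univ_two, a, c]
    ring
  have e11 : γ' 1 1 = d + 3 * j * (b + k * d) := by
    rw [hγ', Matrix.SpecialLinearGroup.coe_mul, Matrix.SpecialLinearGroup.coe_mul,
      ModularGroup.coe_T_zpow]
    simp [L, Matrix.mul_apply, Matrix.vecMul, dotProduct, Fin.sum_univ_two, b, d]
    ring
  have hc' : (3 : ℤ) ∣ γ' 1 0 := by rw [e10, hj]; exact dvd_add hc ⟨j * a', by ring⟩
  have hI := ih c'.natAbs (hn ▸ hlt) γ' hc' (by rw [e10])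
  set z := ModularGroup.T ^ k • γ • τ with hz
  have hLz : γ' • τ = L • z := by rw [hγ', mul_smul, mul_smul]
  have hcoe : ((L • z : ℍ) : ℂ) = (z : ℂ) / (3 * j * z + 1) := by
    rw [UpperHalfPlane.coe_specialLinearGroup_apply]
    simp [L]
  have hstep : hexF (γ' • τ) = (3 * j * (z : ℂ) + 1) * hexF (γ • τ) := by
    rw [hLz, hexF, hcoe, hexE_lower z j, ← hexF_T_zpow (γ • τ) k, hexF]
  rw [hI, e10, e11, chi_congr (b := d) ⟨j * (b + k * d), by ring⟩] at hstep
  have hden : (c : ℂ) * τ + d ≠ 0 := by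
    have := UpperHalfPlane.denom_ne_zero (γ : GL (Fin 2) ℝ) τ
    simpa [UpperHalfPlane.denom, c, d] using this
  have hzz : (z : ℂ) * ((c : ℂ) * τ + d) = (a : ℂ) * τ + b + k * ((c : ℂ) * τ + d) := by
    rw [hz, ModularGroup.coe_T_zpow_smul_eq, UpperHalfPlane.coe_specialLinearGroup_apply]
    simp only [algebraMap_int_eq, eq_intCast, ofReal_intCast]
    rw [add_mul, div_mul_cancel₀ _ hden]
  have hL1 : 3 * (j : ℂ) * z + 1 ≠ 0 := by
    have := UpperHalfPlane.denom_ne_zero (L : GL (Fin 2) ℝ) z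
    rw [ModularGroup.denom_apply] at this
    simpa [L] using this
  refine mul_left_cancel₀ hL1 (hstep.symm.trans ?_)
  have hcc : (c' : ℂ) * τ + ((d + 3 * j * (b + k * d) : ℤ) : ℂ) =
      (3 * j * (z : ℂ) + 1) * ((c : ℂ) * τ + d) := by
    rw [add_mul, mul_assoc _ (z : ℂ), hzz, one_mul, hj, hk]
    push_cast
    ring
  rw [hcc]
  ring

/-- The transformation law of the hexagonal form. -/
lemma hexF_slash (γ : SL(2, ℤ)) (hc : (3 : ℤ) ∣ γ 1 0) :
    hexF ∣[(1 : ℤ)] γ = chi (γ 1 1) • hexF := by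
  funext τ
  have hden : (γ 1 0 : ℂ) * τ + (γ 1 1 : ℂ) ≠ 0 := by
    have := UpperHalfPlane.denom_ne_zero (γ : GL (Fin 2) ℝ) τ
    simpa [UpperHalfPlane.denom] using this
  rw [ModularForm.SL_slash_apply, hexF_smul γ hc, ModularGroup.denom_apply, zpow_neg, zpow_one,
    Pi.smul_apply, smul_eq_mul]
  field_simp

lemma hexF_slash_S (τ : ℍ) :
    (hexF ∣[(1 : ℤ)] ModularGroup.S) τ =
      -I * (Real.sqrt 3 : ℂ) / 3 * hexE ((τ : ℂ) / 3) := by
  have him : 0 < ((τ : ℂ) / 3).im := by simpa using div_pos τ.im_pos three_pos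
  have h := hexE_fricke ⟨_, him⟩
  rw [ModularForm.SL_slash_apply, ModularGroup.denom_S, hexF, UpperHalfPlane.modular_S_smul]
  simp only at h ⊢
  rw [show (-(τ : ℂ))⁻¹ = -(1 / (3 * ((τ : ℂ) / 3))) by
    rw [mul_div_cancel₀ _ three_ne_zero, inv_neg, one_div], h]
  have := τ.ne_zero
  rw [zpow_neg, zpow_one]
  field_simp

/-- The scaled hexagonal series tends to one. -/
lemma tendsto_hexE_scale {r : ℝ} (hr : 0 < r) :
    Tendsto (fun τ : ℍ => hexE ((τ : ℂ) * r)) atImInfty (𝓝 1) := by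
  have hθ : Tendsto jacobiTheta (comap Complex.im atTop) (𝓝 1) := by
    have h := isBigO_at_im_infty_jacobiTheta_sub_one.trans_tendsto
      ((Real.tendsto_exp_atBot.comp ((tendsto_id.const_mul_atTop_of_neg
        (neg_lt_zero.mpr Real.pi_pos)))).comp tendsto_comap)
    simpa using h.add_const (1 : ℂ)
  have hs : ∀ c : ℝ, 0 < c →
      Tendsto (fun τ : ℍ => jacobiTheta (c * ((τ : ℂ) * r))) atImInfty (𝓝 1) := fun c hc => by
    refine hθ.comp (tendsto_comap_iff.mpr ?_)
    have : Tendsto (fun τ : ℍ => c * r * τ.im) atImInfty atTop :=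
      tendsto_comap.const_mul_atTop (mul_pos hc hr)
    refine this.congr fun τ => ?_
    simp
    ring
  have a := hs (1 / 2) (by norm_num)
  have a' := hs (3 / 2) (by norm_num)
  have b := hs 2 (by norm_num)
  have b' := hs 6 (by norm_num)
  push_cast at a a' b b'
  have := (((a.mul a').add ((b.mul b').const_mul 2)).sub (b.mul a')).sub (a.mul b')
  norm_num at this
  refine this.congr fun τ => ?_
  rw [hexE]
  ring_nf

/-- The hexagonal form is holomorphic. -/
lemma hexF_mdiff : MDiff hexF := by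
  rw [UpperHalfPlane.mdifferentiable_iff]
  intro z hz
  have hz' : 0 < z.im := hz
  have h : ∀ c : ℝ, 0 < c → DifferentiableAt ℂ (fun w : ℂ => jacobiTheta (c * w)) z := fun c hc =>
    (differentiableAt_jacobiTheta (by simpa using mul_pos hc hz')).comp z
      (differentiableAt_id.const_mul _)
  have a := h (1 / 2) (by norm_num)
  have a' := h (3 / 2) (by norm_num)
  have b := h 2 (by norm_num)
  have b' := h 6 (by norm_num)
  push_cast at a a' b b'
  refine DifferentiableAt.differentiableWithinAt ?_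
  refine DifferentiableAt.congr_of_eventuallyEq
    ((((a.mul a').add ((b.mul b').const_mul 2)).sub (b.mul a')).sub (a.mul b')) ?_
  filter_upwards [isOpen_upperHalfPlaneSet.mem_nhds hz'] with w hw
  simp only [Function.comp_apply, hexF, ofComplex_apply_of_im_pos hw, UpperHalfPlane.coe_mk, hexE,
    Pi.add_apply, Pi.sub_apply, Pi.mul_apply]
  ring_nf

/-- Boundedness at every cusp. -/
theorem hexF_bdd (δ : SL(2, ℤ)) : IsBoundedAtImInfty (hexF ∣[(1 : ℤ)] δ) := by
  by_cases hc : (3 : ℤ) ∣ δ 1 0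
  · rw [hexF_slash δ hc]
    refine Asymptotics.IsBigO.const_smul_left ?_ _
    exact ((tendsto_hexE_scale one_pos).congr fun τ => by simp [hexF]).isBigO_one ℝ
  · set c := δ 1 0
    set d := δ 1 1
    obtain ⟨j, hj⟩ : ∃ j : ℤ, (3 : ℤ) ∣ d - j * c := by
      have : c % 3 = 1 ∨ c % 3 = 2 := by omega
      rcases this with h | h
      · exact ⟨d, Int.dvd_of_emod_eq_zero (by simp [Int.sub_emod, Int.mul_emod, h])⟩
      · exact ⟨2 * d, Int.dvd_of_emod_eq_zero (by
          have : d % 3 = 0 ∨ d % 3 = 1 ∨ d % 3 = 2 := by omega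
          rcases this with h' | h' | h' <;> simp [Int.sub_emod, Int.mul_emod, h, h'])⟩
    set γ := δ * ModularGroup.T ^ (-j) * ModularGroup.S⁻¹
    have hδ : δ = γ * (ModularGroup.S * ModularGroup.T ^ j) := by
      simp only [γ, zpow_neg]; group
    have hγ : (3 : ℤ) ∣ γ 1 0 := by
      have e : γ 1 0 = -(d - j * c) := by
        simp [γ, c, d, Matrix.SpecialLinearGroup.coe_mul, ModularGroup.coe_T_zpow,
          ModularGroup.coe_S, Matrix.mul_apply, Fin.sum_univ_two]
        ring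
      rw [e]; exact dvd_neg.mpr hj
    rw [hδ, SlashAction.slash_mul, hexF_slash γ hγ, ModularForm.SL_smul_slash,
      SlashAction.slash_mul]
    refine Asymptotics.IsBigO.const_smul_left ?_ _
    have hb : IsBoundedAtImInfty fun τ : ℍ => -I * (Real.sqrt 3 : ℂ) / 3 * hexE (τ * (1 / 3 : ℝ)) :=
      ((tendsto_hexE_scale (by norm_num : (0 : ℝ) < 1 / 3)).const_mul _).isBigO_one ℝ
    have hshift : Tendsto (fun τ : ℍ => ModularGroup.T ^ j • τ) atImInfty atImInfty :=
      tendsto_comap_iff.mpr (tendsto_comap.congr fun τ => (ModularGroup.im_T_zpow_smul τ j).symm)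
    refine (hb.comp_tendsto hshift).congr (fun τ => ?_) fun τ => rfl
    rw [Function.comp_apply, ModularForm.SL_slash_apply, hexF_slash_S, ModularGroup.denom_apply,
      ModularGroup.coe_T_zpow]
    simp [div_eq_mul_inv]

lemma hexF_vadd (n : ℕ) (τ : ℍ) : hexF ((n : ℝ) +ᵥ τ) = hexF τ := by
  have h := hexF_T_zpow τ (n : ℤ)
  rwa [UpperHalfPlane.modular_T_zpow_smul, Int.cast_natCast] at h

/-- The hexagonal form is periodic and bounded at infinity. -/
lemma hexF_isPer (h : ℕ) : IsPer (h : ℝ) hexF where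
  per := Curve.periodic_comp_ofComplex_of_vadd (hexF_vadd h)
  mdiff := hexF_mdiff
  bdd := by simpa using hexF_bdd 1

/-- The rotation of order three. -/
def hexRot : Equiv.Perm (ℤ × ℤ) where
  toFun x := (x.2, -x.1 - x.2)
  invFun x := (-x.1 - x.2, x.1)
  left_inv x := Prod.ext (by simp; ring) rfl
  right_inv x := Prod.ext rfl (by simp)

lemma three_dvd_card (s : Finset (ℤ × ℤ)) (hs : ∀ x ∈ s, hexRot x ∈ s) (h0 : (0, 0) ∉ s) :
    3 ∣ s.card := by
  induction s using Finset.strongInduction with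
  | _ s ih =>
  rcases s.eq_empty_or_nonempty with rfl | ⟨x, hx⟩
  · simp
  set O : Finset (ℤ × ℤ) := {x, hexRot x, hexRot (hexRot x)}
  have h3 : ∀ y : ℤ × ℤ, hexRot (hexRot (hexRot y)) = y := fun y =>
    Prod.ext (by simp [hexRot]; ring) (by simp [hexRot]; ring)
  have hne : ∀ y ∈ s, hexRot y ≠ y := fun y hy e => h0 (by
    have e1 := congrArg Prod.fst e
    have e2 := congrArg Prod.snd e
    simp [hexRot] at e1 e2
    rwa [show ((0 : ℤ), (0 : ℤ)) = y from Prod.ext (by simp; omega) (by simp; omega)])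
  have hO : O ⊆ s := by
    intro y hy
    simp [O] at hy
    rcases hy with rfl | rfl | rfl
    exacts [hx, hs _ hx, hs _ (hs _ hx)]
  have hcard : O.card = 3 := by
    refine Finset.card_eq_three.mpr ⟨_, _, _, (hne x hx).symm, fun e => hne x hx ?_,
      (hne _ (hs _ hx)).symm, rfl⟩
    conv_rhs => rw [← h3 x, ← e]
  have hinv : ∀ y ∈ s \ O, hexRot y ∈ s \ O := by
    intro y hy
    rw [Finset.mem_sdiff] at hy ⊢
    refine ⟨hs _ hy.1, fun h => hy.2 ?_⟩
    simp [O] at h ⊢
    rcases h with h | h | h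
    · exact Or.inr (Or.inr (hexRot.injective (h.trans (h3 x).symm)))
    · exact Or.inl h
    · exact Or.inr (Or.inl h)
  have h1 := ih (s \ O) (Finset.sdiff_ssubset hO ⟨x, by simp [O]⟩) hinv
    (fun h => h0 (Finset.mem_sdiff.mp h).1)
  rw [← Finset.sdiff_union_of_subset hO, Finset.card_union_of_disjoint Finset.sdiff_disjoint,
    hcard]
  exact Nat.dvd_add h1 dvd_rfl

/-- The expansion of the theta series is congruent to one modulo three. -/
theorem hexF_coeff {h : ℕ} (hh : 0 < h) (n : ℕ) :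
    ∃ z : ℤ, (qExpansion (h : ℝ) hexF).coeff n = z ∧ (3 : ℤ) ∣ z - if n = 0 then 1 else 0 := by
  classical
  have hfin : ∀ m : ℕ, {x : ℤ × ℤ | h * hexQ x = m}.Finite := fun m => by
    refine ((Set.finite_Icc (-(2 * (m : ℤ))) (2 * m)).prod
      (Set.finite_Icc (-(2 * (m : ℤ))) (2 * m))).subset fun x hx => ?_
    have h1 : (hexQ x : ℤ) ≤ m := by
      have : hexQ x ≤ m := by rw [← (hx : h * hexQ x = m)]; exact Nat.le_mul_of_pos_left _ hh
      exact_mod_cast this
    rw [coe_hexQ] at h1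
    simp only [Set.mem_prod, Set.mem_Icc]
    have i1 := Int.le_self_sq (x.1)
    have i1' := Int.le_self_sq (-x.1)
    have i2 := Int.le_self_sq (x.2)
    have i2' := Int.le_self_sq (-x.2)
    rw [neg_sq] at i1' i2'
    have := sq_nonneg (x.1 + x.2)
    refine ⟨⟨?_, ?_⟩, ?_, ?_⟩ <;> nlinarith
  set S := fun m => (hfin m).toFinset
  have hsum : ∀ τ : ℍ,
      HasSum (fun m => ((S m).card : ℂ) * Function.Periodic.qParam (h : ℝ) τ ^ m) (hexF τ) := by
    intro τ
    have h1 := hasSum_hexE (z := (τ : ℂ)) τ.im_pos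
    have hq : cexp (2 * π * I * (τ : ℂ)) = Function.Periodic.qParam (h : ℝ) τ ^ h := by
      rw [Function.Periodic.qParam, ← Complex.exp_nat_mul]
      congr 1
      have : (h : ℂ) ≠ 0 := Nat.cast_ne_zero.mpr hh.ne'
      push_cast
      field_simp
    rw [hq] at h1
    simp only [← pow_mul] at h1
    have h2 := (Equiv.sigmaFiberEquiv fun x : ℤ × ℤ => h * hexQ x).hasSum_iff.mpr h1
    refine (h2.sigma fun m => ?_)
    have : Fintype {x : ℤ × ℤ // h * hexQ x = m} := (hfin m).fintype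
    have h3 := hasSum_fintype fun x : {x : ℤ × ℤ // h * hexQ x = m} =>
      Function.Periodic.qParam (h : ℝ) τ ^ (h * hexQ (x : ℤ × ℤ))
    convert h3 using 1
    · rfl
    rw [Finset.sum_congr rfl (g := fun _ => Function.Periodic.qParam (h : ℝ) τ ^ m)
      (fun x _ => by rw [x.2]), Finset.sum_const, Finset.card_univ, nsmul_eq_mul]
    simp only [S]
    congr 2
    rw [← Nat.card_eq_fintype_card, ← Nat.card_eq_finsetCard]
    exact Nat.card_congr (Equiv.subtypeEquivRight fun x => by simp)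
  refine ⟨(S n).card, ?_, ?_⟩
  · rw [(hexF_isPer h).coeff_unique (by exact_mod_cast hh) hsum]
    norm_num
  · rcases eq_or_ne n 0 with rfl | hn
    · have : S 0 = {((0 : ℤ), (0 : ℤ))} := by
        ext x
        simp only [S, Set.Finite.mem_toFinset, Set.mem_ofPred_eq, Finset.mem_singleton,
          Nat.mul_eq_zero, hh.ne', false_or]
        refine ⟨fun hx => ?_, fun hx => by simp [hx, hexQ]⟩
        have h1 : (hexQ x : ℤ) = 0 := by exact_mod_cast hx
        rw [coe_hexQ] at h1
        have := sq_nonneg (x.1 + x.2)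
        have e1 : x.1 ^ 2 ≤ 0 := by nlinarith [sq_nonneg x.2]
        have e2 : x.2 ^ 2 ≤ 0 := by nlinarith [sq_nonneg x.1]
        exact Prod.ext (pow_eq_zero_iff two_ne_zero |>.mp (le_antisymm e1 (sq_nonneg _)))
          (pow_eq_zero_iff two_ne_zero |>.mp (le_antisymm e2 (sq_nonneg _)))
      simp [this]
    · simp only [if_neg hn, sub_zero]
      refine Int.natCast_dvd_natCast.mpr (three_dvd_card _ (fun x hx => ?_) ?_)
      · simp only [S, Set.Finite.mem_toFinset, Set.mem_ofPred_eq] at hx ⊢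
        rw [← hx]
        congr 1
        rw [← Int.natCast_inj, coe_hexQ, coe_hexQ]
        simp [hexRot]
        ring
      · simp [S, hexQ, hn.symm]

end FermatAgent.LT.Mod3
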