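import Mathlib
import Fermat.Agent.LT.Mod3.Bound
import Fermat.Agent.LT.Mod3.Perms
import Fermat.Agent.LT.Mod3.HexaForm

/-!
# From weight one to weight two

The products of the weight one forms of the input with the theta series of the hexagonal lattice,
as weight two cusp forms for `Γ(27 M)`.
-/

set_option autoImplicit false
set_option maxSynthPendingDepth 4

noncomputable section

open UpperHalfPlane hiding I
open CongruenceSubgroup Filter ModularCurve.Period Matrix.SpecialLinearGroup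
open scoped MatrixGroups ModularForm Manifold OnePoint Topology

namespace FermatAgent.LT.Mod3

open FermatAgent.HM

/-- Minus one acts trivially on the line. -/
lemma moebius_neg (q : Nat.Primes) (γ : SL(2, ℤ)) (x : OnePoint (ZMod (q : ℕ))) :
    moebius q (-γ) x = moebius q γ x := by
  have h1 : ∀ z : OnePoint (ZMod (q : ℕ)), moebius q (-1) z = z := by
    intro z
    have e : tld (q : ℕ) (-1) = -1 := Subtype.ext (Matrix.ext fun i j => by
      fin_cases i <;> fin_cases j <;> simp [tld])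
    induction z using OnePoint.rec with
    | infty =>
      rw [moebius_eq_infty_iff]
      simp
    | coe c =>
      rw [moebius, e, OnePoint.smul_some_eq_ite]
      change (if (-1 : SL(2, ZMod (q : ℕ))).1 1 0 * c + (-1 : SL(2, ZMod (q : ℕ))).1 1 1 = 0 then ∞
        else ((((-1 : SL(2, ZMod (q : ℕ))).1 0 0 * c + (-1 : SL(2, ZMod (q : ℕ))).1 0 1) /
          ((-1 : SL(2, ZMod (q : ℕ))).1 1 0 * c + (-1 : SL(2, ZMod (q : ℕ))).1 1 1) :
            ZMod (q : ℕ)) : OnePoint (ZMod (q : ℕ)))) = _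
      simp
  rw [show -γ = -1 * γ by simp, moebius_mul, h1]

/-- The augmentation matrix is even. -/
lemma augMat_neg {S : Finset Nat.Primes} (k : Type*) [CommRing k] (γ : SL(2, ℤ)) (i l : Idx S) :
    augMat k (-γ) i l = augMat k γ i l := by
  refine Finset.prod_congr rfl fun q _ => ?_
  rw [moebius_neg, moebius_neg]

/-- Minus one acts trivially in weight two. -/
lemma slash_two_neg (f : ℍ → ℂ) (γ : SL(2, ℤ)) : f ∣[(2 : ℤ)] (-γ) = f ∣[(2 : ℤ)] γ := by
  funext τ
  rw [ModularForm.SL_slash_apply, ModularForm.SL_slash_apply, ModularGroup.SL_neg_smul,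
    ModularGroup.denom_apply, ModularGroup.denom_apply]
  congr 1
  simp only [Matrix.SpecialLinearGroup.coe_neg, Matrix.neg_apply, Int.cast_neg]
  rw [show (-((γ 1 0 : ℤ) : ℂ)) * τ + -((γ 1 1 : ℤ) : ℂ) = -(((γ 1 0 : ℤ) : ℂ) * τ + (γ 1 1 : ℤ))
    by ring]
  rw [_root_.zpow_neg, _root_.zpow_neg, zpow_two, zpow_two, neg_mul_neg]

variable {M : ℕ} {O : ValuationSubring ℂ} {t : ℕ → ℤ} {P₀ : Set ℕ}

/-- The auxiliary level divides the level. -/
lemma Input.MA_dvd (D : Input M O t P₀) : D.MA ∣ M := ⟨_, D.level_eq.symm⟩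

/-- The hexagonal form is invariant under `Γ(n)` for `3 ∣ n`. -/
lemma hexF_slash_eq_self {γ : SL(2, ℤ)} {n : ℕ} (hn : 3 ∣ n) (hγ : γ ∈ Gamma n) :
    hexF ∣[(1 : ℤ)] γ = hexF := by
  rw [Gamma_mem] at hγ
  have h3 : ∀ z : ℤ, (z : ZMod n) = 0 → (3 : ℤ) ∣ z := fun z hz =>
    (Int.natCast_dvd_natCast.mpr hn).trans ((ZMod.intCast_zmod_eq_zero_iff_dvd _ _).mp hz)
  rw [hexF_slash γ (h3 _ hγ.2.2.1),
    chi_congr (b := 1) (h3 _ (by rw [Int.cast_sub, hγ.2.2.2, Int.cast_one, sub_self])), chi_one,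
    one_smul]

variable [NeZero (27 * M)]

omit [NeZero (27 * M)] in
/-- The input functions are periodic. -/
lemma Input.isPer_h (D : Input M O t P₀) (i : Idx D.S) : IsPer ((27 * M : ℕ) : ℝ) (D.h i) where
  per := Curve.periodic_comp_ofComplex_of_vadd fun τ => by
    have e := congrFun (D.invariant _ (T_pow_mem_Gamma (N := 27 * M)) i) τ
    rw [ModularForm.SL_slash_apply, modular_T_zpow_smul, ModularGroup.denom_apply,
      ModularGroup.coe_T_zpow] at e
    simpa using e
  mdiff := D.mdiff i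
  bdd := by
    have h : IsBoundedAtImInfty (D.h i ∣[(1 : ℤ)] (1 : SL(2, ℤ))) := (D.cusp i 1).boundedAtFilter
    rwa [SlashAction.slash_one] at h

/-- The weight two forms. -/
def Input.form (D : Input M O t P₀) (i : Idx D.S) : CuspForm (gammaGL (27 * M)) 2 where
  toFun := D.h i * hexF
  slash_action_eq' := by
    rintro _ ⟨γ, hγ, rfl⟩
    change (D.h i * hexF) ∣[(1 + 1 : ℤ)] γ = _
    rw [ModularForm.mul_slash_SL2, D.invariant γ hγ i,
      hexF_slash_eq_self (Dvd.dvd.mul_right (by norm_num) M) hγ]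
  holo' := (D.mdiff i).mul hexF_mdiff
  zero_at_cusps' := fun {c} hc => by
    rw [Subgroup.IsArithmetic.isCusp_iff_isCusp_SL2Z] at hc
    obtain ⟨δ, rfl⟩ := (isCusp_SL2Z_iff'.mp hc)
    rw [OnePoint.isZeroAt_iff_exists_SL2Z (isCusp_SL2Z_iff'.mpr ⟨δ, rfl⟩)]
    refine ⟨δ, rfl, ?_⟩
    change IsZeroAtImInfty ((D.h i * hexF) ∣[(1 + 1 : ℤ)] δ)
    rw [ModularForm.mul_slash_SL2]
    exact ZeroAtFilter.mul_boundedAtFilter (D.cusp i δ) (hexF_bdd δ)

end FermatAgent.LT.Mod3
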