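import Mathlib
import Fermat.Agent.LT.Mod3.Weight
import Fermat.Agent.LT.Mod3.Reduce

/-!
# The scaled forms, their expansions and a basis of their span

Times a suitable constant the weight two forms have integral expansions, congruent modulo the
maximal ideal to eigensequences, not all zero; their span has a frame over `O` on which the group
acts by integral matrices congruent to the augmented permutation representation.
-/

set_option autoImplicit false
set_option maxSynthPendingDepth 4

noncomputable section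

open UpperHalfPlane hiding I
open CongruenceSubgroup Filter ModularCurve.Period Matrix.SpecialLinearGroup
open scoped MatrixGroups ModularForm Manifold OnePoint Topology

namespace FermatAgent.LT.Mod3

open FermatAgent.HM

variable {M : ℕ} {O : ValuationSubring ℂ} {t : ℕ → ℤ} {P₀ : Set ℕ} [NeZero (27 * M)]

/-- The expansion of `hexF` is integral, `1` modulo the maximal ideal, and so invertible. -/
private lemma exists_hexF_series (hO3 : (3 : O) ∈ IsLocalRing.maximalIdeal O) :
    ∃ Eo Einv : PowerSeries O,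
      PowerSeries.map O.subtype Eo = qExpansion ((27 * M : ℕ) : ℝ) hexF ∧
      PowerSeries.map (IsLocalRing.residue O) Eo = 1 ∧ Einv * Eo = 1 := by
  have hM : 0 < 27 * M := Nat.pos_of_ne_zero (NeZero.ne _)
  choose z hz hz3 using fun n => hexF_coeff (h := 27 * M) hM n
  let Eo : PowerSeries O := PowerSeries.mk fun n => (z n : O)
  have hEc : PowerSeries.map O.subtype Eo = qExpansion ((27 * M : ℕ) : ℝ) hexF := by
    ext n
    rw [PowerSeries.coeff_map, PowerSeries.coeff_mk, map_intCast]
    exact (hz n).symm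
  have h3 : (3 : IsLocalRing.ResidueField O) = 0 := by
    rw [← map_ofNat (IsLocalRing.residue O) 3, IsLocalRing.residue_eq_zero_iff]
    exact hO3
  have hzres : ∀ n, (z n : IsLocalRing.ResidueField O) = if n = 0 then 1 else 0 := fun n => by
    obtain ⟨j, hj⟩ := hz3 n
    have e : z n = (if n = 0 then 1 else 0) + 3 * j := by linarith
    rw [e, Int.cast_add, Int.cast_mul, Int.cast_ofNat, h3, zero_mul, add_zero]
    split_ifs <;> simp
  have hEres : PowerSeries.map (IsLocalRing.residue O) Eo = 1 := by
    ext n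
    rw [PowerSeries.coeff_map, PowerSeries.coeff_mk, map_intCast, hzres, PowerSeries.coeff_one]
  obtain ⟨Einv, hEinv⟩ : ∃ Einv, Einv * Eo = 1 := by
    have hu : IsUnit Eo := by
      rw [PowerSeries.isUnit_iff_constantCoeff, ← IsLocalRing.notMem_maximalIdeal,
        ← IsLocalRing.residue_eq_zero_iff, ← PowerSeries.coeff_zero_eq_constantCoeff_apply,
        PowerSeries.coeff_mk, map_intCast, hzres]
      simp
    exact hu.exists_left_inv
  exact ⟨Eo, Einv, hEc, hEres, hEinv⟩

/-- Scaled forms with integral expansions, congruent to a nonzero eigenvector modulo the maximal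
ideal. -/
theorem exists_scaled (D : Input M O t P₀) (hO3 : (3 : O) ∈ IsLocalRing.maximalIdeal O) :
    ∃ (c0 : ℂ) (cf : Idx D.S → ℕ → O),
      (∀ i n, formCoeff n (c0 • D.form i) = (cf i n : ℂ)) ∧
      (∃ i n, IsLocalRing.residue O (cf i n) ≠ 0) ∧
      ∀ p ∈ P₀, ∀ i, IsHeckeSeq (fun n => IsLocalRing.residue O (cf i n)) p (t p) := by
  classical
  set w : ℝ := ((27 * M : ℕ) : ℝ)
  have hw : 0 < w := width_pos
  have hE : IsPer w hexF := hexF_isPer (27 * M)
  obtain ⟨Eo, Einv, hEc, hEres, hEinv⟩ := exists_hexF_series (M := M) hO3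
  have hz0 : qExpansion w hexF ≠ 0 := by
    rw [← hEc]
    intro e
    have e1 := congrArg (PowerSeries.map O.subtype) hEinv
    rw [map_mul, e, mul_zero, map_one] at e1
    exact zero_ne_one e1
  have hmul : ∀ i, qExpansion w ⇑(D.form i) = qExpansion w (D.h i) * qExpansion w hexF := fun i =>
    (D.isPer_h i).qExpansion_mul' hw hE
  have hne : ∃ i, D.form i ≠ 0 := by
    obtain ⟨i, hi⟩ := D.ne_zero
    refine ⟨i, fun e => hi ((D.isPer_h i).eq_zero hw fun n => ?_)⟩
    have h1 : qExpansion w ⇑(D.form i) = 0 := by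
      ext n
      change formCoeff n (D.form i) = 0
      rw [e, map_zero]
    rw [hmul] at h1
    rcases mul_eq_zero.mp h1 with h | h
    · rw [h, map_zero]
    · exact absurd h hz0
  obtain ⟨i₀, n₀, hc, hint⟩ := exists_max_coeff O D.form hne
  set c := formCoeff n₀ (D.form i₀)
  let cf : Idx D.S → ℕ → O := fun i n => ⟨_, hint i n⟩
  have hcf : ∀ i n, formCoeff n (c⁻¹ • D.form i) = (cf i n : ℂ) := fun i n => by
    rw [map_smul, smul_eq_mul, inv_mul_eq_div]
  refine ⟨c⁻¹, cf, hcf, ⟨i₀, n₀, ?_⟩, fun p hp i n => ?_⟩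
  · rw [show cf i₀ n₀ = 1 from Subtype.ext (div_self hc), map_one]
    exact one_ne_zero
  let Gs : PowerSeries O := PowerSeries.mk (cf i)
  let gs : PowerSeries O := Gs * Einv
  have hg : PowerSeries.map O.subtype gs = c⁻¹ • qExpansion w (D.h i) := by
    refine mul_right_cancel₀ hz0 ?_
    rw [smul_mul_assoc, ← hmul, ← hEc, ← map_mul, mul_assoc, hEinv, mul_one]
    ext m
    rw [PowerSeries.coeff_map, PowerSeries.coeff_mk, PowerSeries.coeff_smul]
    exact (hcf i m).symm.trans (map_smul _ _ _)
  have hgres : ∀ m, IsLocalRing.residue O (PowerSeries.coeff m gs) =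
      IsLocalRing.residue O (cf i m) := fun m => by
    have e1 := congrArg (PowerSeries.map (IsLocalRing.residue O)) hEinv
    rw [map_mul, hEres, mul_one, map_one] at e1
    rw [← PowerSeries.coeff_map, show gs = Gs * Einv from rfl, map_mul, e1, mul_one,
      PowerSeries.coeff_map, PowerSeries.coeff_mk]
  have hgc : ∀ m, ((PowerSeries.coeff m gs : O) : ℂ) = c⁻¹ * (qExpansion w (D.h i)).coeff m :=
      fun m => by
    have e := congrArg (PowerSeries.coeff m) hg
    rw [PowerSeries.coeff_map, PowerSeries.coeff_smul] at e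
    exact e
  have key : PowerSeries.coeff (p * n) gs +
      (if p ∣ n then PowerSeries.coeff (n / p) gs else 0) = (t p : O) * PowerSeries.coeff n gs := by
    refine Subtype.ext ?_
    push_cast
    rw [hgc, hgc]
    have e := D.hecke p hp i n
    split_ifs with hd
    · rw [if_pos hd] at e
      rw [hgc]
      linear_combination c⁻¹ * e
    · rw [if_neg hd] at e
      push_cast
      linear_combination c⁻¹ * e
  clear_value gs
  have key' := congrArg (IsLocalRing.residue O) key
  rw [map_add, map_mul, map_intCast, hgres, hgres, apply_ite (IsLocalRing.residue O), hgres,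
    map_zero] at key'
  exact key'

omit [NeZero (27 * M)] in
/-- Scalars of `O` commute with slashing in weight two. -/
private lemma smul_slash_two (a : O) (f : ℍ → ℂ) (γ : SL(2, ℤ)) :
    (a • f) ∣[(2 : ℤ)] γ = a • (f ∣[(2 : ℤ)] γ) := by
  change ((a : ℂ) • f) ∣[(2 : ℤ)] γ = _
  rw [ModularForm.SL_smul_slash]
  rfl

omit [NeZero (27 * M)] in
/-- Substituting one linear combination into another. -/
private lemma sum_smul_sum_smul {ι κ : Type*} [Fintype ι] [Fintype κ] (a : ι → O)
    (P : Matrix ι κ O) (b : κ → ℍ → ℂ) :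
    ∑ i, a i • ∑ r, P i r • b r = ∑ r, Matrix.vecMul a P r • b r := by
  simp only [Matrix.vecMul, dotProduct, Finset.smul_sum, smul_smul, Finset.sum_smul]
  exact Finset.sum_comm

/-- The scaled forms are permuted by `±(Γ(27) ∩ Γ₀)` up to the cocycle, which is congruent to the
augmented representation. -/
private lemma exists_scaledSlash (D : Input M O t P₀) (c0 : ℂ) (γ : lvl D.MA 3) :
    ∃ C : Matrix (Idx D.S) (Idx D.S) O,
      (∀ i l, IsLocalRing.residue O (C i l) =
        augMat (IsLocalRing.ResidueField O) (γ : SL(2, ℤ)) i l) ∧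
      ∀ i, ⇑(c0 • D.form i) ∣[(2 : ℤ)] (γ : SL(2, ℤ)) = ∑ l, C i l • ⇑(c0 • D.form l) := by
  suffices ∀ δ : SL(2, ℤ), δ ∈ CongruenceSubgroup.Gamma 27 → δ ∈ Gamma0 D.MA →
      ∃ C : Matrix (Idx D.S) (Idx D.S) O,
        (∀ i l, IsLocalRing.residue O (C i l) = augMat (IsLocalRing.ResidueField O) δ i l) ∧
        ∀ i, ⇑(c0 • D.form i) ∣[(2 : ℤ)] δ = ∑ l, C i l • ⇑(c0 • D.form l) by
    obtain ⟨hγ1, hγ2⟩ := Subgroup.mem_inf.mp γ.2
    rcases hγ1 with h | h
    · exact this _ h hγ2
    · obtain ⟨C, hC1, hC2⟩ := this _ h (by simpa [Gamma0_mem] using hγ2)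
      refine ⟨C, fun i l => by rw [hC1, augMat_neg], fun i => ?_⟩
      rw [← hC2, slash_two_neg]
  intro δ h27 h0
  obtain ⟨C, hC1, hC2⟩ := D.slash δ (Subgroup.mem_inf.mpr ⟨h27, h0⟩)
  refine ⟨C, hC1, fun i => ?_⟩
  have e1 : ⇑(D.form i) ∣[(2 : ℤ)] δ = (fun τ => ∑ l, (C i l : ℂ) * D.h l τ) * hexF := by
    change (D.h i * hexF) ∣[(1 + 1 : ℤ)] δ = _
    rw [ModularForm.mul_slash_SL2, hC2, hexF_slash_eq_self (by norm_num) h27]
  simp only [FunLike.coe_smul, ModularForm.SL_smul_slash, e1]
  funext τ
  simp only [Pi.smul_apply, Pi.mul_apply, Finset.sum_apply, smul_eq_mul, Finset.sum_mul,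
    Finset.mul_sum]
  refine Finset.sum_congr rfl fun l _ => ?_
  change c0 * ((C i l : ℂ) * D.h l τ * hexF τ) = (C i l : ℂ) * (c0 * (D.h l τ * hexF τ))
  ring

omit [NeZero (27 * M)] in
/-- The span over `O` of finitely many functions is free: a basis with both transition
matrices. -/
private lemma exists_frame {ι : Type*} [Fintype ι] (G : ι → ℍ → ℂ) :
    ∃ (d : ℕ) (b : Fin d → ℍ → ℂ) (B : Matrix ι (Fin d) O) (u : Matrix (Fin d) ι O),
      (Function.Injective fun v : Fin d → O => ∑ s, v s • b s) ∧
      (∀ i, G i = ∑ r, B i r • b r) ∧ ∀ r, b r = ∑ i, u r i • G i := by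
  classical
  set A := Submodule.span O (Set.range G)
  have : Module.Finite O A := Module.Finite.iff_fg.mpr (Submodule.fg_span (Set.finite_range G))
  have htf : Submodule.torsion O A = ⊥ := by
    rw [eq_bot_iff]
    rintro x ⟨⟨a, ha⟩, hx⟩
    rw [Submodule.mem_bot]
    refine Subtype.ext (funext fun τ => ?_)
    have e : (a : ℂ) * x.1 τ = 0 := congrFun (congrArg Subtype.val hx) τ
    exact (mul_eq_zero.mp e).resolve_left fun h => nonZeroDivisors.ne_zero ha (Subtype.ext h)
  have : Module.Flat O A := (Module.Flat.flat_iff_torsion_eq_bot_of_isBezout (R := O)).mpr htf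
  have : Module.Free O A := Module.free_of_flat_of_isLocalRing
  obtain ⟨d, b⟩ : Σ' d, Module.Basis (Fin d) O A :=
    ⟨_, (Module.Free.chooseBasis O A).reindex (Fintype.equivFin _)⟩
  let GA : ι → A := fun i => ⟨G i, Submodule.subset_span ⟨i, rfl⟩⟩
  have hu : ∀ r, ∃ u : ι → O, ∑ i, u i • G i = b r := fun r =>
    (Submodule.mem_span_range_iff_exists_fun O).mp (b r).2
  choose u hu using hu
  refine ⟨d, fun r => b r, Matrix.of fun i r => b.repr (GA i) r, Matrix.of u, fun v v' e => ?_,
    fun i => ?_, fun r => (hu r).symm⟩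
  · have e' : (∑ s, v s • b s) = ∑ s, v' s • b s := Subtype.ext (by simpa using e)
    funext s
    simpa [Finsupp.single_apply] using congrFun (congrArg (fun x => ⇑(b.repr x)) e') s
  · have e := congrArg (Subtype.val : A → _) (b.sum_repr (GA i))
    simp only [Submodule.coe_sum, Submodule.coe_smul] at e
    exact e.symm

omit [NeZero (27 * M)] in
/-- A free family stable under slashing by a group gives a matrix representation. -/
private lemma exists_slashHom {H : Subgroup SL(2, ℤ)} {d : ℕ} {b : Fin d → ℍ → ℂ}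
    (hb : Function.Injective fun v : Fin d → O => ∑ s, v s • b s)
    (S : H → Matrix (Fin d) (Fin d) O)
    (hS : ∀ (γ : H) r, b r ∣[(2 : ℤ)] (γ : SL(2, ℤ)) = ∑ s, S γ r s • b s) :
    ∃ R : H →* Matrix (Fin d) (Fin d) O,
      ∀ (γ : H) r, b r ∣[(2 : ℤ)] (γ : SL(2, ℤ)) = ∑ s, R γ r s • b s := by
  refine ⟨{ toFun := S, map_one' := funext fun r => hb ?_,
            map_mul' := fun γ δ => funext fun r => hb ?_ }, hS⟩
  · simp only [← hS]
    simp [Matrix.one_apply, ite_smul]
  · simp only [← hS, Subgroup.coe_mul, SlashAction.slash_mul]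
    rw [hS γ, SlashAction.sum_slash]
    simp only [smul_slash_two, hS, sum_smul_sum_smul]
    rfl

/-- A frame of the span of the scaled forms over `O`: forms transforming by an integral matrix
representation `R`, through which the scaled forms factor by a matrix `B` injective modulo the
maximal ideal and carrying `R` into the augmented permutation representation. -/
theorem exists_basis (D : Input M O t P₀) (c0 : ℂ) :
    ∃ (d : ℕ) (R : lvl D.MA 3 →* Matrix (Fin d) (Fin d) O)
      (F : Fin d → CuspForm (gammaGL (27 * M)) 2) (B : Matrix (Idx D.S) (Fin d) O),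
      F ∈ eqForms (matRep R (algebraMap O ℂ)) ∧
      (∀ γ : lvl D.MA 3, (γ : SL(2, ℤ)) ∈ CongruenceSubgroup.Gamma (27 * M) → R γ = 1) ∧
      (∀ i, c0 • D.form i = ∑ r, (B i r : ℂ) • F r) ∧
      (∀ v : Fin d → IsLocalRing.ResidueField O,
        (B.map (IsLocalRing.residue O)).mulVec v = 0 → v = 0) ∧
      ∀ (γ : lvl D.MA 3) (v : Fin d → IsLocalRing.ResidueField O),
        (B.map (IsLocalRing.residue O)).mulVec (matRep R (IsLocalRing.residue O) γ v) =
          augRep D.S (IsLocalRing.ResidueField O) (lvl D.MA 3) γ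
            ((B.map (IsLocalRing.residue O)).mulVec v) := by
  classical
  choose C hC1 hC2 using exists_scaledSlash D c0
  obtain ⟨d, b, B, u, hb, hB, hu⟩ := exists_frame (O := O) fun i : Idx D.S => ⇑(c0 • D.form i)
  -- slashing acts on the frame by `u * C γ * B`
  obtain ⟨R, hR⟩ := exists_slashHom hb (fun γ : lvl D.MA 3 => u * C γ * B) fun γ r => by
    rw [hu, SlashAction.sum_slash]
    simp only [smul_slash_two, hC2]
    rw [sum_smul_sum_smul]
    simp only [hB, sum_smul_sum_smul]
    rfl
  let F : Fin d → CuspForm (gammaGL (27 * M)) 2 := fun r =>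
    ∑ i, (u r i : ℂ) • (c0 • D.form i)
  have hF : ∀ r, (F r : ℍ → ℂ) = b r := fun r => by
    rw [hu]
    funext τ
    simp only [F, FunLike.coe_sum, Finset.sum_apply]
    rfl
  refine ⟨d, R, F, B, fun γ τ => ?_, fun γ hγ => funext fun r => hb ?_, fun i => ?_, fun v hv => ?_,
    fun γ v => ?_⟩
  · funext r
    rw [hF, hR, matRep_apply]
    simp only [Finset.sum_apply, Matrix.mulVec, dotProduct, tupVal, hF, Matrix.map_apply]
    rfl
  · have e := slash_cuspForm (F r) hγ
    rw [hF, hR] at e
    refine e.trans ?_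
    simp [Matrix.one_apply, ite_smul]
  · refine DFunLike.coe_injective ?_
    rw [hB]
    funext τ
    simp only [FunLike.coe_sum, Finset.sum_apply]
    refine Finset.sum_congr rfl fun r _ => ?_
    change (B i r : ℂ) * b r τ = (B i r : ℂ) * F r τ
    rw [hF]
  · have huB : u * B = 1 := funext fun r => hb <| by
      have e := hu r
      simp only [hB, sum_smul_sum_smul] at e
      refine e.symm.trans ?_
      simp [Matrix.one_apply, ite_smul]
    rw [← Matrix.one_mulVec v, ← Matrix.map_one (IsLocalRing.residue O) (map_zero _) (map_one _),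
      ← huB, Matrix.map_mul, ← Matrix.mulVec_mulVec, hv, Matrix.mulVec_zero]
  · have hCB : C γ * B = B * R γ := funext fun i => hb <| by
      have e := hC2 γ i
      rw [hB i, SlashAction.sum_slash] at e
      simp only [smul_slash_two, hR, hB, sum_smul_sum_smul] at e
      exact e.symm
    have hCres : (C γ).map (IsLocalRing.residue O) =
        Matrix.of (augMat (IsLocalRing.ResidueField O) (γ : SL(2, ℤ))) :=
      Matrix.ext fun i l => hC1 γ i l
    change _ = (Matrix.of (augMat (IsLocalRing.ResidueField O) (γ : SL(2, ℤ)))).mulVec _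
    rw [matRep_apply, Matrix.mulVec_mulVec, Matrix.mulVec_mulVec, ← hCres, ← Matrix.map_mul,
      ← Matrix.map_mul, hCB]

end FermatAgent.LT.Mod3
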