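import Mathlib
import Fermat.Agent.LT.Mod3.Scale
import Fermat.Agent.LT.Mod3.Eval
import Fermat.Agent.LT.Mod3.Climb

/-!
# The eigensystem occurs in the parabolic homomorphisms of level `3M` modulo three

Hecke operators `opsForm` on weight two forms for `Γ(N)` and `opsEq` on tuples transforming by a
representation are compatible with the class map (`classMap_opsEq`) and with reduction. So
integral expansions that are eigensequences modulo the maximal ideal give a system occurring in
cohomology modulo three (`occurs_reduction`). The main theorem `occurs_parHoms` concludes that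
the weight one eigensystem `t`, with `t p₀ ≢ 2`, occurs in the parabolic homomorphisms of
`Γ₀(3M)` modulo three.
-/

set_option autoImplicit false
set_option maxSynthPendingDepth 4

noncomputable section

open CongruenceSubgroup ModularCurve.Period
open scoped MatrixGroups ModularForm OnePoint

namespace FermatAgent.LT.Mod3

open FermatAgent.HM

section Ops

variable {A : Type*} [CommRing A]

/-- `T_p` on expansions. -/
def seqOp (A : Type*) [CommRing A] (p : ℕ) : Module.End A (ℕ → A) where
  toFun c n := c (p * n) + (p : A) * (if p ∣ n then c (n / p) else 0)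
  map_add' c c' := funext fun n => by
    simp only [Pi.add_apply]; split_ifs <;> ring
  map_smul' r c := funext fun n => by
    simp only [Pi.smul_apply, smul_eq_mul, RingHom.id_apply]; split_ifs <;> ring

lemma seqOp_map {B : Type*} [CommRing B] (f : A →+* B) (p : ℕ) (c : ℕ → A) :
    f ∘ seqOp A p c = seqOp B p (f ∘ c) := funext fun n => by
  simp only [seqOp, LinearMap.coe_mk, AddHom.coe_mk, Function.comp_apply, map_add, map_mul,
    map_natCast, apply_ite f, map_zero]

end Ops

variable {N : ℕ} [NeZero N] (S : Sys N) {Γ : Subgroup SL(2, ℤ)} (hΓ : CongLevel N Γ)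

omit [NeZero N] in
lemma cong_rep_pos (p : S.P) (x : OnePoint (ZMod p)) :
    0 < ((congCorr (S.cong p p.2) Γ hΓ.gamma_le).rep x).det := by
  change 0 < (congRep N p x).det
  rw [congRep_det]
  exact_mod_cast (S.cong p p.2).prime.pos

omit [NeZero N] in
lemma cong_fac_mem (p : S.P) (γ : Γ) (x : OnePoint (ZMod p)) (hγ : (γ : SL(2, ℤ)) ∈ Gamma N) :
    ((congCorr (S.cong p p.2) Γ hΓ.gamma_le).fac γ x : SL(2, ℤ)) ∈ Gamma N := by
  rw [mem_Gamma_iff_red] at hγ ⊢
  rw [congCorr_fac_coe, moveFac_red, hγ]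

/-- `T_p` on weight two forms for `Γ(N)`. -/
def opsForm (p : S.P) : Module.End ℂ (CuspForm (gammaGL N) 2) :=
  opForm (congCorr (S.cong p p.2) Γ hΓ.gamma_le) (cong_rep_pos S hΓ p) hΓ.gamma_le
    (cong_fac_mem S hΓ p)

lemma formCoeff_opsForm (p : S.P) (f : CuspForm (gammaGL N) 2) (n : ℕ) :
    formCoeff n (opsForm S hΓ p f) = seqOp ℂ p (fun m => formCoeff m f) n := by
  refine (formCoeff_hecke (congCorr (S.cong p p.2) Γ hΓ.gamma_le) (fun j => rfl) 1
    (by
      change !![((p : ℕ) : ℤ), 0; 0, 1] = _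
      rw [Matrix.SpecialLinearGroup.coe_one, one_mul]) f f _ ?_ rfl n).trans rfl
  rw [SlashAction.slash_one]

variable {d : ℕ} {ρ : Representation ℂ Γ (Fin d → ℂ)} (hρ : IsLevel N ρ)

/-- `T_p` on the tuples. -/
def opsEq (p : S.P) : Module.End ℂ (eqForms (N := N) ρ) where
  toFun F := ⟨fun r => opsForm S hΓ p (F.1 r),
    opTup_mem _ _ _ _ (fun γ x => hρ.rho_fac _ hΓ γ x) F.2⟩
  map_add' _ _ := Subtype.ext (funext fun _ => map_add (opsForm S hΓ p) _ _)
  map_smul' _ _ := Subtype.ext (funext fun _ => map_smul (opsForm S hΓ p) _ _)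

lemma classMap_opsEq (p : S.P) (F : eqForms (N := N) ρ) :
    classMap ρ (opsEq S hΓ hρ p F) = opsH S hΓ hρ p (classMap ρ F) := by
  obtain ⟨c, c', h1, h2, h3⟩ := classMap_opTup (congCorr (S.cong p p.2) Γ hΓ.gamma_le)
    (cong_rep_pos S hΓ p) hΓ.gamma_le (cong_fac_mem S hΓ p)
    (fun γ x => hρ.rho_fac _ hΓ γ x) F
  rw [h1, opsH, opH_mk]
  refine h3.trans (congrArg _ (Subtype.ext (funext fun γ => ?_)))
  rw [h2, opZc_apply]

section Push

variable {O : ValuationSubring ℂ} (R : Γ →* Matrix (Fin d) (Fin d) O)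

omit [NeZero N] in
lemma isLevel_matRep (hR : ∀ γ : Γ, (γ : SL(2, ℤ)) ∈ Gamma N → R γ = 1) {A : Type*} [CommRing A]
    (f : O →+* A) : IsLevel N (matRep R f) := fun γ hγ => LinearMap.ext fun v => by
  rw [matRep_apply, hR γ hγ, Matrix.map_one f (map_zero f) (map_one f), Matrix.one_mulVec,
    Module.End.one_apply]

omit [NeZero N] in
lemma pushH_opsH (hR : ∀ γ : Γ, (γ : SL(2, ℤ)) ∈ Gamma N → R γ = 1) {A : Type*} [CommRing A]
    (f : O →+* A) (p : S.P) (z : H1 (matRep R (RingHom.id O))) :
    pushH R f (opsH S hΓ (isLevel_matRep R hR _) p z) =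
      opsH S hΓ (isLevel_matRep R hR f) p (pushH R f z) := by
  induction z using H1.induction with
  | _ c =>
    rw [pushH_mk, opsH, opsH, opH_mk, opH_mk, pushH_mk]
    refine congrArg _ (Subtype.ext (funext fun γ => funext fun i => ?_))
    rw [pushZ_apply, Function.comp_apply, opZc_apply, opZc_apply, Finset.sum_apply,
      Finset.sum_apply, map_sum]
    rfl

/-- A relation killing the integral classes kills the coefficient sequences of the forms. -/
private lemma evalEnd_seqOp_eq_zero [Group.FG Γ]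
    (hR : ∀ γ : Γ, (γ : SL(2, ℤ)) ∈ Gamma N → R γ = 1)
    {ι : Type*} (F : Fin d → CuspForm (gammaGL N) 2)
    (hF : F ∈ eqForms (matRep R (algebraMap O ℂ))) (B : ι → Fin d → O) (cf : ι → ℕ → O)
    (hcf : ∀ i n, formCoeff n (∑ r, (B i r : ℂ) • F r) = (cf i n : ℂ))
    {s' : FreeAlgebra O S.P}
    (hs' : evalEnd (RingHom.id O) (fun p => opsH S hΓ (isLevel_matRep R hR _) p) s' =
      (0 : Module.End O (H1 (matRep R (RingHom.id O))))) (i : ι) :
    evalEnd (RingHom.id O) (fun p : S.P => seqOp O p) s' (cf i) = 0 := by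
  classical
  set TO : S.P → Module.End O (H1 (matRep R (RingHom.id O))) :=
    fun p => opsH S hΓ (isLevel_matRep R hR _) p
  -- it kills the complex classes
  set ρC := matRep R (algebraMap O ℂ)
  have hC : ∀ z : H1 ρC,
      evalEnd (algebraMap O ℂ) (fun p => opsH S hΓ (isLevel_matRep R hR _) p) s' z = 0 := by
    intro z
    obtain ⟨c, z', hc, hz⟩ := exists_smul_mem_pushH R z
    have e := evalEnd_natural (f := RingHom.id O) (f' := algebraMap O ℂ) (T := TO)
      (pushH R (algebraMap O ℂ)) (fun r x => pushH_smul R _ r x)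
      (T' := fun p => opsH S hΓ (isLevel_matRep R hR _) p)
      (fun p x => pushH_opsH S hΓ R hR _ p x) s' z'
    rw [hs', LinearMap.zero_apply, map_zero, hz, map_smul] at e
    exact (smul_eq_zero.mp e.symm).resolve_left fun h => hc (Subtype.ext h)
  -- it kills the forms
  have hlev := isLevel_matRep R hR (algebraMap O ℂ)
  have hF0 : evalEnd (algebraMap O ℂ) (opsEq S hΓ hlev) s' ⟨F, hF⟩ = 0 := by
    refine classMap_injective hΓ.gamma_le hlev ?_
    rw [map_zero]
    refine (evalEnd_natural (classMap (N := N) ρC).toAddMonoidHom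
      (fun r x => (classMap (N := N) ρC).map_smul (algebraMap O ℂ r) x)
      (fun p x => classMap_opsEq S hΓ hlev p x) s' ⟨F, hF⟩).trans ?_
    exact hC _
  have hFr : ∀ r, evalEnd (algebraMap O ℂ) (opsForm S hΓ) s' (F r) = 0 := fun r => by
    have e := evalEnd_natural (f := algebraMap O ℂ) (f' := algebraMap O ℂ)
      (T := opsEq S hΓ hlev) (T' := opsForm S hΓ)
      (((LinearMap.proj r : (Fin d → CuspForm (gammaGL N) 2) →ₗ[ℂ] _).comp
        (eqForms (N := N) ρC).subtype).toAddMonoidHom)
      (fun c x => rfl) (fun p x => rfl) s' ⟨F, hF⟩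
    rw [hF0, map_zero] at e
    exact e.symm
  -- the expansions
  have hseqC : evalEnd (algebraMap O ℂ) (fun p : S.P => seqOp ℂ p) s'
      (fun m => (cf i m : ℂ)) = 0 := by
    let Ψ : CuspForm (gammaGL N) 2 →+ (ℕ → ℂ) :=
      (LinearMap.pi fun m => formCoeff m).toAddMonoidHom
    have e := evalEnd_natural (f := algebraMap O ℂ) (f' := algebraMap O ℂ)
      (T := opsForm S hΓ) (T' := fun p : S.P => seqOp ℂ p) Ψ
      (fun c x => map_smul (LinearMap.pi fun m => formCoeff m) _ x)
      (fun p x => funext fun m => formCoeff_opsForm S hΓ p x m) s' (∑ r, (B i r : ℂ) • F r)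
    rw [show Ψ (∑ r, (B i r : ℂ) • F r) = fun m => (cf i m : ℂ) from funext fun m => hcf i m] at e
    rw [← e, map_sum]
    simp only [map_smul, hFr, smul_zero, Finset.sum_const_zero]
    exact map_zero Ψ
  have e := evalEnd_natural (f := RingHom.id O) (f' := algebraMap O ℂ)
    (T := fun p : S.P => seqOp O p) (T' := fun p : S.P => seqOp ℂ p)
    ((algebraMap O ℂ).toAddMonoidHom.compLeft ℕ)
    (fun c x => funext fun m => by simp) (fun p x => seqOp_map (algebraMap O ℂ) p x) s' (cf i)
  funext m
  refine Subtype.val_injective ?_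
  exact (congrFun (e.trans hseqC) m)

omit [NeZero N] in
/-- Modulo the prime over three the primes of the system are one. -/
private lemma natCast_residue_eq_one (hO3 : (3 : O) ∈ IsLocalRing.maximalIdeal O) (h3N : 3 ∣ N)
    (p : S.P) : (((p : ℕ)) : IsLocalRing.ResidueField O) = 1 := by
  have h' := mod_three_of_cast_eq_one h3N (S.cong p p.2).cast_eq_one
  have h3 : (3 : IsLocalRing.ResidueField O) = 0 := by
    rw [← map_ofNat (IsLocalRing.residue O) 3, IsLocalRing.residue_eq_zero_iff]
    exact hO3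
  rw [← Nat.mod_add_div (p : ℕ) 3, h', Nat.cast_add, Nat.cast_mul, Nat.cast_one,
    Nat.cast_ofNat, h3, zero_mul, add_zero]

/-- If the expansions of combinations of forms transforming by `R` are integral, not all zero and
eigensequences modulo the maximal ideal, then the eigensystem occurs in `H¹(Γ, R mod 𝔪)`: the
classes of the forms span a lattice killed by every relation killing the system. -/
theorem occurs_reduction [Group.FG Γ] (hO3 : (3 : O) ∈ IsLocalRing.maximalIdeal O) (h3N : 3 ∣ N)
    (hR : ∀ γ : Γ, (γ : SL(2, ℤ)) ∈ Gamma N → R γ = 1)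
    {ι : Type*} (F : Fin d → CuspForm (gammaGL N) 2)
    (hF : F ∈ eqForms (matRep R (algebraMap O ℂ))) (B : ι → Fin d → O) (cf : ι → ℕ → O)
    (hcf : ∀ i n, formCoeff n (∑ r, (B i r : ℂ) • F r) = (cf i n : ℂ))
    (hne : ∃ i n, IsLocalRing.residue O (cf i n) ≠ 0) (t : ℕ → ℤ)
    (heig : ∀ p : S.P, ∀ i, IsHeckeSeq (fun n => IsLocalRing.residue O (cf i n)) p (t p)) :
    Occurs (opsH S hΓ (isLevel_matRep R hR (IsLocalRing.residue O)))
      (fun p : S.P => (t p : IsLocalRing.ResidueField O)) := by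
  classical
  set res := IsLocalRing.residue O
  set a : S.P → IsLocalRing.ResidueField O := fun p => (t p : IsLocalRing.ResidueField O)
  have := HM.H1.module_finite (matRep R res)
  have := moduleFinite_H1 R
  refine occurs_of_annihilator res IsLocalRing.residue_surjective fun s hs => ?_
  -- the relation lifts
  set TO : S.P → Module.End O (H1 (matRep R (RingHom.id O))) :=
    fun p => opsH S hΓ (isLevel_matRep R hR _) p
  set φ := evalEnd (RingHom.id O) TO s
  have hrange : LinearMap.range φ ≤ IsLocalRing.maximalIdeal O • ⊤ := by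
    rintro _ ⟨z, rfl⟩
    refine mem_smul_top_of_pushH_eq_zero R ?_
    rw [evalEnd_natural (f' := res) (pushH R res) (fun r x => pushH_smul R res r x)
      (T' := fun p => opsH S hΓ (isLevel_matRep R hR res) p)
      (fun p x => pushH_opsH S hΓ R hR res p x) s z]
    exact LinearMap.congr_fun hs _
  obtain ⟨q, hq, -, hqc, hq0⟩ :=
    LinearMap.exists_monic_and_natDegree_eq_and_coeff_mem_pow_and_aeval_eq_zero (R := O) (f := φ)
      (I := IsLocalRing.maximalIdeal O) (hI := hrange)
  set s' : FreeAlgebra O S.P := q.eval₂ (algebraMap O _) s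
  have hs' : evalEnd (RingHom.id O) TO s' = 0 := by
    rw [Polynomial.hom_eval₂, ← hq0, Polynomial.aeval_def]
    congr 1
    exact RingHom.ext fun r => evalEnd_algebraMap _ _ r
  obtain ⟨i, n, hin⟩ := hne
  have hseqO : evalEnd (RingHom.id O) (fun p : S.P => seqOp O p) s' (cf i) = 0 :=
    evalEnd_seqOp_eq_zero S hΓ R hR F hF B cf hcf hs' i
  have hresp : ∀ p : S.P, (((p : ℕ)) : IsLocalRing.ResidueField O) = 1 :=
    natCast_residue_eq_one S hO3 h3N
  have hv : ∀ p : S.P, seqOp (IsLocalRing.ResidueField O) p (res ∘ cf i) = a p • (res ∘ cf i) :=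
    fun p => funext fun m => by
      simp only [seqOp, LinearMap.coe_mk, AddHom.coe_mk, Function.comp_apply, hresp p, one_mul,
        Pi.smul_apply, smul_eq_mul]
      exact heig p i m
  have e := evalEnd_natural (f := RingHom.id O) (f' := res)
    (T := fun p : S.P => seqOp O p) (T' := fun p : S.P => seqOp (IsLocalRing.ResidueField O) p)
    (res.toAddMonoidHom.compLeft ℕ) (fun c x => funext fun m => by simp)
    (fun p x => seqOp_map res p x) s' (cf i)
  rw [hseqO, map_zero] at e
  have e' : evalScalar res a s' • (res ∘ cf i) = 0 := by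
    rw [← evalEnd_scalar res a hv s']
    exact e.symm
  have h0 : evalScalar res a s' = 0 := by
    have := congrFun e' n
    simp only [Pi.smul_apply, Function.comp_apply, Pi.zero_apply, smul_eq_mul, mul_eq_zero] at this
    exact this.resolve_right hin
  rw [Polynomial.hom_eval₂,
    show (evalScalar res a).comp (algebraMap O (FreeAlgebra O S.P)) = res from
      RingHom.ext fun r => evalScalar_algebraMap res a r, ← Polynomial.eval_map] at h0
  have hmap : q.map res = Polynomial.X ^ q.natDegree := by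
    ext m
    rw [Polynomial.coeff_map, Polynomial.coeff_X_pow]
    rcases lt_trichotomy m q.natDegree with h | rfl | h
    · rw [if_neg h.ne, IsLocalRing.residue_eq_zero_iff]
      exact Ideal.pow_le_self (by omega) (hqc m)
    · rw [if_pos rfl, hq.coeff_natDegree, map_one]
    · rw [if_neg h.ne', Polynomial.coeff_eq_zero_of_natDegree_lt h, map_zero]
  rw [hmap, Polynomial.eval_pow, Polynomial.eval_X] at h0
  exact pow_eq_zero_iff'.mp h0 |>.1

end Push

section Main

variable {M : ℕ} {O : ValuationSubring ℂ} {t : ℕ → ℤ} {P₀ : Set ℕ}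

/-- The system of the primes of `P₀`. -/
def inputSys (hP : ∀ p ∈ P₀, IsCongPrime (27 * M) p) : Sys (27 * M) := ⟨P₀, hP⟩

lemma two_ne_zero_residue (hO3 : (3 : O) ∈ IsLocalRing.maximalIdeal O) :
    (2 : IsLocalRing.ResidueField O) ≠ 0 := by
  intro h2
  have h3 : (3 : IsLocalRing.ResidueField O) = 0 := by
    rw [← map_ofNat (IsLocalRing.residue O) 3, IsLocalRing.residue_eq_zero_iff]
    exact hO3
  exact one_ne_zero (α := IsLocalRing.ResidueField O) (by linear_combination h3 - h2)

/-- **The congruence**: the eigensystem `t` of the weight one input, with `t p₀ ≢ 2` at some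
`p₀`, occurs in the parabolic homomorphisms `Γ₀(3M) → k` modulo three, `k` the residue field.  The
forms times the hexagonal theta series give classes on `±Γ(27) ∩ Γ₀(MA)` with coefficients in the
functions on the product of projective lines, that is homomorphisms on `±Γ(27) ∩ Γ₀(M)`; these
climb to `Γ₀(3M)`. -/
theorem occurs_parHoms [NeZero (27 * M)] [CharP (IsLocalRing.ResidueField O) 3]
    (D : Input M O t P₀) (hM : IsInputLevel M)
    (hP : ∀ p ∈ P₀, IsCongPrime (27 * M) p) {p₀ : ℕ} (hp₀ : p₀ ∈ P₀)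
    (ht : (t p₀ : IsLocalRing.ResidueField O) ≠ 2) :
    Occurs (X := parHoms (IsLocalRing.ResidueField O) (Gamma0 (3 * M)))
      (opsPar (inputSys hP) (congLevel_gamma0 M) (K := IsLocalRing.ResidueField O))
      (fun p : (inputSys hP).P => (t p : IsLocalRing.ResidueField O)) := by
  classical
  set k := IsLocalRing.ResidueField O
  set S := inputSys hP
  have hO3 : (3 : O) ∈ IsLocalRing.maximalIdeal O := by
    rw [← IsLocalRing.residue_eq_zero_iff, map_ofNat]
    exact_mod_cast CharP.cast_eq_zero k 3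
  have hΓ : CongLevel (27 * M) (lvl D.MA 3) := congLevel_lvl_of_dvd D.MA_dvd
  have : (lvl D.MA 3).FiniteIndex := Subgroup.finiteIndex_of_le hΓ.gamma_le
  have : Group.FG (lvl D.MA 3) := inferInstance
  obtain ⟨c0, cf, hcf, hne, heig⟩ := exists_scaled D hO3
  obtain ⟨d, R, F, B, hF, hR, hGF, hinj, hequiv⟩ := exists_basis D c0
  have h1 := occurs_reduction S hΓ R hO3 (Dvd.dvd.mul_right (by norm_num) M) hR F hF B cf
    (fun i n => by rw [← hGF, hcf]) hne t (fun p i => heig p p.2 i)
  set a : S.P → k := fun p => (t p : k)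
  have h0 : (((⟨p₀, hp₀⟩ : S.P) : ℕ) : k) + 1 ≠ a ⟨p₀, hp₀⟩ := by
    have h' : p₀ % 3 = 1 := mod_three_of_cast_eq_one (Dvd.dvd.mul_right (by norm_num : 3 ∣ 27) M)
      (hP p₀ hp₀).cast_eq_one
    change (p₀ : k) + 1 ≠ (t p₀ : k)
    rw [CharP.cast_eq_mod k 3 p₀, h', Nat.cast_one, one_add_one_eq_two]
    exact ht.symm
  have hS : ∀ q ∈ D.S, (q : ℕ) ∣ 27 * M := fun q hq => by
    refine Dvd.dvd.mul_left ?_ 27
    rw [← D.level_eq]
    exact Dvd.dvd.mul_left (Finset.dvd_prod_of_mem _ hq) _
  have hperm : IsLevel (27 * M) (permRep D.S k (lvl D.MA 3)) := fun g hg =>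
    LinearMap.ext fun f => funext fun x => congrArg f (act_eq_of_gamma D.S hS hg x)
  have haug : IsLevel (27 * M) (augRep D.S k (lvl D.MA 3)) := fun g hg => LinearMap.ext fun v => by
    obtain ⟨f, rfl⟩ := diffMap_surjective D.S k v
    rw [← diffMap_isEquiv D.S k (lvl D.MA 3) g f, hperm g hg, Module.End.one_apply,
      Module.End.one_apply]
  have h2 := occurs_of_injective S hΓ (isLevel_matRep R hR (IsLocalRing.residue O)) haug h0
    (Matrix.mulVecLin (B.map (IsLocalRing.residue O))) hequiv
    ((injective_iff_map_eq_zero _).mpr hinj) h1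
  have hneg : ∀ y, permRep D.S k (lvl D.MA 3) ⟨-1, hΓ.neg_mem⟩ y = y := fun y =>
    funext fun x => congrArg y (funext fun q => by
      change moebius q.1 (-1) (x q) = x q
      rw [show (-1 : SL(2, ℤ)) = -(1 : SL(2, ℤ)) from rfl, moebius_neg, moebius_one])
  have hnega : ∀ v, augRep D.S k (lvl D.MA 3) ⟨-1, hΓ.neg_mem⟩ v = v := fun v => by
    obtain ⟨f, rfl⟩ := diffMap_surjective D.S k v
    rw [← diffMap_isEquiv D.S k (lvl D.MA 3) _ f, hneg]
  have h3' := occurs_of_surjective S hΓ hperm haug hneg hnega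
    (isUnit_iff_ne_zero.mpr (two_ne_zero_residue hO3)) (fun γ hγ => trace_ne_one_of_mem_lvl hγ)
    (diffMap D.S k) (diffMap_isEquiv D.S k _) (diffMap_surjective D.S k) h2
  have hn0 : ∀ q ∈ D.S, ¬ (q : ℕ) ∣ 27 * D.MA := fun q hq hd => by
    have hqM : (q : ℕ) ∣ ∏ r ∈ D.S, (r : ℕ) := Finset.dvd_prod_of_mem _ hq
    rcases (Nat.Prime.dvd_mul q.2).mp hd with h | h
    · have h27 : (q : ℕ) ∣ 3 ^ 3 := h
      have hq3 := (Nat.prime_dvd_prime_iff_eq q.2 Nat.prime_three).mp (q.2.dvd_of_dvd_pow h27)
      refine hM.not_three (hq3 ▸ ?_)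
      rw [← D.level_eq]
      exact hqM.mul_left _
    · have hcop : Nat.Coprime D.MA (∏ r ∈ D.S, (r : ℕ)) :=
        Nat.coprime_of_squarefree_mul (D.level_eq.symm ▸ hM.squarefree)
      exact q.2.ne_one (Nat.eq_one_of_dvd_coprimes hcop h hqM)
  have hle : lvl M 3 ≤ lvl D.MA 3 := by
    intro g hg
    obtain ⟨hg1, hg2⟩ := Subgroup.mem_inf.mp hg
    refine Subgroup.mem_inf.mpr ⟨hg1, ?_⟩
    rw [Gamma0_mem, ZMod.intCast_zmod_eq_zero_iff_dvd] at hg2 ⊢
    exact (Int.natCast_dvd_natCast.mpr D.MA_dvd).trans hg2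
  have h4 := occurs_stabiliser S (fun g : lvl D.MA 3 => act D.S g) (fun _ => ∞) hle hΓ
    (congLevel_lvl M le_rfl) (permRep D.S k _) (fun g f => rfl) hperm
    (fun a b q => act_mul D.S a b q) (fun q => act_transitive hn0 q)
    (fun g => act_stab_iff hM.squarefree D.level_eq g) h3'
  exact occurs_climb_levels hM.not_three S h0 h4

end Main

end FermatAgent.LT.Mod3
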