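import Mathlib
import Fermat.Agent.LT.Mod3.Climb
import Fermat.Agent.LT.Mod3.Layers
import Fermat.Agent.HM.HeckeCosets
import Fermat.Agent.Period.Eisenstein.ShimuraLift
import Fermat.Agent.Period.HeckeAction
import Fermat.Agent.Period.Dimension
import Fermat.Agent.MF.IntegralStructure
import Fermat.Agent.MF.Lifting
import Fermat.Agent.HM.H1.Eigenform

/-!
# Lifting a system of parabolic homomorphisms modulo three to an eigenform

When the level has a prime factor `q ≡ 2 (mod 3)`, parabolic homomorphisms to a field of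
characteristic three are combinations of reductions of integral ones (`parHoms_eq_sum`), and the
congruence correspondences act on them as `T_p` (`congCorr_homOp_eq_heckeOp`). A system
occurring in a matrix representation of a ring finite over `ℤ` extends to a character
(`exists_hom_of_occurs`). So `exists_eigenform` gives a weight two eigenform of level
`3M` congruent to the given system modulo a prime over three.
-/

set_option autoImplicit false
set_option maxSynthPendingDepth 4

noncomputable section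

open CongruenceSubgroup ModularCurve.Period
open scoped MatrixGroups OnePoint

namespace FermatAgent.LT.Mod3

open FermatAgent.HM

section NoElliptic

variable {L : ℕ}

lemma fixThree_eq_zero {q : ℕ} (hq : q.Prime) (hq2 : q % 3 = 2) (hqL : q ∣ L) :
    ModularCurve.nuThree L = 0 := by
  have : Fact q.Prime := ⟨hq⟩
  rw [ModularCurve.nuThree, Nat.card_eq_zero]
  left
  refine ⟨fun ⟨x, hx⟩ => ?_⟩
  set y := ZMod.castHom hqL (ZMod q) x
  have hy : y ^ 2 + y + 1 = 0 := by
    have := congrArg (ZMod.castHom hqL (ZMod q)) hx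
    simpa only [map_add, map_pow, map_one, map_zero] using this
  have h3 : (3 : ZMod q) ≠ 0 := by
    intro h
    have h' : ((3 : ℕ) : ZMod q) = 0 := by exact_mod_cast h
    rw [ZMod.natCast_eq_zero_iff] at h'
    rcases (Nat.dvd_prime Nat.prime_three).mp h' with e | e
    · exact hq.ne_one e
    · omega
  have hy1 : y ≠ 1 := fun e => h3 (by rw [e] at hy; linear_combination hy)
  have hy3 : y ^ 3 = 1 := by linear_combination (y - 1) * hy
  have hy0 : y ≠ 0 := fun e => by
    rw [e] at hy3
    simp at hy3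
  have hord : orderOf y = 3 := orderOf_eq_prime hy3 hy1
  have hd := ZMod.orderOf_dvd_card_sub_one hy0
  rw [hord] at hd
  have := hq.two_le
  omega

lemma cocycleOf_S_eq_zero {ψ : Additive (Gamma0 L) →+ ZMod 3} (x : Period.Cosets (Gamma0 L))
    (hx : (ModularGroup.S : SL(2, ℤ)) • x = x) :
    Period.cocycleOf ψ (ModularGroup.S : SL(2, ℤ)) x = 0 := by
  set t := Period.transition (ModularGroup.S : SL(2, ℤ)) x
  have h4 : t ^ 4 = 1 := by
    refine Subtype.ext ?_
    rw [SubgroupClass.coe_pow, Period.coe_transition, hx, OneMemClass.coe_one]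
    have hS : (ModularGroup.S : SL(2, ℤ)) ^ 4 = 1 := by
      rw [show 4 = 2 * 2 from rfl, pow_mul, sq ModularGroup.S, Period.S_mul_self]
      simp
    have := conj_pow (a := (Quotient.out x)⁻¹) (b := (ModularGroup.S : SL(2, ℤ))) (i := 4)
    rw [inv_inv] at this
    rw [this, hS, mul_one, inv_mul_cancel]
  have e : (4 : ℕ) • ψ (Additive.ofMul t) = 0 := by
    rw [← map_nsmul, ← ofMul_pow, h4, ofMul_one, map_zero]
  change ψ (Additive.ofMul t) = 0
  generalize ψ (Additive.ofMul t) = v at e
  revert v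
  decide

variable [NeZero L] {K : Type*} [Field K] [CharP K 3]

/-- Parabolic homomorphisms to a field of characteristic three are reductions. -/
theorem parHoms_eq_sum {q : ℕ} (hq : q.Prime) (hq2 : q % 3 = 2) (hqL : q ∣ L)
    (ψ : parHoms K (Gamma0 L)) (x : Additive (Gamma0 L)) :
    ψ.1 x = ∑ i, (Period.parHom (Gamma0 L) i x : K) *
      ψ.1 (Additive.ofMul (Period.parElt (Gamma0 L) i)) := by
  let : Algebra (ZMod 3) K := ZMod.algebra K 3
  let bK := Module.Free.chooseBasis (ZMod 3) K
  have hlift : ∀ j, ∃ Ψ : parabolicHoms ℤ (Gamma0 L) ℤ,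
      ∀ γ, ((Ψ.1 γ : ℤ) : ZMod 3) = bK.repr (ψ.1 γ) j := fun j => by
    refine Period.exists_parabolic_lift (ψ := ((Finsupp.applyAddHom j).comp
      bK.repr.toLinearMap.toAddMonoidHom).comp ψ.1) (by simp [Gamma0_mem]) ?_ (fun γ hγ => ?_)
      (fun x hx => cocycleOf_S_eq_zero x hx) (fun x hx => ?_)
    · have h := Period.twelve_mul_finrank_cuspForm L
      rw [Period.fixTwo_Gamma0, Period.fixThree_Gamma0, Period.card_cuspSet_Gamma0,
        Period.index_Gamma0]
      omega
    · simp [ψ.2 γ hγ]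
    · exfalso
      have h0 : Period.fixThree (Gamma0 L) = 0 := by
        rw [Period.fixThree_Gamma0, fixThree_eq_zero hq hq2 hqL]
      rw [Period.fixThree, Nat.card_eq_zero] at h0
      rcases h0 with h0 | h0
      · exact h0.false ⟨x, hx⟩
      · exact h0.not_finite inferInstance
  choose Ψ hΨ using hlift
  have hcast : ∀ z : ℤ, algebraMap (ZMod 3) K (z : ZMod 3) = (z : K) := fun z => map_intCast _ z
  have key : ∀ j γ, bK.repr (ψ.1 γ) j = ∑ i, (Period.parHom (Gamma0 L) i γ : ZMod 3) *
      bK.repr (ψ.1 (Additive.ofMul (Period.parElt (Gamma0 L) i))) j := fun j γ => by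
    rw [← hΨ, Period.eq_sum_parHom (Ψ j).2 γ]
    push_cast [smul_eq_mul]
    simp only [hΨ]
  refine bK.repr.injective (Finsupp.ext fun j => ?_)
  rw [key, map_sum, Finsupp.coe_finsetSum, Finset.sum_apply]
  refine Finset.sum_congr rfl fun i _ => ?_
  rw [← hcast, ← Algebra.smul_def, map_smul, Finsupp.smul_apply, smul_eq_mul]

end NoElliptic

section Hecke

variable {N p : ℕ} {L : ℕ} [NeZero L] (h : IsCongPrime N p) (hΓ : Gamma N ≤ Gamma0 L)
variable {R A : Type*} [Semiring R] [AddCommGroup A] [Module R A]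

omit [NeZero L] in
/-- The correspondence with representatives congruent to one is `T_p`. -/
theorem congCorr_homOp_eq_heckeOp [NeZero p] (hpL : ¬ p ∣ L)
    (φ : Additive (Gamma0 L) →+ A) :
    (congCorr h (Gamma0 L) hΓ).homOp φ = Period.heckeOp R L h.prime φ := by
  have : Fact p.Prime := ⟨h.prime⟩
  refine AddMonoidHom.ext fun γ => ?_
  induction γ using Additive.rec with
  | _ γ =>
  rw [Corr.homOp_apply, Period.heckeOp, dif_neg hpL, Period.TransferData.op_apply]
  choose k z hz using exists_shift (N := N) (p := p) h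
  have hinj : Function.Injective z := fun x y e => congRep_unique h
    (γ := ModularGroup.T ^ k x * (ModularGroup.T ^ k y)⁻¹) (by
      rw [hz x, hz y, e, Matrix.SpecialLinearGroup.coe_mul, ← mul_assoc,
        mul_assoc _ _ ((ModularGroup.T ^ k y : SL(2, ℤ)) : Mat2),
        ← Matrix.SpecialLinearGroup.coe_mul, inv_mul_cancel, Matrix.SpecialLinearGroup.coe_one,
        mul_one])
  let e := Equiv.ofBijective z ⟨hinj, Finite.injective_iff_surjective.mp hinj⟩
  set D := Period.transferDataT (N := L) hpL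
  have hTmem : ∀ n : ℤ, ModularGroup.T ^ n ∈ Gamma0 L := fun n => by
    rw [Gamma0_mem, ModularGroup.coe_T_zpow]; simp
  let s : OnePoint (ZMod p) → Gamma0 L := fun x => ⟨_, hTmem (k x)⟩
  let y : OnePoint (ZMod p) → OnePoint (ZMod p) := fun x => e.symm (D.perm γ (z x))
  have hint : ∀ w, repMat p w * ((γ : SL(2, ℤ)) : Mat2) =
      ((D.factor γ w : SL(2, ℤ)) : Mat2) * repMat p (D.perm γ w) := by
    intro w
    have hw := congrArg Units.val (D.factor_spec γ w)
    ext i j
    have hij := congrFun (congrFun hw i) j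
    simp only [Units.val_mul, Matrix.mul_apply, D, Period.transferDataT, ← intGL_repMat,
      val_intGL] at hij ⊢
    simp at hij
    rw [Fin.sum_univ_two, Fin.sum_univ_two]
    exact_mod_cast hij
  have hmove : ∀ x, congRep N p x * ((γ : SL(2, ℤ)) : Mat2) =
      ((s x * D.factor γ (z x) * (s (y x))⁻¹ : Gamma0 L) : SL(2, ℤ)) * congRep N p (y x) := by
    intro x
    rw [hz x, hz (y x), show z (y x) = D.perm γ (z x) from e.apply_symm_apply _, mul_assoc, hint,
      Subgroup.coe_mul, Subgroup.coe_mul, Subgroup.coe_inv, Matrix.SpecialLinearGroup.coe_mul,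
      Matrix.SpecialLinearGroup.coe_mul]
    simp only [mul_assoc, s]
    congr 2
    rw [← mul_assoc, ← Matrix.SpecialLinearGroup.coe_mul, inv_mul_cancel,
      Matrix.SpecialLinearGroup.coe_one, one_mul]
  have hperm : ∀ x, (congCorr h (Gamma0 L) hΓ).perm γ x = y x := fun x => moveIdx_eq h (hmove x)
  have hfac : ∀ x, (congCorr h (Gamma0 L) hΓ).fac γ x = s x * D.factor γ (z x) * (s (y x))⁻¹ :=
    fun x => (congCorr h (Gamma0 L) hΓ).fac_unique (by rw [hperm]; exact hmove x)
  simp only [hfac, ofMul_mul, ofMul_inv, map_add, map_neg, Finset.sum_add_distrib,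
    Finset.sum_neg_distrib]
  rw [show ∑ x, φ (Additive.ofMul (s (y x))) = ∑ x, φ (Additive.ofMul (s x)) from
      Equiv.sum_comp ((e.trans (D.perm γ)).trans e.symm) fun x => φ (Additive.ofMul (s x)),
    show ∑ x, φ (Additive.ofMul (D.factor γ (z x))) = ∑ w, φ (Additive.ofMul (D.factor γ w)) from
      Equiv.sum_comp e fun w => φ (Additive.ofMul (D.factor γ w))]
  abel

/-- The matrix of `T_ℓ` gives the values on the basic elements. -/
lemma parMat_heckeAt {ℓ : ℕ} (hℓ : ℓ.Prime) (i j : Fin (Period.parRank (Gamma0 L))) :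
    Period.parMat (S := ∅) ⟨_, MF.heckeAt_mem hℓ (Set.notMem_empty ℓ)⟩ j i =
      Period.heckeOp ℤ L hℓ (Period.parHom (Gamma0 L) i)
        (Additive.ofMul (Period.parElt (Gamma0 L) j)) := by
  have h1 := Period.parAction_apply_parElt ℤ ℤ
    (⟨_, MF.heckeAt_mem hℓ (Set.notMem_empty ℓ)⟩ : CuspForm.heckeAlgebra L 2 ∅)
    (Period.parHomMem (Gamma0 L) i) j
  rw [Period.parAction_heckeAt ℤ ℤ hℓ (Set.notMem_empty ℓ)] at h1
  rw [h1, Finset.sum_eq_single i]
  · simp [Period.parHom_parElt]
  · intro b _ hb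
    simp [Period.parHom_parElt, hb.symm]
  · simp

end Hecke

section Character

/-- A character occurring in a matrix representation of a ring finite over `ℤ` extends. -/
theorem exists_hom_of_occurs {K : Type*} [Field K] {ι : Type*} {r : ℕ} {T : Type*} [CommRing T]
    [Module.Finite ℤ T] (red : T →+* Matrix (Fin r) (Fin r) K) (Tp : ι → T) (t : ι → ℤ)
    (hocc : Occurs (X := Fin r → K) (fun p => Matrix.mulVecLin (red (Tp p)))
      (fun p => (t p : K))) :
    ∃ θ : T →+* AlgebraicClosure K, ∀ p, θ (Tp p) = (t p : AlgebraicClosure K) := by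
  classical
  -- the character on the subalgebra generated
  let ev : MvPolynomial ι ℤ →+* T := MvPolynomial.eval₂Hom (Int.castRingHom T) Tp
  let evK : MvPolynomial ι ℤ →+* K :=
    MvPolynomial.eval₂Hom (Int.castRingHom K) fun p => (t p : K)
  obtain ⟨W, v, hW, hv, hev⟩ := hocc
  have hpoly : ∀ s, (red (ev s)).mulVec v - evK s • v ∈ W ∧
      ∀ w ∈ W, (red (ev s)).mulVec w ∈ W := by
    intro s
    induction s using MvPolynomial.induction_on with
    | C z =>
      have e : ∀ w : Fin r → K, (red (ev (MvPolynomial.C z))).mulVec w = (z : K) • w := fun w => by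
        simp [ev, Matrix.intCast_mulVec]
      refine ⟨?_, fun w hw => ?_⟩
      · rw [e, show evK (MvPolynomial.C z) = (z : K) by simp [evK], sub_self]
        exact W.zero_mem
      · rw [e]
        exact W.smul_mem _ hw
    | add f g hf hg =>
      refine ⟨?_, fun w hw => ?_⟩
      · rw [map_add, map_add, map_add, Matrix.add_mulVec, add_smul, add_sub_add_comm]
        exact W.add_mem hf.1 hg.1
      · rw [map_add, map_add, Matrix.add_mulVec]
        exact W.add_mem (hf.2 w hw) (hg.2 w hw)
    | mul_X f p hf =>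
      have eX : ev (MvPolynomial.X p) = Tp p := MvPolynomial.eval₂Hom_X' ..
      have eK : evK (MvPolynomial.X p) = (t p : K) := MvPolynomial.eval₂Hom_X' ..
      refine ⟨?_, fun w hw => ?_⟩
      · rw [map_mul, map_mul, map_mul, eX, eK, ← Matrix.mulVec_mulVec]
        have h1 := hev p
        rw [Matrix.mulVecLin_apply] at h1
        have e : (red (ev f)).mulVec ((red (Tp p)).mulVec v) - (evK f * (t p : K)) • v =
            (red (ev f)).mulVec ((red (Tp p)).mulVec v - (t p : K) • v) +
              (t p : K) • ((red (ev f)).mulVec v - evK f • v) := by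
          rw [Matrix.mulVec_sub, Matrix.mulVec_smul, smul_sub, smul_smul, mul_comm (evK f)]
          abel
        rw [e]
        exact W.add_mem (hf.2 _ h1) (W.smul_mem _ hf.1)
      · rw [map_mul, map_mul, eX, ← Matrix.mulVec_mulVec]
        exact hf.2 _ (hW p w hw)
  have hker : RingHom.ker ev ≤ RingHom.ker evK := fun s hs => by
    rw [RingHom.mem_ker] at hs ⊢
    have h1 := (hpoly s).1
    rw [hs, map_zero, Matrix.zero_mulVec, zero_sub] at h1
    by_contra h0
    exact hv ((W.smul_mem_iff h0).mp (W.neg_mem_iff.mp h1))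
  let T₀ := ev.range
  let θ₀ : T₀ →+* K := RingHom.liftOfSurjective ev.rangeRestrict ev.rangeRestrict_surjective
    ⟨evK, (RingHom.ker_rangeRestrict ev).le.trans hker⟩
  have hθ₀ : ∀ s, θ₀ (ev.rangeRestrict s) = evK s := fun s =>
    RingHom.liftOfSurjective_comp_apply ev.rangeRestrict ev.rangeRestrict_surjective
      ⟨evK, (RingHom.ker_rangeRestrict ev).le.trans hker⟩ s
  have : Algebra.IsIntegral T₀ T := ⟨fun x =>
    (Algebra.IsIntegral.isIntegral (R := ℤ) x).tower_top⟩
  have : FaithfulSMul T₀ T :=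
    (faithfulSMul_iff_algebraMap_injective T₀ T).mpr Subtype.val_injective
  obtain ⟨θ, hθ⟩ := HM.exists_ringHom_extension (T := T) (K := AlgebraicClosure K)
    ((algebraMap K (AlgebraicClosure K)).comp θ₀)
  refine ⟨θ, fun p => ?_⟩
  have h1 := RingHom.congr_fun hθ (ev.rangeRestrict (MvPolynomial.X p))
  rw [RingHom.comp_apply, RingHom.comp_apply, hθ₀] at h1
  have e1 : algebraMap T₀ T (ev.rangeRestrict (MvPolynomial.X p)) = Tp p :=
    MvPolynomial.eval₂Hom_X' ..
  rw [e1, show evK (MvPolynomial.X p) = (t p : K) from MvPolynomial.eval₂Hom_X' .., map_intCast]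
    at h1
  exact h1

end Character

section Eigen

variable {K : Type*} [Field K] [CharP K 3] {M : ℕ} (S : Sys (27 * M))

lemma not_dvd_level (p : S.P) : ¬ (p : ℕ) ∣ 3 * M := fun hd =>
  (S.cong p p.2).not_dvd (hd.trans (mul_dvd_mul_right (by norm_num) M))

/-- **The eigenform**: a system modulo three occurring in the parabolic homomorphisms of `Γ₀(3M)`
is congruent, at a prime of `ℤ̄` over `3`, to the eigenvalues of an eigenform of weight two and
level `3M`, `M` having a prime factor `q ≡ 2 (mod 3)`. -/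
theorem exists_eigenform [NeZero (3 * M)]
    (hq : ∃ q : ℕ, q.Prime ∧ q ∣ M ∧ q % 3 = 2) (t : ℕ → ℤ)
    (h : Occurs (X := parHoms K (Gamma0 (3 * M))) (opsPar S (congLevel_gamma0 M) (K := K))
      (fun p : S.P => (t p : K))) :
    ∃ (g : CuspForm (Gamma0 (3 * M)) 2)
      (χ : CuspForm.heckeAlgebra (3 * M) 2 ∅ →+* integralClosure ℤ ℂ)
      (𝔐 : Ideal (integralClosure ℤ ℂ)),
      MF.IsEigen g ∧ 𝔐.IsMaximal ∧ (3 : integralClosure ℤ ℂ) ∈ 𝔐 ∧
      (∀ (ℓ : ℕ) (hℓ : ℓ.Prime),
        (χ ⟨_, MF.heckeAt_mem hℓ (Set.notMem_empty ℓ)⟩ : ℂ) = ModularFormClass.qCoeff g ℓ) ∧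
      ∀ (p : S.P),
        χ ⟨_, MF.heckeAt_mem (S.cong p p.2).prime (Set.notMem_empty (p : ℕ))⟩ -
          (t p : integralClosure ℤ ℂ) ∈ 𝔐 := by
  classical
  obtain ⟨q, hqp, hqM, hq2⟩ := hq
  set L := 3 * M
  have hqL : q ∣ L := hqM.mul_left 3
  set r := Period.parRank (Gamma0 L)
  set T := CuspForm.heckeAlgebra L 2 ∅
  let red : T →+* Matrix (Fin r) (Fin r) K :=
    (Int.castRingHom K).mapMatrix.comp (Period.parMatHom L ∅)
  let Tp : S.P → T := fun p => ⟨_, MF.heckeAt_mem (S.cong p p.2).prime (Set.notMem_empty (p : ℕ))⟩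
  -- coordinates
  let Φ : parHoms K (Gamma0 L) →ₗ[K] (Fin r → K) :=
    { toFun := fun ψ i => ψ.1 (Additive.ofMul (Period.parElt (Gamma0 L) i))
      map_add' := fun _ _ => rfl
      map_smul' := fun _ _ => rfl }
  have hΦ : Function.Injective Φ := fun ψ ψ' e => Subtype.ext (AddMonoidHom.ext fun x => by
    rw [parHoms_eq_sum hqp hq2 hqL ψ, parHoms_eq_sum hqp hq2 hqL ψ']
    exact Finset.sum_congr rfl fun i _ => congrArg _ (congrFun e i))
  have hocc : Occurs (X := Fin r → K) (fun p => Matrix.mulVecLin (red (Tp p)))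
      (fun p : S.P => (t p : K)) := by
    refine h.of_injective (f := Φ) (fun p ψ => ?_) hΦ
    funext j
    have : NeZero (p : ℕ) := ⟨(S.cong p p.2).prime.ne_zero⟩
    change (congCorr (S.cong p p.2) (Gamma0 L) _).homOp ψ.1
      (Additive.ofMul (Period.parElt (Gamma0 L) j)) = _
    rw [congCorr_homOp_eq_heckeOp (R := ℤ) (S.cong p p.2) _ (not_dvd_level S p) ψ.1]
    have hψ : ψ.1 = ∑ i, ((AddMonoidHom.mulRight
        (ψ.1 (Additive.ofMul (Period.parElt (Gamma0 L) i)))).comp (Int.castAddHom K)).comp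
          (Period.parHom (Gamma0 L) i) := AddMonoidHom.ext fun x => by
      rw [parHoms_eq_sum hqp hq2 hqL ψ]
      simp
    conv_lhs => rw [hψ, map_sum]
    rw [AddMonoidHom.finsetSum_apply]
    change _ = ∑ i, (red (Tp p)) j i * ψ.1 (Additive.ofMul (Period.parElt (Gamma0 L) i))
    refine Finset.sum_congr rfl fun i _ => ?_
    rw [Period.heckeOp_comp ℤ]
    simp only [AddMonoidHom.comp_apply, AddMonoidHom.mulRight_apply, Int.coe_castAddHom]
    congr 1
    change _ = ((Period.parMat (Tp p) j i : ℤ) : K)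
    rw [parMat_heckeAt]
  have hint := MF.moduleFinite_heckeAlgebra_of_integralStructure
    (MF.hasIntegralStructure L 2) (S := (∅ : Set ℕ))
  obtain ⟨θ, hθ⟩ := exists_hom_of_occurs red Tp (fun p => t p) hocc
  have : CharP (AlgebraicClosure K) 3 :=
    charP_of_injective_algebraMap (algebraMap K (AlgebraicClosure K)).injective 3
  have : Fact (Nat.Prime 3) := ⟨Nat.prime_three⟩
  obtain ⟨g, χ, 𝔐, hg, hχ, hℓ, h𝔐, hp3, hc⟩ :=
    MF.exists_isEigen_lift_of_hom (MF.hasIntegralStructure L 2) 3 θ
  refine ⟨g, χ, 𝔐, hg, h𝔐, by exact_mod_cast hp3, hℓ, fun p => ?_⟩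
  have hmem : Tp p - (t p : T) ∈ RingHom.ker θ := by
    rw [RingHom.mem_ker, map_sub, map_intCast, hθ p, sub_self]
  rw [← hc, Ideal.mem_comap, map_sub, map_intCast] at hmem
  exact hmem

end Eigen

end FermatAgent.LT.Mod3
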